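import Fermat.Agent.LT.ClassField.NormSum
import Fermat.Agent.LT.ClassField.Reciprocity

/-!
# Uniformisers at the places over `2`

At a prime `P` over `2` of residue degree `k` a quartic character agrees on the Frobenius element
with a multiple of the cyclotomic character modulo `2 ^ (4 * k) + 1`; a norm from the field cut out
by the difference is a uniformiser at `P` whose weighted Frobenius values cancel.
-/

set_option autoImplicit false

noncomputable section

open NumberField IsDedekindDomain Finset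
open scoped Pointwise

namespace FermatAgent.LT.ClassField

open FermatAgent.Duality.Global (Over IsPlace exists_over exists_place ord valuation_eq_exp
  finite_setOf_ord_ne_zero exists_smul_eq_of_over)

local notation "Qb" => AlgebraicClosure ℚ
local notation "GQ" => AlgebraicClosure ℚ ≃ₐ[ℚ] AlgebraicClosure ℚ

attribute [local instance] FermatAgent.RT.isGalois_algClosureRat
  FermatAgent.Duality.Global.numberField_of_finite

section Modulus

variable (N : ℕ) [NeZero N]

theorem natCard_roots : Nat.card (rootsOfUnity N Qb) = N :=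
  haveI : NeZero ((N : ℕ) : Qb) := ⟨Nat.cast_ne_zero.2 (NeZero.ne N)⟩
  HasEnoughRootsOfUnity.natCard_rootsOfUnity Qb N

/-- The cyclotomic character modulo `N`. -/
def modUnit : GQ →* (ZMod N)ˣ :=
  (modularCyclotomicCharacter Qb (natCard_roots N)).comp (MulSemiringAction.toRingAut GQ Qb)

/-- The cyclotomic character modulo `N` and sign. -/
def modPM : GQ →* UnitsPM N := (QuotientGroup.mk' _).comp (modUnit N)

theorem modUnit_spec (σ : GQ) {ζ : Qb} (hζ : ζ ^ N = 1) :
    σ ζ = ζ ^ ((modUnit N σ : ZMod N)).val := by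
  have hζ0 : ζ ≠ 0 := fun h => by simp [h, zero_pow (NeZero.ne N)] at hζ
  exact modularCyclotomicCharacter.spec Qb (natCard_roots N) (MulSemiringAction.toRingAut GQ Qb σ)
    (t := Units.mk0 ζ hζ0) ((mem_rootsOfUnity _ _).2 (Units.ext (by simpa using hζ)))

theorem modUnit_eq {σ : GQ} {a : ℕ} (h : ∀ ζ : Qb, ζ ^ N = 1 → σ ζ = ζ ^ a) :
    (modUnit N σ : ZMod N) = a := by
  have : NeZero ((N : ℕ) : Qb) := ⟨Nat.cast_ne_zero.2 (NeZero.ne N)⟩
  obtain ⟨ζ, hζ⟩ := HasEnoughRootsOfUnity.exists_primitiveRoot Qb N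
  have h1 := (modUnit_spec N σ hζ.pow_eq_one).symm.trans (h ζ hζ.pow_eq_one)
  rw [(hζ.isOfFinOrder (NeZero.ne _)).pow_eq_pow_iff_modEq, ← hζ.eq_orderOf] at h1
  rw [← ZMod.natCast_zmod_val (modUnit N σ : ZMod N), ZMod.natCast_eq_natCast_iff']
  exact h1

variable {N} {ℓ : ℕ} {A : ValuationSubring Qb}

omit [NeZero N] in
theorem root_eq_of_close (hℓ : ℓ.Coprime N) (hN : N ≠ 0) (hA : A.LiesOverPrime ℓ) {ζ ξ : Qb}
    (hζ : ζ ^ N = 1) (hξ : ξ ^ N = 1) (h : A.valuation (ξ - ζ) < 1) : ξ = ζ := by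
  have hζ0 : ζ ≠ 0 := fun h0 => by simp [h0, zero_pow hN] at hζ
  have hv : A.valuation ζ = 1 := by
    have h1 : A.valuation ζ ^ N = 1 := by rw [← map_pow, hζ, map_one]
    exact (pow_eq_one_iff.1 h1).resolve_right hN
  refine (div_eq_one_iff_eq hζ0).1
    (FermatAgent.GalRep.eq_one_of_sub_one_mem_nonunits N hℓ hA (n := 1) ?_ ?_)
  · rw [pow_one, div_pow, hξ, hζ, div_one]
  · rw [A.mem_nonunits_iff, div_sub_one hζ0, map_div₀, hv, div_one]
    exact h

theorem modUnit_frobenius (hℓ : ℓ.Coprime N) (hA : A.LiesOverPrime ℓ) {τ : GQ} {n : ℕ}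
    (hτ : A.IsFrobeniusAt τ n) : (modUnit N τ : ZMod N) = n := by
  refine modUnit_eq N fun ζ hζ => ?_
  obtain ⟨-, hf⟩ := TW.isFrobeniusAt_iff.1 hτ
  have hv : A.valuation ζ = 1 := by
    have h1 : A.valuation ζ ^ N = 1 := by rw [← map_pow, hζ, map_one]
    exact (pow_eq_one_iff.1 h1).resolve_right (NeZero.ne N)
  exact root_eq_of_close hℓ (NeZero.ne N) hA (by rw [← pow_mul, mul_comm, pow_mul, hζ, one_pow])
    (by rw [← map_pow, hζ, map_one]) (hf ζ ((A.valuation_le_one_iff _).1 hv.le))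

theorem modPM_inertia (hℓ : ℓ.Coprime N) (hA : A.LiesOverPrime ℓ) {σ : GQ}
    (hσ : σ ∈ A.inertiaSubgroupIn ℚ) : modPM N σ = 1 := by
  have h : modUnit N σ = 1 := Units.ext (by
    rw [modUnit_eq N (a := 1) fun ζ hζ => ?_, Nat.cast_one, Units.val_one]
    have hv : A.valuation ζ = 1 := by
      have h1 : A.valuation ζ ^ N = 1 := by rw [← map_pow, hζ, map_one]
      exact (pow_eq_one_iff.1 h1).resolve_right (NeZero.ne N)
    rw [pow_one]
    exact root_eq_of_close hℓ (NeZero.ne N) hA hζ (by rw [← map_pow, hζ, map_one])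
      (Local.inertia_val_sub_lt_one hσ ((A.valuation_le_one_iff _).1 hv.le)))
  show QuotientGroup.mk' _ (modUnit N σ) = 1
  rw [h, map_one]

variable (N) in
theorem exists_level_modPM : ∃ L : IntermediateField ℚ Qb, FiniteDimensional ℚ L ∧
    ∀ σ ∈ L.fixingSubgroup, modPM N σ = 1 := by
  have : NeZero ((N : ℕ) : Qb) := ⟨Nat.cast_ne_zero.2 (NeZero.ne N)⟩
  obtain ⟨ζ, hζ⟩ := HasEnoughRootsOfUnity.exists_primitiveRoot Qb N
  refine ⟨IntermediateField.adjoin ℚ {ζ}, IntermediateField.adjoin.finiteDimensional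
    ((AlgebraicClosure.isAlgebraic ℚ).isAlgebraic ζ).isIntegral, fun σ hσ => ?_⟩
  have h : modUnit N σ = 1 := Units.ext (by
    rw [modUnit_eq N (a := 1) fun ξ hξ => ?_, Nat.cast_one, Units.val_one]
    obtain ⟨i, -, rfl⟩ := hζ.eq_pow_of_pow_eq_one hξ
    rw [map_pow, pow_one, show σ ζ = ζ from hσ ⟨ζ, IntermediateField.mem_adjoin_simple_self ℚ ζ⟩])
  show QuotientGroup.mk' _ (modUnit N σ) = 1
  rw [h, map_one]

theorem normClass_eq_modPM {M : IntermediateField ℚ Qb} [NumberField M]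
    (hℓ : ℓ.Coprime N) (hA : A.LiesOverPrime ℓ) (P : HeightOneSpectrum (𝓞 M)) {τ : GQ}
    (hτ : A.IsFrobeniusAt τ (Ideal.absNorm P.asIdeal)) : normClass N P = modPM N τ := by
  have h1 := modUnit_frobenius hℓ hA hτ
  have hcop : (Ideal.absNorm P.asIdeal).Coprime N :=
    (ZMod.isUnit_iff_coprime _ _).1 (h1 ▸ Units.isUnit _)
  rw [normClass, dif_pos hcop]
  exact congrArg QuotientGroup.mk (Units.ext (by rw [h1, ZMod.coe_unitOfCoprime]))

end Modulus

/-- Comparing with a natural number is compatible with conjugation. -/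
theorem val_apply_le_natCast {A : ValuationSubring Qb} {N : ℕ} (hN : N ≠ 0) (g : GQ) {t : Qb}
    (h : (g⁻¹ • A).valuation t ≤ (g⁻¹ • A).valuation (N : Qb)) :
    A.valuation (g t) ≤ A.valuation (N : Qb) := by
  have hN' : (N : Qb) ≠ 0 := Nat.cast_ne_zero.2 hN
  rw [← div_le_one₀ (zero_lt_iff.2 ((map_ne_zero _).2 hN')), ← map_div₀,
    ValuationSubring.valuation_le_one_iff] at h ⊢
  rw [ValuationSubring.mem_pointwise_smul_iff_inv_smul_mem, inv_inv, AlgEquiv.smul_def, map_div₀,
    map_natCast] at h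
  exact h

/-- A product of numbers congruent to `1` is congruent to `1`. -/
theorem val_prod_sub_one_le {A : ValuationSubring Qb} {ι : Type*} (s : Finset ι) (u : ι → Qb)
    {c : A.ValueGroup} (hc : c ≤ 1) (h : ∀ i ∈ s, A.valuation (u i - 1) ≤ c) :
    A.valuation (∏ i ∈ s, u i - 1) ≤ c := by
  have h1 := val_prod_one_add_le s (fun i => u i - 1) hc h
  simp only [add_sub_cancel] at h1
  rw [show ∏ i ∈ s, u i - 1 = (∏ i ∈ s, u i - 1 - ∑ i ∈ s, (u i - 1)) + ∑ i ∈ s, (u i - 1) by ring]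
  exact A.valuation.map_add_le (h1.trans (pow_le_of_le_one zero_le hc two_ne_zero))
    (A.valuation.map_sum_le h)

theorem natCast_mem_iff {M : IntermediateField ℚ Qb} [NumberField M] {A : ValuationSubring Qb}
    {P : HeightOneSpectrum (𝓞 M)} (hA : Over M A P) (n : ℕ) :
    (n : 𝓞 M) ∈ P.asIdeal ↔ A.valuation (n : Qb) < 1 := by
  rw [hA.mem_iff, show ((((n : 𝓞 M) : M)) : Qb) = (n : Qb) from
    map_natCast ((algebraMap M Qb).comp (algebraMap (𝓞 M) M)) n]

theorem liesOver_unique {A : ValuationSubring Qb} {l l' : ℕ} (hl : l.Prime) (hl' : l'.Prime)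
    (h : A.LiesOverPrime l) (h' : A.LiesOverPrime l') : l = l' := by
  by_contra hne
  have h1 := FermatAgent.Local.val_intCast_eq_one hl h (m := (l' : ℤ)) fun hd => hne
    ((Nat.prime_dvd_prime_iff_eq hl hl').1 (Int.natCast_dvd_natCast.1 hd))
  rw [Int.cast_natCast] at h1
  exact absurd h1 (A.mem_nonunits_iff.1 h').ne

namespace QuarticChar

variable (C : QuarticChar)

/-- The group of the character and a cyclotomic one. -/
def QuartMod (N : ℕ) : Type := Multiplicative (ZMod 4) × UnitsPM N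

instance (N : ℕ) : CommGroup (QuartMod N) :=
  inferInstanceAs (CommGroup (Multiplicative (ZMod 4) × UnitsPM N))

instance (N : ℕ) [NeZero N] : Finite (QuartMod N) :=
  inferInstanceAs (Finite (Multiplicative (ZMod 4) × UnitsPM N))

/-- The first projection. -/
def QuartMod.fstHom (N : ℕ) : QuartMod N →* Multiplicative (ZMod 4) where
  toFun x := x.1
  map_one' := rfl
  map_mul' _ _ := rfl

/-- The character together with a cyclotomic one. -/
def quartMod (N : ℕ) [NeZero N] : C.M.fixingSubgroup →* QuartMod N where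
  toFun g := (C.χ g, modPM N g)
  map_one' := Prod.ext (map_one _) (map_one (modPM N))
  map_mul' _ _ := Prod.ext (map_mul _ _ _) (map_mul (modPM N) _ _)

/-- **A uniformiser over `2` with vanishing Frobenius sum.** -/
theorem exists_unif_two (P : HeightOneSpectrum (𝓞 C.M)) (h2 : (2 : 𝓞 C.M) ∈ P.asIdeal) :
    ∃ e : C.Mˣ, C.artin e = 0 ∧ ord P e = 1 ∧
      (∀ P' : HeightOneSpectrum (𝓞 C.M), (2 : 𝓞 C.M) ∈ P'.asIdeal → P' ≠ P → ord P' e = 0) ∧
      ∀ A : ValuationSubring Qb, A.LiesOverPrime 3 →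
        A.valuation (((e : C.M) : Qb) - 1) < 1 := by
  classical
  obtain ⟨A, hA⟩ := exists_place P
  have hA2 : A.LiesOverPrime 2 :=
    A.mem_nonunits_iff.2 ((natCast_mem_iff hA 2).1 (by rwa [Nat.cast_ofNat]))
  obtain ⟨k, hk⟩ : ∃ k : ℕ, Ideal.absNorm P.asIdeal = 2 ^ k := by
    have h := Ideal.absNorm_dvd_absNorm_of_le
      ((Ideal.span_singleton_le_iff_mem _).mpr (hA.natCast_mem hA2))
    rw [Ideal.absNorm_span_natCast] at h
    obtain ⟨k, -, h⟩ := (Nat.dvd_prime_pow Nat.prime_two).mp h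
    exact ⟨k, h⟩
  have hk1 : 1 ≤ k := Nat.one_le_iff_ne_zero.2 fun h => by
    have := CFT.two_le_absNorm P
    simp [hk, h] at this
  set N := 2 ^ (4 * k) + 1 with hN
  have : NeZero N := ⟨Nat.succ_ne_zero _⟩
  have hN2 : (2 : ℕ).Coprime N := Nat.prime_two.coprime_iff_not_dvd.2 fun h => by
    have h' : 2 ∣ 2 ^ (4 * k) := dvd_pow_self 2 (by omega)
    exact absurd ((Nat.dvd_add_right h').1 h) (by norm_num)
  have h6N : 6 * N ≠ 0 := mul_ne_zero (by norm_num) (NeZero.ne N)
  obtain ⟨g, hg, -, -, hgF⟩ := exists_frobenius_over C.M hA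
  set F := C.quartMod N with hF
  set D := Subgroup.zpowers (F ⟨g, hg⟩)
  set f := (QuotientGroup.mk' D).comp F
  have hlevF : ∃ L : IntermediateField ℚ Qb, FiniteDimensional ℚ L ∧
      ∀ h : C.M.fixingSubgroup, (h : GQ) ∈ L.fixingSubgroup → F h = 1 := by
    obtain ⟨L₁, h₁, h₁'⟩ := C.level
    obtain ⟨L₂, h₂, h₂'⟩ := exists_level_modPM N
    refine ⟨L₁ ⊔ L₂, IntermediateField.finiteDimensional_sup L₁ L₂, fun h hh => ?_⟩
    rw [IntermediateField.fixingSubgroup_sup] at hh
    exact Prod.ext (h₁' h hh.1) (h₂' h hh.2)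
  have hlev : ∃ L : IntermediateField ℚ Qb, FiniteDimensional ℚ L ∧
      ∀ h : C.M.fixingSubgroup, (h : GQ) ∈ L.fixingSubgroup → f h = 1 := by
    obtain ⟨L, hL, h⟩ := hlevF
    exact ⟨L, hL, fun u hu => by rw [MonoidHom.comp_apply, h u hu, map_one]⟩
  have hunF : ∀ (l : ℕ), l.Prime → l ≠ 3 → ¬ l ∣ N → ∀ (B : ValuationSubring Qb),
      B.LiesOverPrime l → ∀ i : C.M.fixingSubgroup, (i : GQ) ∈ B.inertiaSubgroupIn ℚ → F i = 1 :=
    fun l hl hl3 hlN B hB i hi => Prod.ext (C.unramified l hl hl3 B hB i hi)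
      (modPM_inertia (hl.coprime_iff_not_dvd.2 hlN) hB hi)
  have hun : ∀ (l : ℕ), l.Prime → l ≠ 3 → ¬ l ∣ N → ∀ (B : ValuationSubring Qb),
      B.LiesOverPrime l → ∀ i : C.M.fixingSubgroup, (i : GQ) ∈ B.inertiaSubgroupIn ℚ → f i = 1 :=
    fun l hl hl3 hlN B hB i hi => by
      rw [MonoidHom.comp_apply, hunF l hl hl3 hlN B hB i hi, map_one]
  have h2N : ¬ 2 ∣ N := Nat.prime_two.coprime_iff_not_dvd.1 hN2
  have hfg : f ⟨g, hg⟩ = 1 := (QuotientGroup.eq_one_iff _).2 (Subgroup.mem_zpowers _)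
  have := finiteDimensional_kerField f hlev
  set Ω := kerField f
  have hΩ : ∀ x : Ω, ∀ u : C.M.fixingSubgroup, f u = 1 → (u : GQ) (x : Qb) = (x : Qb) :=
    fun x u hu => (mem_fix_kerField f hlev).2 ⟨u.2, hu⟩ x
  obtain ⟨Q₀, hQ₀⟩ := exists_over (K := Ω) hA.1
  obtain ⟨π, hπ⟩ := Q₀.intValuation_exists_uniformizer
  set T : Finset (HeightOneSpectrum (𝓞 Ω)) := (CFT.finite_primes_containing (K := Ω)
    (x := ((6 * N : ℕ) : 𝓞 Ω)) (Nat.cast_ne_zero.2 h6N)).toFinset
  have hT : ∀ (l : ℕ) (B : ValuationSubring Qb) (Q : HeightOneSpectrum (𝓞 Ω)),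
      l ∣ 6 * N → B.LiesOverPrime l → Over Ω B Q → Q ∈ T := fun l B Q hl hB hQ => by
    refine (Set.Finite.mem_toFinset _).2 ?_
    obtain ⟨c, hc⟩ := hl
    show ((6 * N : ℕ) : 𝓞 Ω) ∈ Q.asIdeal
    rw [hc, Nat.cast_mul]
    exact Q.asIdeal.mul_mem_right _ (hQ.natCast_mem hB)
  obtain ⟨z, hz⟩ := exists_approx T (fun Q => if Q = Q₀ then π else 1) h6N
  set zq : Qb := ((z : Ω) : Qb)
  have hzfix : ∀ u : C.M.fixingSubgroup, f u = 1 → (u : GQ) zq = zq := fun u hu => hΩ _ u hu
  -- the value at the chosen place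
  have hπ0 : π ≠ 0 := fun h => by
    rw [h, map_zero] at hπ
    exact WithZero.exp_ne_zero hπ.symm
  let πu : Ωˣ := Units.mk0 (algebraMap (𝓞 Ω) Ω π) (by simpa using hπ0)
  have hπord : ord Q₀ πu = 1 := by
    have h4 := valuation_eq_exp Q₀ πu
    rw [Units.val_mk0, Q₀.valuation_of_algebraMap, hπ, WithZero.exp_inj] at h4
    omega
  have hπv : A.valuation (((πu : Ω)) : Qb) < 1 := by
    refine (hQ₀.mem_iff π).1 ((Q₀.intValuation_lt_one_iff_mem π).1 ?_)
    rw [hπ, ← WithZero.exp_zero, WithZero.exp_lt_exp]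
    norm_num
  have hle : ∀ x : Ωˣ, A.valuation ((x : Ω) : Qb) < 1 →
      A.valuation ((x : Ω) : Qb) ≤ A.valuation ((πu : Ω) : Qb) := fun x hx => by
    rw [hQ₀.val_le_iff, hπord]
    by_contra hneg
    have := (hQ₀.val_le_iff 1 x).2 (by rw [Duality.Global.ord_one]; omega)
    simp at this
    exact absurd this (not_le.2 hx)
  have hzA : A.valuation zq = A.valuation ((πu : Ω) : Qb) := by
    have h := hz Q₀ (hT 2 A Q₀ (dvd_mul_of_dvd_left (by norm_num) N) hA2 hQ₀) A hQ₀
    rw [if_pos rfl] at h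
    have h6 : A.valuation ((6 * N : ℕ) : Qb) ≤ A.valuation ((πu : Ω) : Qb) := by
      have h' : A.valuation ((6 * N : ℕ) : Qb) < 1 := by
        rw [show 6 * N = 2 * (3 * N) by ring, Nat.cast_mul, map_mul]
        exact lt_of_le_of_lt (mul_le_of_le_one_right'
          ((A.valuation_le_one_iff _).2 (natCast_mem A _))) hA2
      have hc : ((((6 * N : ℕ) : Ω)) : Qb) = ((6 * N : ℕ) : Qb) := map_natCast (algebraMap Ω Qb) _
      have := hle (Units.mk0 ((6 * N : ℕ) : Ω) (Nat.cast_ne_zero.2 h6N))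
        (by rw [Units.val_mk0, hc]; exact h')
      rwa [Units.val_mk0, hc] at this
    conv_lhs => rw [show zq = ((π : Ω) : Qb) + (zq - ((π : Ω) : Qb)) by ring]
    exact A.valuation.map_add_eq_of_lt_left (h.trans_le h6)
  have hz0 : zq ≠ 0 := fun h => by
    rw [h, map_zero, eq_comm, map_eq_zero] at hzA
    exact hπ0 (by simp at hzA)
  let _ : Fintype f.range := Fintype.ofFinite _
  let e : C.Mˣ := Units.mk0 ⟨normOf f zq, normOf_mem hzfix⟩
    fun h => normOf_ne_zero hz0 (congrArg Subtype.val h)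
  have hey : ((e : C.M) : Qb) = normOf f zq := rfl
  -- congruences away from the chosen place
  have hconj : ∀ (l : ℕ), l.Prime → l ∣ 6 * N → ∀ (B : ValuationSubring Qb), B.LiesOverPrime l →
      ∀ q : f.range, ¬ (∃ h : C.M.fixingSubgroup, f h = 1 ∧ ((lift f q : GQ)⁻¹ • B) = (h : GQ) • A) →
      B.valuation ((lift f q : GQ) zq - 1) ≤ B.valuation ((6 * N : ℕ) : Qb) := by
    intro l hlp' hl B hB q hq
    set B' := ((lift f q : GQ)⁻¹ • B)
    have hB' : B'.LiesOverPrime l := TW.smul_liesOverPrime hB _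
    have hlp : l.Prime → IsPlace B' := fun hl => ⟨l, hl, hB'⟩
    rw [show (lift f q : GQ) zq - 1 = (lift f q : GQ) (zq - 1) by rw [map_sub, map_one]]
    refine val_apply_le_natCast h6N _ ?_
    obtain ⟨Q, hQ⟩ := exists_over (K := Ω) (hlp hlp')
    have h := hz Q (hT l B' Q hl hB' hQ) B' hQ
    rw [if_neg fun e => ?_] at h
    · simpa using h.le
    subst e
    obtain ⟨u, hu, huA⟩ := exists_smul_eq_of_over hQ₀ hQ
    obtain ⟨hu', hu''⟩ := (mem_fix_kerField f hlev).1 hu
    exact hq ⟨⟨u, hu'⟩, hu'', huA⟩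
  have hmove : ∀ (B : ValuationSubring Qb) (q : f.range) (h : C.M.fixingSubgroup),
      (lift f q : GQ)⁻¹ • B = (h : GQ) • A → Over C.M B P := fun B q h e => by
    have := hA.smul (g := (lift f q : GQ) * h) (mul_mem (lift f q).2 h.2)
    rwa [mul_smul, ← e, smul_inv_smul] at this
  have haway : ∀ (l : ℕ), l.Prime → l ∣ 6 * N → ∀ (B : ValuationSubring Qb), B.LiesOverPrime l →
      ∀ P', Over C.M B P' → P' ≠ P →
      B.valuation (((e : C.M) : Qb) - 1) ≤ B.valuation ((6 * N : ℕ) : Qb) :=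
    fun l hl hlN B hB P' hP' hne => val_prod_sub_one_le _ _
      ((B.valuation_le_one_iff _).2 (natCast_mem B _))
      fun q _ => hconj l hl hlN B hB q fun ⟨h, _, e⟩ => hne (hP'.eq (hmove B q h e))
  have hnotP : ∀ (l : ℕ), l ≠ 2 → l.Prime → ∀ (B : ValuationSubring Qb), B.LiesOverPrime l →
      ∀ P', Over C.M B P' → P' ≠ P := by
    rintro l hl2 hl B hB P' hP' rfl
    obtain ⟨u, -, rfl⟩ := exists_smul_eq_of_over hA hP'
    exact hl2 (liesOver_unique hl Nat.prime_two hB (TW.smul_liesOverPrime hA2 u))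
  have hlt : ∀ (l : ℕ), l ∣ 6 * N → ∀ (B : ValuationSubring Qb), B.LiesOverPrime l →
      B.valuation ((6 * N : ℕ) : Qb) < 1 := fun l hl B hB => by
    obtain ⟨c, hc⟩ := hl
    rw [hc, Nat.cast_mul, map_mul]
    exact lt_of_le_of_lt (mul_le_of_le_one_right'
      ((B.valuation_le_one_iff _).2 (natCast_mem B _))) hB
  have hord0 : ∀ (l : ℕ), l.Prime → l ∣ 6 * N → ∀ (B : ValuationSubring Qb), B.LiesOverPrime l →
      ∀ P', Over C.M B P' → P' ≠ P → ord P' e = 0 := fun l hl hlN B hB P' hP' hne =>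
    (hP'.val_eq_one_iff e).1 (Duality.Local.val_eq_one_of_sub_lt
      ((haway l hl hlN B hB P' hP' hne).trans_lt (hlt l hlN B hB)))
  refine ⟨e, ?_, ?_, fun P' hP' hne => ?_, fun B hB => ?_⟩
  rotate_left
  · -- order one
    obtain ⟨y, hyM, hy0, hyv⟩ := exists_val_eq f hlev
      (hun 2 Nat.prime_two (by norm_num) h2N A hA2) hA (g := ⟨g, hg⟩) hgF
      (q := ((πu : Ω) : Qb)) (by simp) (hΩ _)
    let yu : C.Mˣ := Units.mk0 ⟨y, hyM⟩ fun h => hy0 (congrArg Subtype.val h)
    have hev : A.valuation ((e : C.M) : Qb) = A.valuation ((πu : Ω) : Qb) := by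
      rw [hey, normOf, map_prod, Fintype.prod_eq_single (1 : f.range) fun q hq => ?_]
      · rw [apply_eq_of_hom_eq (g := lift f 1) (h := 1) hzfix
          (by rw [apply_lift, map_one]; rfl), Subgroup.coe_one, AlgEquiv.one_apply, hzA]
      refine Duality.Local.val_eq_one_of_sub_lt
        ((hconj 2 Nat.prime_two (dvd_mul_of_dvd_left (by norm_num) N) A hA2 q ?_).trans_lt
          (hlt 2 (dvd_mul_of_dvd_left (by norm_num) N) A hA2))
      rintro ⟨u, hu, e⟩
      have hd : ((lift f q * u : C.M.fixingSubgroup) : GQ) ∈ A.decompositionSubgroup ℚ := by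
        show ((lift f q * u : C.M.fixingSubgroup) : GQ) • A = A
        rw [Subgroup.coe_mul, mul_smul, ← e, smul_inv_smul]
      obtain ⟨j, hj⟩ := exists_pow_eq f hlev (hun 2 Nat.prime_two (by norm_num) h2N A hA2) hA
        (g := ⟨g, hg⟩) hgF hd
      rw [map_mul, apply_lift, hu, mul_one, hfg, one_pow] at hj
      exact hq (Subtype.ext hj)
    have h1 : ord P e = ord P yu := (hA.val_eq_iff _ _).1 (hev.trans hyv.symm)
    obtain ⟨ϖ, hϖ⟩ := Duality.Global.exists_ord_eq_one P
    have hpos : 0 < ord P yu := by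
      by_contra hneg
      have := (hA.val_le_iff 1 yu).2 (by rw [Duality.Global.ord_one]; omega)
      simp only [Units.val_one, OneMemClass.coe_one, map_one] at this
      exact absurd this (not_le.2 (by show A.valuation y < 1; rw [hyv]; exact hπv))
    have hϖΩ : ((ϖ : C.M) : Qb) ∈ Ω := le_kerField f (ϖ : C.M).2
    have hϖv : A.valuation ((ϖ : C.M) : Qb) < 1 := by
      by_contra hge
      have := (hA.val_le_iff 1 ϖ).1 (by simpa using hge)
      simp [hϖ] at this
    have hle' := hle (Units.mk0 ⟨_, hϖΩ⟩ fun h => by simpa using congrArg Subtype.val h) hϖv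
    have := (hA.val_le_iff ϖ yu).1 (le_of_le_of_eq hle' hyv.symm)
    omega
  · obtain ⟨B, hB⟩ := exists_place P'
    have hB2 : B.LiesOverPrime 2 :=
      B.mem_nonunits_iff.2 ((natCast_mem_iff hB 2).1 (by rwa [Nat.cast_ofNat]))
    exact hord0 2 Nat.prime_two (dvd_mul_of_dvd_left (by norm_num) N) B hB2 P' hB hne
  · obtain ⟨P', hP'⟩ := exists_over (K := C.M) ⟨3, (by norm_num), hB⟩
    have h3 : 3 ∣ 6 * N := dvd_mul_of_dvd_left (by norm_num) N
    exact (haway 3 (by norm_num) h3 B hB P' hP'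
      (hnotP 3 (by norm_num) (by norm_num) B hB P' hP')).trans_lt (hlt 3 h3 B hB)
  -- reciprocity
  have hloc : ∀ q : HeightOneSpectrum (𝓞 C.M),
      ((Multiplicative.ofAdd (ord q e • C.frobVal q), normClass N q ^ ord q e) : QuartMod N) ∈ D := by
    intro q
    obtain ⟨B, hB⟩ := exists_place q
    obtain ⟨l, hl, hlB⟩ := hB.1
    by_cases hbad : l = 3 ∨ l ∣ N
    · have hl2 : l ≠ 2 := by
        rintro rfl
        rcases hbad with h | h
        · norm_num at h
        · exact h2N h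
      have hl6 : l ∣ 6 * N := by
        rcases hbad with rfl | h
        · exact dvd_mul_of_dvd_left (by norm_num) N
        · exact dvd_mul_of_dvd_right h 6
      rw [hord0 l hl hl6 B hlB q hB (hnotP l hl2 hl B hlB q hB), zero_smul, ofAdd_zero, zpow_zero]
      exact D.one_mem
    · push Not at hbad
      obtain ⟨u, hu, -, -, huF⟩ := exists_frobenius_over C.M hB
      have h3 : (3 : 𝓞 C.M) ∉ q.asIdeal := fun h => hbad.1 (liesOver_unique hl (by norm_num) hlB
        (B.mem_nonunits_iff.2 ((natCast_mem_iff hB 3).1 (by rwa [Nat.cast_ofNat]))))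
      have h := frob_zpow_ord_norm hzfix hlev hB (hun l hl hbad.1 hbad.2 B hlB)
        (g := ⟨u, hu⟩) huF hz0 hey
      rw [← map_zpow, MonoidHom.comp_apply, QuotientGroup.mk'_apply, QuotientGroup.eq_one_iff,
        map_zpow] at h
      have heq : ((Multiplicative.ofAdd (ord q e • C.frobVal q), normClass N q ^ ord q e) :
          QuartMod N) = F ⟨u, hu⟩ ^ ord q e := by
        refine Prod.ext ?_ ?_
        · rw [C.frobVal_eq h3 ⟨hu, B, fun x => (hB.mem_iff x).trans B.mem_nonunits_iff.symm, huF⟩,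
            ofAdd_zsmul]
          rfl
        · rw [normClass_eq_modPM (hl.coprime_iff_not_dvd.2 hbad.2) hlB q huF]
          rfl
      rw [heq]
      exact h
  have hint : IsIntegral ℤ zq := (NumberField.RingOfIntegers.isIntegral_coe z).map
    (Ω.val.restrictScalars ℤ)
  have hEint : IsIntegral ℤ ((e : C.M) : Qb) :=
    IsIntegral.prod _ fun q _ => hint.map ((lift f q : GQ).toAlgHom.restrictScalars ℤ)
  let eO : 𝓞 C.M := ⟨(e : C.M),
    (isIntegral_algHom_iff (C.M.val.restrictScalars ℤ) Subtype.val_injective).mp hEint⟩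
  have hone : ∏ᶠ q, normClass (M := C.M) N q ^ ord q e = 1 := by
    have hN0 : (N : C.M) ≠ 0 := Nat.cast_ne_zero.2 (NeZero.ne N)
    obtain ⟨c, hc⟩ := HeightOneSpectrum.mem_integers_of_valuation_le_one (R := 𝓞 C.M) C.M
      (((e : C.M) - 1) / (N : C.M)) fun q => by
        obtain ⟨B, hB⟩ := exists_place q
        rw [← hB.val_le_one_iff, IntermediateField.coe_div, map_div₀,
          div_le_one₀ (zero_lt_iff.2 ((map_ne_zero _).2 (by simp [NeZero.ne N])))]
        obtain ⟨l, hl, hlB⟩ := hB.1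
        by_cases hlN : l ∣ N
        · have h := haway l hl (dvd_mul_of_dvd_right hlN 6) B hlB q hB
            (hnotP l (fun h => h2N (h ▸ hlN)) hl B hlB q hB)
          refine le_trans (by simpa using h) ?_
          rw [show ((N : C.M) : Qb) = (N : Qb) from map_natCast (algebraMap C.M Qb) N]
          exact mul_le_of_le_one_left' ((B.valuation_le_one_iff _).2 (natCast_mem B 6))
        · have h1 := FermatAgent.Local.val_intCast_eq_one hl hlB (m := N)
            fun h => hlN (Int.natCast_dvd_natCast.1 h)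
          refine le_trans ?_ (le_of_eq (by simpa using h1.symm))
          exact (B.valuation_le_one_iff _).2 (sub_mem (RT.mem_of_isIntegral_int B hEint) (one_mem B))
    refine finprod_normClass_eq_one N e (a := eO) (b := 1) one_ne_zero (by rw [map_one, mul_one]; rfl)
      (by simp) ⟨c, NumberField.RingOfIntegers.coe_injective ?_⟩
    show (e : C.M) - 1 = (N : C.M) * algebraMap (𝓞 C.M) C.M c
    rw [hc, mul_div_cancel₀ _ hN0]
  set s := (finite_setOf_ord_ne_zero e).toFinset
  have hs : ∀ q, q ∉ s → ord q e = 0 := fun q hq => by simpa [s] using hq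
  rw [finprod_eq_prod_of_mulSupport_subset _ (s := s) (fun q hq => by
    by_contra h
    exact hq (show normClass N q ^ ord q e = 1 by rw [hs q (by simpa using h), zpow_zero]))] at hone
  have hart : C.artin e = ∑ q ∈ s, ord q e • C.frobVal q := by
    rw [artin, finsum_eq_sum_of_support_subset _ (s := s) (fun q hq => by
      by_contra h
      exact hq (show ord q e • C.frobVal q = 0 by rw [hs q (by simpa using h), zero_smul]))]
  have hmem : ((Multiplicative.ofAdd (C.artin e), (1 : UnitsPM N)) : QuartMod N) ∈ D := by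
    let G : HeightOneSpectrum (𝓞 C.M) → QuartMod N := fun q =>
      (Multiplicative.ofAdd (ord q e • C.frobVal q), normClass N q ^ ord q e)
    have h : ∏ q ∈ s, G q ∈ D := D.prod_mem fun q _ => hloc q
    have heq : ∏ q ∈ s, G q = (Multiplicative.ofAdd (C.artin e), 1) := by
      refine Prod.ext ?_ ?_
      · rw [hart, ofAdd_sum]
        exact map_prod (QuartMod.fstHom N) G s
      · have hsnd : ∀ t : Finset (HeightOneSpectrum (𝓞 C.M)), (∏ q ∈ t, G q).2 =
            ∏ q ∈ t, normClass (M := C.M) N q ^ ord q e := fun t => by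
          induction t using Finset.induction with
          | empty => rfl
          | insert a t ha ih =>
            rw [prod_insert ha, prod_insert ha, ← ih]
            rfl
        exact (hsnd s).trans hone
    rwa [heq] at h
  obtain ⟨j, hj⟩ := Subgroup.mem_zpowers_iff.1 hmem
  have hj1 : C.χ ⟨g, hg⟩ ^ j = Multiplicative.ofAdd (C.artin e) := congrArg Prod.fst hj
  have hj2 : modPM N g ^ j = 1 := congrArg Prod.snd hj
  have hb : (modUnit N g : ZMod N) = ((2 ^ k : ℕ) : ZMod N) := by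
    rw [modUnit_frobenius hN2 hA2 hgF, hk]
  have h4 : modPM N g ^ (4 : ℤ) = 1 := by
    rw [show (4 : ℤ) = ((4 : ℕ) : ℤ) from rfl, zpow_natCast, modPM, MonoidHom.comp_apply,
      ← map_pow, QuotientGroup.mk'_apply, QuotientGroup.eq_one_iff]
    refine Subgroup.mem_zpowers_iff.2 ⟨1, ?_⟩
    rw [zpow_one]
    refine Units.ext ?_
    rw [Units.val_neg, Units.val_one, Units.val_pow_eq_pow_val, hb, ← Nat.cast_pow, ← pow_mul,
      mul_comm, eq_comm, eq_neg_iff_add_eq_zero, ← Nat.cast_one, ← Nat.cast_add]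
    exact ZMod.natCast_self N
  have h4j : (4 : ℤ) ∣ j := by
    rw [Int.dvd_iff_emod_eq_zero]
    by_contra hr
    obtain ⟨r, hr'⟩ : ∃ r : ℕ, (r : ℤ) = j % 4 :=
      ⟨(j % 4).toNat, Int.toNat_of_nonneg (Int.emod_nonneg _ (by norm_num))⟩
    have hr4 : r < 4 ∧ r ≠ 0 := by
      constructor <;> omega
    have hpow : modPM N g ^ r = 1 := by
      rw [← zpow_natCast, hr', Int.emod_def, sub_eq_add_neg, zpow_add, hj2, ← mul_neg]
      exact (one_mul _).trans ((zpow_mul (modPM N g) 4 (-(j / 4))).trans (by rw [h4, one_zpow]))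
    rw [modPM, MonoidHom.comp_apply, ← map_pow, QuotientGroup.mk'_apply, QuotientGroup.eq_one_iff]
      at hpow
    obtain ⟨i, hi⟩ := Subgroup.mem_zpowers_iff.1 hpow
    have h1lt : 1 < 2 ^ (k * r) := Nat.one_lt_two_pow (by
      exact mul_ne_zero (by omega) hr4.2)
    have hle3 : 2 ^ (k * r) * 2 ≤ 2 ^ (4 * k) := by
      rw [← pow_succ]
      exact Nat.pow_le_pow_right two_pos (by nlinarith)
    have hv := congrArg Units.val hi
    rw [Units.val_pow_eq_pow_val, hb, ← Nat.cast_pow, ← pow_mul] at hv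
    rcases Int.even_or_odd i with hi' | hi'
    · rw [hi'.neg_one_zpow, Units.val_one, eq_comm, ← Nat.cast_one,
        ZMod.natCast_eq_natCast_iff', Nat.mod_eq_of_lt (by omega), Nat.mod_eq_of_lt (by omega)] at hv
      omega
    · rw [hi'.neg_one_zpow, Units.val_neg, Units.val_one, eq_comm, eq_neg_iff_add_eq_zero,
        ← Nat.cast_one, ← Nat.cast_add, ZMod.natCast_eq_zero_iff] at hv
      have := Nat.le_of_dvd (by omega) hv
      omega
  obtain ⟨c, rfl⟩ := h4j
  rw [zpow_mul] at hj1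
  have : C.χ ⟨g, hg⟩ ^ (4 : ℤ) = 1 := by
    generalize C.χ ⟨g, hg⟩ = x
    revert x
    decide
  rw [this, one_zpow, eq_comm, ofAdd_eq_one] at hj1
  exact hj1

end QuarticChar

end FermatAgent.LT.ClassField
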