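import Fermat.Agent.Duality.Global.Val
import Fermat.Agent.TW.Places
import Fermat.Agent.Duality.Local.Field
import Fermat.Agent.CFT.Moduli

/-!
# Making a quadratic norm equation close to the identity

If `z · s z = x` in a quadratic extension and `x` is close to `1` at the places over `2` and `3`,
then `z` may be changed by `s u / u` to be close to `1` there.
-/

set_option autoImplicit false

noncomputable section

open NumberField IsDedekindDomain
open scoped Pointwise

namespace FermatAgent.LT.ClassField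

open FermatAgent.Duality.Global (Over IsPlace exists_over exists_place ord exists_smul_eq_of_over valuation_eq_exp finite_setOf_ord_ne_zero)
open FermatAgent.RT (centre mem_centre_iff natCast_mem_centre mem_of_isIntegral_int)

local notation "Qb" => AlgebraicClosure ℚ
local notation "GQ" => AlgebraicClosure ℚ ≃ₐ[ℚ] AlgebraicClosure ℚ

attribute [local instance] FermatAgent.RT.isGalois_algClosureRat

/-- A nonzero integral element divides a nonzero natural number. -/
theorem exists_nat_val_le {r : Qb} (hr : IsIntegral ℤ r) (hr0 : r ≠ 0) :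
    ∃ N : ℕ, N ≠ 0 ∧ ∀ A : ValuationSubring Qb, A.valuation (N : Qb) ≤ A.valuation r := by
  let L := IntermediateField.adjoin ℚ {r}
  have : FiniteDimensional ℚ L := IntermediateField.adjoin.finiteDimensional
    ((AlgebraicClosure.isAlgebraic ℚ).isAlgebraic r).isIntegral
  have : NumberField L := ⟨⟩
  let r' : L := ⟨r, IntermediateField.mem_adjoin_simple_self ℚ r⟩
  have hr' : IsIntegral ℤ r' :=
    (isIntegral_algHom_iff (L.val.restrictScalars ℤ) Subtype.val_injective).mp hr
  let a : 𝓞 L := ⟨r', hr'⟩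
  have ha : a ≠ 0 := fun h => hr0 congr((((↑$h : L)) : Qb))
  refine ⟨Ideal.absNorm (Ideal.span {a}), by simpa using ha, fun A => ?_⟩
  obtain ⟨t, ht⟩ := Ideal.mem_span_singleton.1 (Ideal.absNorm_mem (Ideal.span {a}))
  have h := congrArg (fun y : 𝓞 L => ((y : L) : Qb)) ht
  simp only [map_natCast, map_mul, IntermediateField.coe_mul] at h
  rw [show ((((Ideal.absNorm (Ideal.span {a}) : L))) : Qb) =
    (Ideal.absNorm (Ideal.span {a}) : Qb) from map_natCast (algebraMap L Qb) _] at h
  rw [h, map_mul]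
  exact mul_le_of_le_one_right' ((A.valuation_le_one_iff _).2
    (mem_of_isIntegral_int A ((NumberField.RingOfIntegers.isIntegral_coe t).map
      (L.val.restrictScalars ℤ))))

/-- A nonzero algebraic number is a unit away from finitely many prime numbers. -/
theorem exists_nat_val_eq_one {z : Qb} (hz0 : z ≠ 0) :
    ∃ N : ℕ, N ≠ 0 ∧ ∀ (l : ℕ), l.Prime → ¬ l ∣ N → ∀ A : ValuationSubring Qb,
      A.LiesOverPrime l → A.valuation z = 1 := by
  obtain ⟨d, hd0, hint⟩ := ((IsFractionRing.isAlgebraic_iff ℤ ℚ Qb).2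
    ((AlgebraicClosure.isAlgebraic ℚ).isAlgebraic z)).exists_integral_multiple
  have hdz : (d : Qb) * z ≠ 0 := mul_ne_zero (Int.cast_ne_zero.2 hd0) hz0
  rw [zsmul_eq_mul] at hint
  obtain ⟨N, hN, h⟩ := exists_nat_val_le hint hdz
  refine ⟨N * d.natAbs, mul_ne_zero hN (Int.natAbs_ne_zero.2 hd0), fun l hl hl' A hA => ?_⟩
  have h1 : ∀ m : ℤ, ¬ (l : ℤ) ∣ m → A.valuation (m : Qb) = 1 := fun m hm =>
    FermatAgent.Local.val_intCast_eq_one hl hA hm
  have hdv : A.valuation (d : Qb) = 1 := h1 d fun h => hl' (dvd_mul_of_dvd_right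
    (by simpa using Int.natAbs_dvd_natAbs.2 h) _)
  have hNv : A.valuation (N : Qb) = 1 := by
    simpa using h1 N fun h => hl' (dvd_mul_of_dvd_left (Int.natCast_dvd_natCast.1 h) _)
  have h2 := h A
  rw [hNv, map_mul, hdv, one_mul] at h2
  refine le_antisymm ?_ h2
  have h3 := (A.valuation_le_one_iff _).2 (mem_of_isIntegral_int A hint)
  rwa [map_mul, hdv, one_mul] at h3

variable {E : IntermediateField ℚ Qb} [NumberField E]

/-- Of the three multipliers `0, 1, -1` at most one is bad at a place. -/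
theorem bad_unique {A : ValuationSubring Qb} {X Y : Qb} {c c' : ℤ}
    (hc : c = 0 ∨ c = 1 ∨ c = -1) (hc' : c' = 0 ∨ c' = 1 ∨ c' = -1)
    (h : A.valuation (X + c * Y) < A.valuation 2 * max (A.valuation X) (A.valuation Y))
    (h' : A.valuation (X + c' * Y) < A.valuation 2 * max (A.valuation X) (A.valuation Y)) :
    c = c' := by
  by_contra hne
  set μ := max (A.valuation X) (A.valuation Y)
  have h2le : A.valuation (2 : Qb) ≤ 1 :=
    (A.valuation_le_one_iff _).2 (by simp)
  have hd : A.valuation 2 ≤ A.valuation ((c - c' : ℤ) : Qb) := by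
    rcases hc with rfl | rfl | rfl <;> rcases hc' with rfl | rfl | rfl <;>
      first
        | exact absurd rfl hne
        | norm_num [h2le]
  have hY : A.valuation (((c - c' : ℤ) : Qb) * Y) < A.valuation 2 * μ := by
    rw [show ((c - c' : ℤ) : Qb) * Y = (X + c * Y) + -(X + c' * Y) by push_cast; ring]
    exact A.valuation.map_add_lt h (by rwa [Valuation.map_neg])
  rw [map_mul] at hY
  have hYμ : A.valuation Y < μ := by
    by_contra hge
    exact absurd hY (not_lt.2 (mul_le_mul' hd (not_lt.1 hge)))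
  have hX : μ = A.valuation X := max_eq_left (le_of_not_ge fun hle =>
    absurd hYμ (not_lt.2 (by rw [show μ = A.valuation Y from max_eq_right hle])))
  have hcY : A.valuation (c * Y) < A.valuation X := by
    rw [map_mul]
    refine lt_of_le_of_lt (mul_le_of_le_one_left' ((A.valuation_le_one_iff _).2 (intCast_mem A c))) ?_
    rwa [← hX]
  rw [A.valuation.map_add_eq_of_lt_left hcY, ← hX] at h
  exact absurd h (not_lt.2 (mul_le_of_le_one_left' h2le))

theorem exists_good (A B : ValuationSubring Qb) (X Y : Qb) :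
    ∃ c : ℤ, A.valuation 2 * max (A.valuation X) (A.valuation Y) ≤ A.valuation (X + c * Y) ∧
      B.valuation 2 * max (B.valuation X) (B.valuation Y) ≤ B.valuation (X + c * Y) := by
  by_contra! h
  have h0 := h 0
  have h1 := h 1
  have h2 := h (-1)
  rcases em (A.valuation (X + ((0 : ℤ) : Qb) * Y) <
    A.valuation 2 * max (A.valuation X) (A.valuation Y)) with a0 | a0 <;>
  rcases em (A.valuation (X + ((1 : ℤ) : Qb) * Y) <
    A.valuation 2 * max (A.valuation X) (A.valuation Y)) with a1 | a1 <;>
  rcases em (A.valuation (X + ((-1 : ℤ) : Qb) * Y) <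
    A.valuation 2 * max (A.valuation X) (A.valuation Y)) with a2 | a2
  all_goals first
    | exact absurd (bad_unique (by simp) (by simp) a0 a1) (by decide)
    | exact absurd (bad_unique (by simp) (by simp) a0 a2) (by decide)
    | exact absurd (bad_unique (by simp) (by simp) a1 a2) (by decide)
    | exact absurd (bad_unique (by simp) (by simp) (h0 (not_lt.1 a0)) (h1 (not_lt.1 a1))) (by decide)
    | exact absurd (bad_unique (by simp) (by simp) (h0 (not_lt.1 a0)) (h2 (not_lt.1 a2))) (by decide)
    | exact absurd (bad_unique (by simp) (by simp) (h1 (not_lt.1 a1)) (h2 (not_lt.1 a2))) (by decide)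

/-- An element of the integers congruent to prescribed integers modulo more than `2` at finitely
many primes. -/
theorem exists_approx_two (T : Finset (HeightOneSpectrum (𝓞 E))) (c : HeightOneSpectrum (𝓞 E) → ℤ) :
    ∃ y : 𝓞 E, ∀ P ∈ T, ∀ A, Over E A P →
      A.valuation (((y : E) : Qb) - c P) < A.valuation 2 := by
  classical
  let two : Eˣ := Units.mk0 2 two_ne_zero
  obtain ⟨y, hy⟩ := IsDedekindDomain.exists_forall_sub_mem_ideal (s := T)
    (fun P => P.asIdeal) (fun P => (ord P two).natAbs + 1) (fun P _ => P.prime)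
    (fun P _ Q _ h hPQ => h (HeightOneSpectrum.ext hPQ)) (fun P => (c P.1 : 𝓞 E))
  refine ⟨y, fun P hP A hA => ?_⟩
  have hmem := hy P hP
  set d := y - (c P : 𝓞 E)
  rw [show ((y : E) : Qb) - c P = ((d : E) : Qb) by simp [d]]
  by_cases hd : d = 0
  · rw [show ((d : E) : Qb) = 0 by rw [hd]; simp, map_zero]
    exact zero_lt_iff.2 ((map_ne_zero _).2 two_ne_zero)
  let d' : Eˣ := Units.mk0 (algebraMap (𝓞 E) E d) (by simpa using hd)
  by_contra hle
  have htwo : (((two : Eˣ) : E) : Qb) = 2 := map_ofNat (algebraMap E Qb) 2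
  have h1 := (hA.val_le_iff two d').1 (by rw [htwo]; exact not_lt.1 hle)
  have h2 : (((ord P two).natAbs + 1 : ℕ) : ℤ) ≤ ord P d' := by
    have h3 := (P.intValuation_le_pow_iff_mem d _).mpr hmem
    have h4 := valuation_eq_exp P d'
    rw [Units.val_mk0, P.valuation_of_algebraMap] at h4
    rw [h4, WithZero.exp_le_exp] at h3
    omega
  omega

/-- Places over `2` or `3`. -/
def IsBadPlace (A : ValuationSubring Qb) : Prop := A.LiesOverPrime 2 ∨ A.LiesOverPrime 3

theorem IsBadPlace.isPlace {A : ValuationSubring Qb} (h : IsBadPlace A) : IsPlace A :=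
  h.elim (fun h => ⟨2, Nat.prime_two, h⟩) fun h => ⟨3, by norm_num, h⟩

theorem finite_setOf_bad : {P : HeightOneSpectrum (𝓞 E) | (6 : 𝓞 E) ∈ P.asIdeal}.Finite :=
  CFT.finite_primes_containing (x := (6 : 𝓞 E)) (by norm_num)

variable {r : Qb}

/-- **Adjustment.** -/
theorem exists_close_quad {s : GQ} (hs : s ∈ E.fixingSubgroup) (hr0 : r ≠ 0) (hri : IsIntegral ℤ r)
    (hr2 : r ^ 2 ∈ E) (hsr : s r = -r) {z x : Qb}
    (hz : ∀ g ∈ E.fixingSubgroup, g r = r → g z = z) (hzx : z * s z = x) {R N : ℕ}
    (hR : ∀ A, IsBadPlace A → A.valuation (R : Qb) ≤ A.valuation r)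
    (hx : ∀ A, IsBadPlace A →
      A.valuation (x - 1) ≤ A.valuation ((N * (4 * R) : ℕ) : Qb)) :
    ∃ z' : Qb, (∀ g ∈ E.fixingSubgroup, g r = r → g z' = z') ∧ z' * s z' = x ∧
      ∀ A, IsBadPlace A → A.valuation (z' - 1) ≤ A.valuation (N : Qb) := by
  classical
  have hsign : ∀ g ∈ E.fixingSubgroup, g r = r ∨ g r = -r := fun g hg => by
    refine sq_eq_sq_iff_eq_or_eq_neg.1 ?_
    rw [← map_pow]
    exact hg ⟨_, hr2⟩
  have hss : ∀ w : Qb, (∀ g ∈ E.fixingSubgroup, g r = r → g w = w) → s (s w) = w := fun w hw => by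
    rw [← AlgEquiv.mul_apply]
    exact hw _ (mul_mem hs hs) (by rw [AlgEquiv.mul_apply, hsr, map_neg, hsr, neg_neg])
  set X := 1 + z
  set Y := r * (1 - z)
  set T := (finite_setOf_bad (E := E)).toFinset
  have hT : ∀ A P, IsBadPlace A → Over E A P → P ∈ T := fun A P hA hP => by
    refine (Set.Finite.mem_toFinset _).2 ?_
    show (6 : 𝓞 E) ∈ P.asIdeal
    rw [← hP.2, Ideal.mem_comap, map_ofNat, mem_centre_iff, A.mem_nonunits_iff]
    show A.valuation ((6 : ℕ) : Qb) < 1
    rw [show ((6 : ℕ) : Qb) = ((2 : ℕ) : Qb) * ((3 : ℕ) : Qb) by norm_num, map_mul]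
    have hle : ∀ n : ℕ, A.valuation (n : Qb) ≤ 1 := fun n =>
      (A.valuation_le_one_iff _).2 (natCast_mem A n)
    rcases hA with hA | hA
    · exact lt_of_le_of_lt (mul_le_of_le_one_right' (hle 3)) hA
    · exact lt_of_le_of_lt (mul_le_of_le_one_left' (hle 2)) hA
  choose pl hpl using exists_place (K := E)
  choose c hcA hcB using fun P => exists_good (pl P) (s⁻¹ • pl P) X Y
  obtain ⟨y, hy⟩ := exists_approx_two T c
  set u := X + ((y : E) : Qb) * Y with hu
  have hufix : ∀ g ∈ E.fixingSubgroup, g r = r → g u = u := fun g hg hgr => by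
    simp only [hu, X, Y, map_add, map_one, map_mul, map_sub, hgr, hz g hg hgr,
      show g ((y : E) : Qb) = ((y : E) : Qb) from hg ⟨_, (y : E).2⟩]
  have hbound : ∀ A, IsBadPlace A → A.valuation ((4 : Qb) * r) ≤ A.valuation u := by
    intro A hA
    obtain ⟨P, hP⟩ := exists_over (K := E) hA.isPlace
    have hPT := hT A P hA hP
    have key : ∀ B, Over E B P →
        B.valuation 2 * max (B.valuation X) (B.valuation Y) ≤ B.valuation (X + (c P : Qb) * Y) →
        B.valuation ((4 : Qb) * r) ≤ B.valuation u := by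
      intro B hB hgood
      set μ := max (B.valuation X) (B.valuation Y)
      have hrle : B.valuation r ≤ 1 := (B.valuation_le_one_iff _).2 (mem_of_isIntegral_int B hri)
      have hμ : B.valuation 2 * B.valuation r ≤ μ := by
        rw [← map_mul, show (2 : Qb) * r = r * X + Y by simp only [X, Y]; ring]
        exact (B.valuation.map_add _ _).trans (max_le_max
          (by rw [map_mul]; exact mul_le_of_le_one_left' hrle) le_rfl)
      have hμ0 : 0 < μ := lt_of_lt_of_le (mul_pos (zero_lt_iff.2 ((map_ne_zero _).2 two_ne_zero))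
        (zero_lt_iff.2 ((map_ne_zero _).2 hr0))) hμ
      have hd := hy P hPT B hB
      have hlt : B.valuation ((((y : E) : Qb) - c P) * Y) < B.valuation 2 * μ := by
        rw [map_mul]
        exact mul_lt_mul_of_lt_of_le_of_nonneg_of_pos hd (le_max_right _ _) zero_le hμ0
      rw [show u = (X + (c P : Qb) * Y) + (((y : E) : Qb) - c P) * Y by rw [hu]; ring,
        B.valuation.map_add_eq_of_lt_left (hlt.trans_le hgood)]
      refine le_trans ?_ hgood
      rw [show (4 : Qb) * r = 2 * (2 * r) by ring, map_mul, map_mul]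
      exact mul_le_mul' le_rfl hμ
    obtain ⟨g, hg, rfl⟩ := exists_smul_eq_of_over (hpl P) hP
    -- move to `pl P` or `s⁻¹ • pl P`
    have hmove : ∀ (B : ValuationSubring Qb) (h : GQ), h ∈ E.fixingSubgroup → h r = r →
        B.valuation ((4 : Qb) * r) ≤ B.valuation u →
        (h • B).valuation ((4 : Qb) * r) ≤ (h • B).valuation u := by
      intro B h hh hhr hle
      have hu0 : u ≠ 0 := fun h0 => by
        rw [h0, map_zero, le_zero_iff, map_eq_zero, mul_eq_zero] at hle
        exact hle.elim (by norm_num) hr0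
      rw [← div_le_one₀ (zero_lt_iff.2 ((map_ne_zero _).2 hu0)), ← map_div₀,
        ValuationSubring.valuation_le_one_iff] at hle ⊢
      rw [ValuationSubring.mem_pointwise_smul_iff_inv_smul_mem, AlgEquiv.smul_def]
      have hinv : ∀ w : Qb, (∀ g ∈ E.fixingSubgroup, g r = r → g w = w) → h⁻¹ w = w :=
        fun w hw => hw _ (inv_mem hh) (h.injective (by
          rw [← AlgEquiv.mul_apply, mul_inv_cancel, AlgEquiv.one_apply, hhr]))
      rwa [map_div₀, map_mul, map_ofNat, hinv r (fun _ _ h => h), hinv u hufix]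
    rcases hsign g hg with hgr | hgr
    · exact hmove _ g hg hgr (key _ (hpl P) (hcA P))
    · have := hmove (s⁻¹ • pl P) (g * s) (mul_mem hg hs)
        (by rw [AlgEquiv.mul_apply, hsr, map_neg, hgr, neg_neg])
        (key _ ((hpl P).smul (inv_mem hs)) (hcB P))
      rwa [mul_smul, smul_inv_smul] at this
  obtain ⟨A₂, hA₂⟩ := FermatAgent.RT.exists_liesOverPrime Nat.prime_two
  have hu0 : u ≠ 0 := fun h => by
    have := hbound A₂ (Or.inl hA₂)
    rw [h, map_zero, le_zero_iff, map_eq_zero, mul_eq_zero] at this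
    exact this.elim (by norm_num) hr0
  have hsu : z * s u - u = (x - 1) * (1 + ((y : E) : Qb) * r) := by
    have hsy : s ((y : E) : Qb) = ((y : E) : Qb) := hs ⟨_, (y : E).2⟩
    simp only [hu, X, Y, map_add, map_one, map_mul, map_sub, hsr, hsy, ← hzx]
    ring
  refine ⟨z * s u / u, fun g hg hgr => ?_, ?_, fun A hA => ?_⟩
  · have hsu' : g (s u) = s u := by
      have h1 := hufix (s⁻¹ * g * s) (mul_mem (mul_mem (inv_mem hs) hg) hs) (by
        rw [AlgEquiv.mul_apply, AlgEquiv.mul_apply, hsr, map_neg, hgr]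
        exact s.injective (by rw [← AlgEquiv.mul_apply, mul_inv_cancel, AlgEquiv.one_apply, hsr]))
      have h2 := congrArg s h1
      rwa [← AlgEquiv.mul_apply, ← mul_assoc, ← mul_assoc, mul_inv_cancel, one_mul,
        AlgEquiv.mul_apply] at h2
    rw [map_div₀, map_mul, hz g hg hgr, hsu', hufix g hg hgr]
  · rw [map_div₀, map_mul, hss u hufix, ← hzx]
    have : s u ≠ 0 := (map_ne_zero _).2 hu0
    field_simp
  · rw [div_sub_one hu0, map_div₀, hsu, map_mul,
      div_le_iff₀ (zero_lt_iff.2 ((map_ne_zero _).2 hu0))]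
    have h1 : A.valuation (1 + ((y : E) : Qb) * r) ≤ 1 := (A.valuation_le_one_iff _).2
      (add_mem (one_mem A) (mul_mem (mem_of_isIntegral_int A
        ((NumberField.RingOfIntegers.isIntegral_coe y).map (E.val.restrictScalars ℤ)))
        (mem_of_isIntegral_int A hri)))
    refine (mul_le_of_le_one_right' h1).trans ((hx A hA).trans ?_)
    rw [Nat.cast_mul, map_mul, Nat.cast_mul, Nat.cast_ofNat]
    refine mul_le_mul' le_rfl (le_trans ?_ (hbound A hA))
    rw [map_mul]
    exact mul_le_mul' le_rfl (hR A hA)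

end FermatAgent.LT.ClassField
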