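import Fermat.Agent.LT.Base.Residue
import Fermat.Agent.TW.Decomposition

/-!
# Cyclic quartic characters and the one cut out by a setup

`QuarticChar` is a character of order four of the Galois group of a totally imaginary field,
unramified outside `3`; `Setup.quartic` is the one on the quadratic extension of `F` fixed by a
cyclic subgroup of order four of the quaternion group, the inertia image at a chosen place over `3`.
-/

set_option autoImplicit false

noncomputable section

open NumberField IsDedekindDomain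

namespace FermatAgent.LT.ClassField

open FermatAgent.Duality.Global (Over IsPlace exists_place ord)

local notation "Qb" => AlgebraicClosure ℚ
local notation "GQ" => AlgebraicClosure ℚ ≃ₐ[ℚ] AlgebraicClosure ℚ

attribute [local instance] FermatAgent.RT.isGalois_algClosureRat
  FermatAgent.Duality.Global.numberField_of_finite

/-- A character of order four of `G_M`, with `M` totally imaginary, unramified outside `3` and
totally ramified at some place over `3`. -/
structure QuarticChar where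
  /-- the field -/
  M : IntermediateField ℚ Qb
  [finite : FiniteDimensional ℚ M]
  /-- the character -/
  χ : M.fixingSubgroup →* Multiplicative (ZMod 4)
  level : ∃ L : IntermediateField ℚ Qb, FiniteDimensional ℚ L ∧
    ∀ g : M.fixingSubgroup, (g : GQ) ∈ L.fixingSubgroup → χ g = 1
  totallyComplex : IsTotallyComplex M
  unramified : ∀ l : ℕ, l.Prime → l ≠ 3 → ∀ A : ValuationSubring Qb, A.LiesOverPrime l →
    ∀ g : M.fixingSubgroup, (g : GQ) ∈ A.inertiaSubgroupIn ℚ → χ g = 1
  full : ∃ A : ValuationSubring Qb, A.LiesOverPrime 3 ∧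
    ∃ g : M.fixingSubgroup, (g : GQ) ∈ A.inertiaSubgroupIn ℚ ∧ χ g = Multiplicative.ofAdd 1

attribute [instance] QuarticChar.finite

namespace QuarticChar

variable (C : QuarticChar)

/-- The value of the character at a Frobenius element of `P`. -/
def frobVal (P : HeightOneSpectrum (𝓞 C.M)) : ZMod 4 :=
  (C.χ ⟨(exists_isFrobOver C.M P).choose, (exists_isFrobOver C.M P).choose_spec.1⟩).toAdd

theorem chi_eq_of_frobenius {P : HeightOneSpectrum (𝓞 C.M)} (h3 : (3 : 𝓞 C.M) ∉ P.asIdeal)
    {A : ValuationSubring Qb} (hA : Over C.M A P) {σ τ : GQ} (hσ : σ ∈ C.M.fixingSubgroup)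
    (hτ : τ ∈ C.M.fixingSubgroup) {N : ℕ} (hσA : A.IsFrobeniusAt σ N)
    (hτA : A.IsFrobeniusAt τ N) : C.χ ⟨σ, hσ⟩ = C.χ ⟨τ, hτ⟩ := by
  obtain ⟨l, hl, hlA⟩ := hA.1
  have hl3 : l ≠ 3 := fun h => h3 (by simpa [h] using hA.natCast_mem hlA)
  have h := C.unramified l hl hl3 A hlA
    (⟨σ, hσ⟩⁻¹ * ⟨τ, hτ⟩ : C.M.fixingSubgroup) (TW.inv_mul_mem_inertia hσA hτA)
  rwa [map_mul, map_inv, inv_mul_eq_one] at h

theorem frobVal_eq {P : HeightOneSpectrum (𝓞 C.M)} (h3 : (3 : 𝓞 C.M) ∉ P.asIdeal) {σ : GQ}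
    (hσ : IsFrobOver P σ) : C.frobVal P = (C.χ ⟨σ, hσ.1⟩).toAdd := by
  obtain ⟨hτ, B, hB, hτB⟩ := (exists_isFrobOver C.M P).choose_spec
  obtain ⟨hσ', A, hA, hσA⟩ := hσ
  have hP : ∀ {A : ValuationSubring Qb},
      (∀ x : 𝓞 C.M, x ∈ P.asIdeal ↔ ((x : C.M) : Qb) ∈ A.nonunits) → Over C.M A P := by
    intro A hA
    obtain ⟨l, hl, hlP⟩ := CFT.exists_prime_mem P
    have hl' : (l : 𝓞 C.M) ∈ P.asIdeal := by
      have := Ideal.mem_span_singleton_self (l : ℤ)
      rw [hlP.over, Ideal.under, Ideal.mem_comap, map_natCast] at this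
      exact this
    refine ⟨⟨l, hl, ?_⟩, Ideal.ext fun x => ?_⟩
    · have := (hA _).1 hl'
      rw [ValuationSubring.mem_nonunits_iff] at this
      show (l : Qb) ∈ A.nonunits
      rw [ValuationSubring.mem_nonunits_iff]
      simpa using this
    · rw [Ideal.mem_comap, RT.mem_centre_iff, hA, A.mem_nonunits_iff]
      rfl
  obtain ⟨g, hg, hgA⟩ := Duality.Global.exists_smul_eq_of_over (hP hA) (hP hB)
  subst hgA
  have h1 := TW.conj_isFrobeniusAt (g := g) hσA
  have hgm : g * σ * g⁻¹ ∈ C.M.fixingSubgroup := mul_mem (mul_mem hg hσ') (inv_mem hg)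
  rw [frobVal, C.chi_eq_of_frobenius h3 (hP hB) hτ hgm hτB h1]
  refine congrArg Multiplicative.toAdd ?_
  rw [show (⟨g * σ * g⁻¹, hgm⟩ : C.M.fixingSubgroup) = ⟨g, hg⟩ * ⟨σ, hσ'⟩ * ⟨g, hg⟩⁻¹ from rfl,
    map_mul, map_mul, map_inv, mul_inv_cancel_comm]

end QuarticChar

end FermatAgent.LT.ClassField

namespace FermatAgent.LT

theorem GL2F3.tq8_sq_oct : ∀ g : GL2F3.Tup, GL2F3.TOct g → GL2F3.TQ8 (GL2F3.tpow g 2) := by
  decide +kernel

end FermatAgent.LT

namespace FermatAgent.LT.Setup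

open FermatAgent.LT.ClassField

local notation "Qb" => AlgebraicClosure ℚ
local notation "GQ" => AlgebraicClosure ℚ ≃ₐ[ℚ] AlgebraicClosure ℚ

attribute [local instance] FermatAgent.RT.isGalois_algClosureRat
  FermatAgent.Duality.Global.numberField_of_finite

variable (S : Setup)

/-- A place over `3`. -/
def A₀ (_ : Setup) : ValuationSubring Qb :=
  (FermatAgent.RT.exists_liesOverPrime (show (3 : ℕ).Prime by norm_num)).choose

theorem A₀_liesOver : S.A₀.LiesOverPrime 3 :=
  (FermatAgent.RT.exists_liesOverPrime (show (3 : ℕ).Prime by norm_num)).choose_spec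

/-- A tame generator at that place. -/
def tameGen : GQ := (S.exists_oct_generator S.A₀_liesOver).choose

theorem tameGen_mem : S.tameGen ∈ S.A₀.inertiaSubgroupIn ℚ :=
  (S.exists_oct_generator S.A₀_liesOver).choose_spec.1

theorem inertia_le_zpowers {σ : GQ} (hσ : σ ∈ S.A₀.inertiaSubgroupIn ℚ) :
    S.ρ σ ∈ Subgroup.zpowers (S.ρ S.tameGen) :=
  (S.exists_oct_generator S.A₀_liesOver).choose_spec.2.2.2 σ hσ

/-- The generator of order four of the chosen cyclic subgroup of the quaternion group. -/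
def quartGen : GL (Fin 2) (ZMod 3) := S.ρ S.tameGen ^ 2

theorem orderOf_quartGen : orderOf S.quartGen = 4 := by
  obtain ⟨-, hoct, h8, -⟩ := (S.exists_oct_generator S.A₀_liesOver).choose_spec
  have h4 : S.ρ S.tameGen ^ 4 ≠ 1 := fun h => hoct.2.1 ((tpow_eq_one_iff _ 4).2 h)
  have := orderOf_eq_prime_pow (p := 2) (n := 2) (x := S.ρ S.tameGen) (hnot := by simpa using h4)
    (hfin := h8)
  rw [quartGen, orderOf_pow' _ two_ne_zero, this]
  norm_num

/-- The quadratic extension of `F`. -/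
def M : IntermediateField ℚ Qb :=
  IntermediateField.fixedField ((Subgroup.zpowers S.quartGen).comap S.ρ)

instance : FiniteDimensional ℚ S.M := S.finiteDimensional_fixedField _

theorem mem_fix_M {σ : GQ} :
    σ ∈ S.M.fixingSubgroup ↔ S.ρ σ ∈ Subgroup.zpowers S.quartGen := by
  obtain ⟨E, hE, hEker⟩ := S.finiteLevel
  let H := (Subgroup.zpowers S.quartGen).comap S.ρ
  have hle : E.fixingSubgroup ≤ H := fun σ hσ => by
    rw [Subgroup.mem_comap, hEker σ ((IntermediateField.mem_fixingSubgroup_iff E σ).1 hσ)]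
    exact one_mem _
  let Hc : ClosedSubgroup GQ := ⟨H, Subgroup.isClosed_of_isOpen _
    (Subgroup.isOpen_mono hle (IntermediateField.fixingSubgroup_isOpen E))⟩
  have hfix : (IntermediateField.fixedField H).fixingSubgroup = H :=
    InfiniteGalois.fixingSubgroup_fixedField Hc
  exact SetLike.ext_iff.1 hfix σ

/-- The logarithm on the cyclic subgroup. -/
def quartLog : Subgroup.zpowers S.quartGen →* Multiplicative (ZMod 4) :=
  (zmodMulEquivOfGenerator (g := (⟨S.quartGen, Subgroup.mem_zpowers _⟩ :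
      Subgroup.zpowers S.quartGen))
    (fun x => by
      obtain ⟨k, hk⟩ := Subgroup.mem_zpowers_iff.1 x.2
      exact Subgroup.mem_zpowers_iff.2 ⟨k, Subtype.ext (by simpa using hk)⟩)
    (by rw [Nat.card_zpowers, S.orderOf_quartGen])).symm.toMonoidHom

theorem quartLog_zpow (k : ℤ) (h : S.quartGen ^ k ∈ Subgroup.zpowers S.quartGen) :
    S.quartLog ⟨S.quartGen ^ k, h⟩ = Multiplicative.ofAdd (k : ZMod 4) := by
  rw [show (⟨S.quartGen ^ k, h⟩ : Subgroup.zpowers S.quartGen) =
    (⟨S.quartGen, Subgroup.mem_zpowers _⟩ : Subgroup.zpowers S.quartGen) ^ k from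
      Subtype.ext (by simp)]
  exact zmodMulEquivOfGenerator_symm_apply_zpow _ _ k

/-- The character of order four. -/
def quartChi : S.M.fixingSubgroup →* Multiplicative (ZMod 4) :=
  S.quartLog.comp ((S.ρ.comp S.M.fixingSubgroup.subtype).codRestrict _
    fun g => S.mem_fix_M.1 g.2)

theorem quartChi_spec {g : S.M.fixingSubgroup} {k : ℤ} (h : S.ρ g = S.quartGen ^ k) :
    S.quartChi g = Multiplicative.ofAdd (k : ZMod 4) := by
  show S.quartLog ⟨S.ρ g, _⟩ = _
  rw [← S.quartLog_zpow k (Subgroup.zpow_mem_zpowers _ k)]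
  exact congrArg _ (Subtype.ext h)

theorem quartChi_eq_one_iff {g : S.M.fixingSubgroup} : S.quartChi g = 1 ↔ S.ρ g = 1 := by
  refine ⟨fun h => ?_, fun h => by rw [S.quartChi_spec (k := 0) (by simpa using h)]; simp⟩
  obtain ⟨k, hk⟩ := Subgroup.mem_zpowers_iff.1 (S.mem_fix_M.1 g.2)
  rw [S.quartChi_spec hk.symm, ← ofAdd_zero, Multiplicative.ofAdd.injective.eq_iff,
    ZMod.intCast_zmod_eq_zero_iff_dvd] at h
  obtain ⟨j, rfl⟩ := h
  rw [← hk, zpow_mul, Nat.cast_ofNat, show (4 : ℤ) = ((4 : ℕ) : ℤ) from rfl, zpow_natCast,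
    ← S.orderOf_quartGen, pow_orderOf_eq_one, _root_.one_zpow]

theorem M_le_fix {g : GQ} (hg : g ∈ S.M.fixingSubgroup) : S.ρ g ∈ quaternionSubgroup := by
  have hc : S.quartGen ∈ quaternionSubgroup := by
    obtain ⟨-, hoct, h8, -⟩ := (S.exists_oct_generator S.A₀_liesOver).choose_spec
    refine (GL2F3.tq8_toTup _).1 ?_
    rw [quartGen, ← toTup_pow_eq]
    exact GL2F3.tq8_sq_oct _ hoct
  exact (Subgroup.zpowers_le.2 hc) (S.mem_fix_M.1 hg)

theorem F_le_M : S.F ≤ S.M := by
  intro x hx ⟨g, hg⟩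
  exact S.apply_eq_self_of_q8 (S.M_le_fix (S.mem_fix_M.2 hg)) hx

/-- The quartic character of a setup. -/
def quartic : QuarticChar where
  M := S.M
  χ := S.quartChi
  level := by
    obtain ⟨E, hE, hEker⟩ := S.finiteLevel
    exact ⟨E, hE, fun g hg => S.quartChi_eq_one_iff.2
      (hEker g ((IntermediateField.mem_fixingSubgroup_iff E g).1 hg))⟩
  totallyComplex := ⟨fun w => by
    rw [← InfinitePlace.not_isReal_iff_isComplex]
    intro hw
    exact InfinitePlace.not_isReal_iff_isComplex.2 (S.instIsTotallyComplexF.isComplex _)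
      (hw.comap (IntermediateField.inclusion S.F_le_M).toRingHom)⟩
  unramified := by
    intro l hl hl3 A hA g hg
    rw [S.quartChi_eq_one_iff]
    by_cases hlm : l ∣ 3 * S.m
    · have hlm' : l ∣ S.m := (hl.dvd_mul.1 hlm).resolve_left fun h =>
        hl3 ((Nat.prime_dvd_prime_iff_eq hl (by norm_num)).1 h)
      obtain ⟨k, hk⟩ := Subgroup.mem_zpowers_iff.1 (S.mem_fix_M.1 g.2)
      have h3 := S.unipotent l hl hlm' A hA g hg
      have h4 : S.ρ g ^ 4 = 1 := by
        rw [← hk, ← zpow_natCast (S.quartGen ^ k), ← zpow_mul, mul_comm, zpow_mul, zpow_natCast,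
          ← S.orderOf_quartGen, pow_orderOf_eq_one, _root_.one_zpow]
      have := pow_gcd_eq_one.2 ⟨h3, h4⟩
      simpa using this
    · exact S.unramified l hl hlm A hA g hg
  full := ⟨S.A₀, S.A₀_liesOver, ⟨S.tameGen ^ 2, S.mem_fix_M.2 (by
      rw [map_pow]; exact Subgroup.mem_zpowers _)⟩, pow_mem S.tameGen_mem 2, by
      rw [S.quartChi_spec (k := 1) (by rw [zpow_one]; exact map_pow _ _ _)]; simp⟩

end FermatAgent.LT.Setup
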