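import Fermat.Agent.LT.ClassField.Tower
import Fermat.Agent.LT.ClassField.Basic

/-!
# The local relation between two crossed cyclic extensions

At an unramified prime, the orders of two numbers linked by a crossing `z`, `w` satisfy one
congruence; and Newton's iteration for fourth roots improves closeness to `1`.
-/

set_option autoImplicit false

noncomputable section

open NumberField IsDedekindDomain Finset
open scoped Pointwise

namespace FermatAgent.LT.ClassField

open FermatAgent.Duality.Global (Over IsPlace exists_over exists_place ord)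

local notation "Qb" => AlgebraicClosure ℚ
local notation "GQ" => AlgebraicClosure ℚ ≃ₐ[ℚ] AlgebraicClosure ℚ

attribute [local instance] FermatAgent.RT.isGalois_algClosureRat
  FermatAgent.Duality.Global.numberField_of_finite

section Rel

variable {M : IntermediateField ℚ Qb} [NumberField M] {Q : Type} [CommGroup Q]
  {f : M.fixingSubgroup →* Q} {σ τ : M.fixingSubgroup}

omit [NumberField M] in
theorem apply_eq_of_hom_eq {g h : M.fixingSubgroup} {w : Qb}
    (hw : ∀ k : M.fixingSubgroup, f k = 1 → (k : GQ) w = w) (e : f g = f h) :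
    (g : GQ) w = (h : GQ) w := by
  have h1 := hw (h⁻¹ * g) (by rw [map_mul, map_inv, e, inv_mul_cancel])
  have h2 := congrArg (h : GQ) h1
  rwa [← AlgEquiv.mul_apply, ← Subgroup.coe_mul, mul_inv_cancel_left] at h2

omit [NumberField M] in
theorem fixed_apply {w : Qb} (hw : ∀ k : M.fixingSubgroup, f k = 1 → (k : GQ) w = w)
    (g : M.fixingSubgroup) : ∀ k : M.fixingSubgroup, f k = 1 → (k : GQ) ((g : GQ) w) = (g : GQ) w :=
  fun k hk => by
    rw [← AlgEquiv.mul_apply, ← Subgroup.coe_mul]
    exact apply_eq_of_hom_eq hw (by rw [map_mul, hk, one_mul])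

variable (hlev : ∃ L : IntermediateField ℚ Qb, FiniteDimensional ℚ L ∧
    ∀ h : M.fixingSubgroup, (h : GQ) ∈ L.fixingSubgroup → f h = 1)
  {A : ValuationSubring Qb} {P : HeightOneSpectrum (𝓞 M)} (hA : Over M A P)
  (hun : ∀ i : M.fixingSubgroup, (i : GQ) ∈ A.inertiaSubgroupIn ℚ → f i = 1)
  {g : M.fixingSubgroup} (hg : A.IsFrobeniusAt (g : GQ) (Ideal.absNorm P.asIdeal))

include hlev hA hun hg in
/-- The congruence at one prime. -/
theorem crossing_relation {a b n m : ℕ} (hgab : f g = f σ ^ a * f τ ^ b) (hn : f σ ^ n = 1)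
    (hm : f τ ^ m = 1) {z w : Qb} (hz0 : z ≠ 0) (hw0 : w ≠ 0)
    (hz : ∀ k : M.fixingSubgroup, f k = 1 → (k : GQ) z = z)
    (hw : ∀ k : M.fixingSubgroup, f k = 1 → (k : GQ) w = w)
    (hc : w * (τ : GQ) z = z * (σ : GQ) w) {x y : Mˣ}
    (hx : ((x : M) : Qb) = ∏ k ∈ range n, ((σ : GQ) ^ k) z)
    (hy : ((y : M) : Qb) = ∏ k ∈ range m, ((τ : GQ) ^ k) w) :
    ((n * m : ℕ) : ℤ) ∣ (m * a : ℕ) * ord P x + (n * b : ℕ) * ord P y := by
  set v := A.valuation
  let act : ℕ → ℕ → M.fixingSubgroup := fun i j => σ ^ i * τ ^ j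
  have hfact : ∀ i j, f (act i j) = f σ ^ i * f τ ^ j := fun i j => by
    rw [map_mul, map_pow, map_pow]
  let Z : ℕ → ℕ → A.ValueGroup := fun i j => v ((act i j : GQ) z)
  let W : ℕ → ℕ → A.ValueGroup := fun i j => v ((act i j : GQ) w)
  have hsucc : ∀ (u : Qb), (∀ k : M.fixingSubgroup, f k = 1 → (k : GQ) u = u) → ∀ i j,
      (act i (j + 1) : GQ) u = (act i j : GQ) ((τ : GQ) u) ∧
      (act (i + 1) j : GQ) u = (act i j : GQ) ((σ : GQ) u) := fun u hu i j => by
    constructor <;> rw [← AlgEquiv.mul_apply, ← Subgroup.coe_mul] <;>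
      refine apply_eq_of_hom_eq hu ?_
    · rw [hfact, map_mul (f := f) (act i j), hfact, pow_succ, mul_assoc]
    · rw [hfact, map_mul (f := f) (act i j), hfact, pow_succ, mul_right_comm]
  have hclosed : ∀ i j, W i j * Z i (j + 1) = Z i j * W (i + 1) j := fun i j => by
    simp only [Z, W, (hsucc z hz i j).1, (hsucc w hw i j).2, ← map_mul, hc]
  have hper : ∀ (u : Qb), (∀ k : M.fixingSubgroup, f k = 1 → (k : GQ) u = u) → ∀ {i j i' j' : ℕ},
      f σ ^ i' * f τ ^ j' = f σ ^ i * f τ ^ j → (act i' j' : GQ) u = (act i j : GQ) u :=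
    fun u hu i j i' j' h => apply_eq_of_hom_eq hu (by rw [hfact, hfact, h])
  have hgd := (TW.isFrobeniusAt_iff.1 hg).1
  have hshift : ∀ (u : Qb), (∀ k : M.fixingSubgroup, f k = 1 → (k : GQ) u = u) → ∀ i j,
      v ((act (i + a) (j + b) : GQ) u) = v ((act i j : GQ) u) := fun u hu i j => by
    rw [apply_eq_of_hom_eq (g := act (i + a) (j + b)) (h := g * act i j) hu (by
      rw [hfact, map_mul (f := f) g, hfact, hgab, pow_add, pow_add, mul_mul_mul_comm, mul_comm]), Subgroup.coe_mul, AlgEquiv.mul_apply]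
    exact Local.val_galois_eq hgd _
  have hpot := pot_pow_eq hclosed (a := a) (b := b) (n := n) (m := m) (hshift z hz) (hshift w hw)
    (fun i j => congrArg v (hper z hz (by rw [pow_add, hn, mul_one])))
    (fun i j => congrArg v (hper w hw (by rw [pow_add, hn, mul_one])))
    (fun i j => congrArg v (hper z hz (by rw [pow_add, hm, mul_one])))
    (fun i j => congrArg v (hper w hw (by rw [pow_add, hm, mul_one])))
  -- the period is the value of a number fixed by the kernel
  set q : Qb := (∏ k ∈ range a, (act k 0 : GQ) z) * ∏ k ∈ range b, (act a k : GQ) w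
  have hq0 : q ≠ 0 := mul_ne_zero (prod_ne_zero_iff.2 fun k _ => (map_ne_zero _).2 hz0)
    (prod_ne_zero_iff.2 fun k _ => (map_ne_zero _).2 hw0)
  have hqfix : ∀ k : M.fixingSubgroup, f k = 1 → (k : GQ) q = q := fun k hk => by
    rw [map_mul, map_prod, map_prod]
    congr 1 <;> refine prod_congr rfl fun i _ => ?_
    · exact fixed_apply hz _ k hk
    · exact fixed_apply hw _ k hk
  obtain ⟨q', hq'M, hq'0, hq'v⟩ := exists_val_eq f hlev hun hA hg hq0 hqfix
  let qu : Mˣ := Units.mk0 ⟨q', hq'M⟩ fun h => hq'0 (congrArg Subtype.val h)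
  have e1 : pot Z W a b = v (((qu : M)) : Qb) := by
    show _ = v q'
    rw [hq'v, map_mul, map_prod, map_prod]
    rfl
  have e2 : (∏ k ∈ range n, Z k 0) = v ((x : M) : Qb) := by
    rw [hx, map_prod]
    exact prod_congr rfl fun k _ => by simp [Z, act]
  have e3 : (∏ k ∈ range m, W 0 k) = v ((y : M) : Qb) := by
    rw [hy, map_prod]
    exact prod_congr rfl fun k _ => by simp [W, act]
  rw [e1, e2, e3] at hpot
  have h1 : v (((qu ^ (n * m) : Mˣ) : M) : Qb) =
      v (((x ^ (m * a) * y ^ (n * b) : Mˣ) : M) : Qb) := by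
    simp only [Units.val_pow_eq_pow_val, Units.val_mul, MulMemClass.coe_mul,
      SubmonoidClass.coe_pow, map_mul, map_pow]
    exact hpot
  have h2 := (hA.val_eq_iff _ _).1 h1
  simp only [Duality.Global.ord_pow, Duality.Global.ord_mul] at h2
  exact ⟨ord P qu, h2.symm⟩

end Rel

/-! ### Fourth roots of numbers close to `1` -/

theorem exists_close_fourth {M : IntermediateField ℚ Qb} {x : Qb} (hxM : x ∈ M) {N : ℕ}
    (hN : 96 ∣ N) (hx : Close N x) (k : ℕ) :
    ∃ r : Qb, r ∈ M ∧ r ≠ 0 ∧ Close 24 r ∧ Close (N * 6 ^ k) (x / r ^ 4) := by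
  induction k with
  | zero => exact ⟨1, one_mem M, one_ne_zero, Close.one 24, by simpa using hx⟩
  | succ k ih =>
    obtain ⟨r, hrM, hr0, hr, hxr⟩ := ih
    set e := x / r ^ 4 - 1 with he
    set r' := 1 + e / 4
    have hN' : 96 ∣ N * 6 ^ k := hN.mul_right _
    have hr' : Close 24 r' := fun A hA => by
      obtain ⟨c, hc⟩ := hN'
      have h := hxr A hA
      rw [hc, show ((96 * c : ℕ) : Qb) = 4 * ((24 : ℕ) : Qb) * c by push_cast; ring,
        map_mul, map_mul] at h
      rw [show r' - 1 = e / 4 by simp [r'], map_div₀,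
        div_le_iff₀ (zero_lt_iff.2 ((map_ne_zero _).2 (by norm_num))), mul_comm (A.valuation _)]
      exact h.trans (mul_le_of_le_one_right' ((A.valuation_le_one_iff _).2 (natCast_mem A c)))
    obtain ⟨A₂, hA₂⟩ := FermatAgent.RT.exists_liesOverPrime Nat.prime_two
    have hr'0 : r' ≠ 0 := fun h => by
      have := (hr'.val_eq_one (by norm_num) (A := A₂) (Or.inl hA₂))
      simp [h] at this
    refine ⟨r * r', mul_mem hrM ?_, mul_ne_zero hr0 hr'0, hr.mul hr', fun A hA => ?_⟩
    · have : e ∈ M := sub_mem (div_mem hxM (pow_mem hrM 4)) (one_mem M)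
      exact add_mem (one_mem M) (div_mem this (by simp))
    have hv' := hr'.val_eq_one (by norm_num) hA
    have key : x / (r * r') ^ 4 - 1 = -(e * (e / 16) * (6 + e + e * (e / 16))) / r' ^ 4 := by
      rw [show x / (r * r') ^ 4 = (1 + e) / r' ^ 4 by rw [he, mul_pow, div_mul_eq_div_div]; ring]
      rw [div_sub_one (pow_ne_zero _ hr'0)]
      congr 1
      simp only [r']
      ring
    rw [key, map_div₀, Valuation.map_neg, map_pow, hv', one_pow, div_one, map_mul, map_mul,
      show N * 6 ^ (k + 1) = N * 6 ^ k * 6 by ring, Nat.cast_mul, map_mul]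
    have h16 : A.valuation (e / 16) ≤ A.valuation ((6 : ℕ) : Qb) := by
      obtain ⟨c, hc⟩ := hN'
      have h := hxr A hA
      rw [hc, show ((96 * c : ℕ) : Qb) = ((6 : ℕ) : Qb) * 16 * c by push_cast; ring,
        map_mul, map_mul] at h
      rw [map_div₀, div_le_iff₀ (zero_lt_iff.2 ((map_ne_zero _).2 (by norm_num)))]
      exact h.trans (mul_le_of_le_one_right' ((A.valuation_le_one_iff _).2 (natCast_mem A c)))
    have he1 : A.valuation e ≤ 1 :=
      (hxr A hA).trans ((A.valuation_le_one_iff _).2 (natCast_mem A _))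
    have h6 : A.valuation (6 + e + e * (e / 16)) ≤ 1 := by
      refine A.valuation.map_add_le (A.valuation.map_add_le
        ((A.valuation_le_one_iff _).2 (by simp)) he1) ?_
      rw [map_mul]
      exact mul_le_one' he1 (h16.trans ((A.valuation_le_one_iff _).2 (natCast_mem A 6)))
    exact (mul_le_of_le_one_right' h6).trans (mul_le_mul' (hxr A hA) h16)

end FermatAgent.LT.ClassField
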