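import Fermat.Agent.LT.ClassField.Unram
import Fermat.Agent.Duality.Global.SUnits
import Fermat.Agent.GalRep.Construct.Cyclotomic
import Fermat.Agent.CFT.Inertia

/-!
# The cyclotomic `2`-tower

`Two n` is `(ℤ / 2 ^ n)ˣ` modulo sign, a cyclic group; `cycTwo` the cyclotomic character into it.
Its values at Frobenius elements are norms, so the product over the primes of a number congruent to
`1` modulo `2 ^ n` is trivial.
-/

set_option autoImplicit false

noncomputable section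

open NumberField IsDedekindDomain

namespace FermatAgent.LT.ClassField

open FermatAgent.Duality.Global (ord finite_setOf_ord_ne_zero)

local notation "Qb" => AlgebraicClosure ℚ
local notation "GQ" => AlgebraicClosure ℚ ≃ₐ[ℚ] AlgebraicClosure ℚ

attribute [local instance] FermatAgent.RT.isGalois_algClosureRat
  FermatAgent.GalRep.hasEnoughRootsOfUnity_pow

/-- `(ℤ / 2 ^ n)ˣ` modulo sign. -/
abbrev Two (n : ℕ) : Type := (ZMod (2 ^ n))ˣ ⧸ Subgroup.zpowers (-1 : (ZMod (2 ^ n))ˣ)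

/-- The cyclotomic character modulo `2 ^ n`. -/
def cycUnit (n : ℕ) : GQ →* (ZMod (2 ^ n))ˣ :=
  haveI : Fact (Nat.Prime 2) := ⟨Nat.prime_two⟩
  (Units.map (PadicInt.toZModPow (p := 2) n).toMonoidHom).comp
    ((cyclotomicCharacter Qb 2).comp (MulSemiringAction.toRingAut GQ Qb))

/-- The cyclotomic character modulo sign. -/
def cycTwo (n : ℕ) : GQ →* Two n := (QuotientGroup.mk' _).comp (cycUnit n)

theorem cycUnit_spec (σ : GQ) {n : ℕ} {ζ : Qb} (hζ : ζ ^ 2 ^ n = 1) :
    σ ζ = ζ ^ ((cycUnit n σ : ZMod (2 ^ n))).val :=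
  haveI : Fact (Nat.Prime 2) := ⟨Nat.prime_two⟩
  FermatAgent.GalRep.cycChar_spec 2 σ n hζ

theorem cycUnit_eq {σ : GQ} {n a : ℕ} (h : ∀ ζ : Qb, ζ ^ 2 ^ n = 1 → σ ζ = ζ ^ a) :
    (cycUnit n σ : ZMod (2 ^ n)) = a :=
  haveI : Fact (Nat.Prime 2) := ⟨Nat.prime_two⟩
  FermatAgent.GalRep.toZModPow_cycChar_eq 2 h

theorem cycUnit_frobenius {n ℓ N : ℕ} (hℓ : ℓ.Prime) (hℓ2 : ℓ ≠ 2) {A : ValuationSubring Qb}
    (hA : A.LiesOverPrime ℓ) {τ : GQ} (hτ : A.IsFrobeniusAt τ N) :
    (cycUnit n τ : ZMod (2 ^ n)) = N := by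
  have : Fact (Nat.Prime 2) := ⟨Nat.prime_two⟩
  refine cycUnit_eq fun ζ hζ => ?_
  obtain ⟨hd, hf⟩ := TW.isFrobeniusAt_iff.1 hτ
  have hζ0 : ζ ≠ 0 := by
    rintro rfl
    simp at hζ
  have hvζ : A.valuation ζ = 1 := by
    have h : A.valuation ζ ^ 2 ^ n = 1 := by rw [← map_pow, hζ, map_one]
    exact (pow_eq_one_iff.1 h).resolve_right (by positivity)
  have h1 := hf ζ ((A.valuation_le_one_iff _).1 hvζ.le)
  have hu : (τ ζ / ζ ^ N) ^ 2 ^ n = 1 := by
    rw [div_pow, ← map_pow, hζ, map_one, ← pow_mul, mul_comm, pow_mul, hζ, one_pow, div_one]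
  have := FermatAgent.GalRep.eq_one_of_sub_one_mem_nonunits 2
    ((Nat.coprime_primes hℓ Nat.prime_two).mpr hℓ2) hA hu (by
      rw [A.mem_nonunits_iff, div_sub_one (pow_ne_zero _ hζ0), map_div₀, map_pow, hvζ, one_pow,
        div_one]
      exact h1)
  exact (div_eq_one_iff_eq (pow_ne_zero _ hζ0)).mp this

theorem cycTwo_inertia {n ℓ : ℕ} (hℓ : ℓ.Prime) (hℓ2 : ℓ ≠ 2) {A : ValuationSubring Qb}
    (hA : A.LiesOverPrime ℓ) {σ : GQ} (hσ : σ ∈ A.inertiaSubgroupIn ℚ) : cycTwo n σ = 1 := by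
  have : Fact (Nat.Prime 2) := ⟨Nat.prime_two⟩
  have h : cycUnit n σ = 1 := Units.ext (by
    show PadicInt.toZModPow n (FermatAgent.GalRep.cycChar 2 σ) = 1
    rw [FermatAgent.GalRep.cycChar_inertia 2 hℓ hℓ2 hA hσ, map_one])
  show QuotientGroup.mk' _ (cycUnit n σ) = 1
  rw [h, map_one]

theorem exists_level_cycTwo (n : ℕ) : ∃ L : IntermediateField ℚ Qb, FiniteDimensional ℚ L ∧
    ∀ σ ∈ L.fixingSubgroup, cycTwo n σ = 1 := by
  have : Fact (Nat.Prime 2) := ⟨Nat.prime_two⟩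
  obtain ⟨L, hL, h⟩ := FermatAgent.GalRep.exists_level_cycChar 2 n
  refine ⟨L, hL, fun σ hσ => ?_⟩
  have h1 : cycUnit n σ = 1 := Units.ext (by
    show PadicInt.toZModPow n (FermatAgent.GalRep.cycChar 2 σ) = 1
    have h2 := h σ fun a ha => hσ ⟨a, ha⟩
    rw [← Ideal.mem_span_singleton, ← PadicInt.ker_toZModPow, RingHom.mem_ker, map_sub, map_one,
      sub_eq_zero] at h2
    exact h2)
  show QuotientGroup.mk' _ (cycUnit n σ) = 1
  rw [h1, map_one]

theorem isCyclic_two {n : ℕ} (hn : 3 ≤ n) : IsCyclic (Two n) := by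
  obtain ⟨k, rfl⟩ : ∃ k, n = k + 3 := ⟨n - 3, by omega⟩
  have : Fact (Nat.Prime 2) := ⟨Nat.prime_two⟩
  have : Fact (1 < 2 ^ (k + 3)) := ⟨Nat.one_lt_two_pow (by omega)⟩
  have hcard : Nat.card (Two (k + 3)) = 2 ^ (k + 1) := by
    have h1 : orderOf (-1 : (ZMod (2 ^ (k + 3)))ˣ) = 2 := by
      rw [← orderOf_units, Units.val_neg, Units.val_one, orderOf_neg_one, ZMod.ringChar_zmod_n,
        if_neg]
      exact Nat.ne_of_gt (by
        calc 2 < 2 ^ 3 := by norm_num
          _ ≤ 2 ^ (k + 3) := Nat.pow_le_pow_right two_pos (by omega))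
    have h2 := Subgroup.card_eq_card_quotient_mul_card_subgroup
      (Subgroup.zpowers (-1 : (ZMod (2 ^ (k + 3)))ˣ))
    rw [Nat.card_zpowers, h1, Nat.card_eq_fintype_card, ZMod.card_units_eq_totient,
      Nat.totient_prime_pow Nat.prime_two (by omega)] at h2
    simp only [Nat.add_one_sub_one, mul_one] at h2
    show Nat.card ((ZMod (2 ^ (k + 3)))ˣ ⧸ Subgroup.zpowers (-1 : (ZMod (2 ^ (k + 3)))ˣ)) = _
    have e : (2 : ℕ) ^ (k + 3 - 1) = 2 ^ (k + 1) * 2 := by
      rw [← pow_succ]; congr 1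
    exact Nat.eq_of_mul_eq_mul_right two_pos (h2.symm.trans e)
  have h5 := ZMod.orderOf_five (k + 1)
  obtain ⟨u, hu⟩ : IsUnit (5 : ZMod (2 ^ (k + 3))) := by
    refine IsUnit.of_pow_eq_one ?_ (pow_ne_zero (k + 1) two_ne_zero)
    rw [← h5]; exact pow_orderOf_eq_one _
  rw [← hu, orderOf_units] at h5
  refine isCyclic_of_orderOf_eq_card (QuotientGroup.mk u : Two (k + 3)) ?_
  rw [hcard]
  refine orderOf_eq_prime_pow (fun h => ?_) (by
    rw [← QuotientGroup.mk_pow, ← h5, pow_orderOf_eq_one, QuotientGroup.mk_one])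
  rw [← QuotientGroup.mk_pow, QuotientGroup.eq_one_iff] at h
  have hmem : u ^ 2 ^ k = 1 ∨ u ^ 2 ^ k = -1 := by
    obtain ⟨j, hj⟩ := Subgroup.mem_zpowers_iff.1 h
    rcases Int.even_or_odd j with hj' | hj'
    · left; rw [← hj, hj'.neg_one_zpow]
    · right; rw [← hj, hj'.neg_one_zpow]
  rcases hmem with h | h
  · have := orderOf_dvd_of_pow_eq_one h
    rw [h5, Nat.pow_dvd_pow_iff_le_right (by norm_num)] at this
    omega
  · have h4 := congrArg (fun z : (ZMod (2 ^ (k + 3)))ˣ =>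
      ZMod.castHom (show 2 ^ 2 ∣ 2 ^ (k + 3) from pow_dvd_pow 2 (by omega)) (ZMod (2 ^ 2)) z) h
    simp only [Units.val_pow_eq_pow_val, hu, map_pow, Units.val_neg, Units.val_one, map_neg,
      map_one, map_ofNat] at h4
    rw [show (5 : ZMod (2 ^ 2)) = 1 from by decide, one_pow] at h4
    exact absurd h4 (by decide)

/-- A power of a large norm which is `±1` modulo `2 ^ n` has exponent divisible by four. -/
theorem four_dvd_of_pow_eq_one {n N j : ℕ} {u : (ZMod (2 ^ n))ˣ} (hu : (u : ZMod (2 ^ n)) = N)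
    (hN : 1 < N) (hn : N ^ 4 < 2 ^ n) (h : (QuotientGroup.mk u : Two n) ^ j = 1) : 4 ∣ j := by
  rw [← QuotientGroup.mk_pow, QuotientGroup.eq_one_iff] at h
  obtain ⟨i, hi⟩ := Subgroup.mem_zpowers_iff.1 h
  have h2 : u ^ (2 * j) = 1 := by
    rw [mul_comm, pow_mul, ← hi]
    rcases Int.even_or_odd i with hj' | hj'
    · rw [hj'.neg_one_zpow, one_pow]
    · rw [hj'.neg_one_zpow, neg_one_sq]
  have ho := orderOf_dvd_of_pow_eq_one h2
  have hn0 : n ≠ 0 := by
    rintro rfl
    have : 1 ≤ N ^ 4 := Nat.one_le_pow _ _ (by omega)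
    omega
  have hcard : orderOf u ∣ 2 ^ (n - 1) := by
    have := orderOf_dvd_card (x := u)
    rwa [ZMod.card_units_eq_totient, Nat.totient_prime_pow Nat.prime_two (Nat.pos_of_ne_zero hn0),
      Nat.add_one_sub_one, mul_one] at this
  obtain ⟨b, -, hb⟩ := (Nat.dvd_prime_pow Nat.prime_two).1 hcard
  rcases le_or_gt b 2 with hb2 | hb2
  · exfalso
    have h4 : u ^ 4 = 1 := orderOf_dvd_iff_pow_eq_one.1 (hb ▸ pow_dvd_pow 2 hb2)
    have h4' := congrArg Units.val h4
    rw [Units.val_pow_eq_pow_val, hu, Units.val_one, ← Nat.cast_pow, ← Nat.cast_one,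
      ZMod.natCast_eq_natCast_iff', Nat.mod_eq_of_lt hn, Nat.mod_eq_of_lt (by
        calc 1 ≤ N ^ 4 := Nat.one_le_pow _ _ (by omega)
          _ < 2 ^ n := hn)] at h4'
    have : 1 < N ^ 4 := Nat.one_lt_pow (by norm_num) hN
    omega
  · have : 2 ^ 3 ∣ orderOf u := hb ▸ pow_dvd_pow 2 hb2
    have := this.trans ho
    omega

variable {M : IntermediateField ℚ Qb} [NumberField M]

/-- The units modulo `N` and sign. -/
abbrev UnitsPM (N : ℕ) : Type := (ZMod N)ˣ ⧸ Subgroup.zpowers (-1 : (ZMod N)ˣ)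

/-- The norm of a prime, modulo sign and `N`. -/
def normClass (N : ℕ) (P : HeightOneSpectrum (𝓞 M)) : UnitsPM N :=
  open scoped Classical in
  if h : (Ideal.absNorm P.asIdeal).Coprime N then
    QuotientGroup.mk (ZMod.unitOfCoprime _ h) else 1

/-- The norm of a prime, modulo sign and `2 ^ n`. -/
abbrev normClassTwo (n : ℕ) (P : HeightOneSpectrum (𝓞 M)) : Two n := normClass (2 ^ n) P

theorem normClassTwo_eq_cycTwo {n ℓ : ℕ} (hℓ : ℓ.Prime) (hℓ2 : ℓ ≠ 2) {A : ValuationSubring Qb}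
    (hA : A.LiesOverPrime ℓ) (P : HeightOneSpectrum (𝓞 M)) {τ : GQ}
    (hτ : A.IsFrobeniusAt τ (Ideal.absNorm P.asIdeal)) :
    normClassTwo n P = cycTwo n τ := by
  have h1 := cycUnit_frobenius (n := n) hℓ hℓ2 hA hτ
  have hcop : (Ideal.absNorm P.asIdeal).Coprime (2 ^ n) :=
    (ZMod.isUnit_iff_coprime _ _).1 (h1 ▸ Units.isUnit _)
  rw [normClassTwo, normClass, dif_pos hcop]
  exact congrArg QuotientGroup.mk (Units.ext (by rw [h1, ZMod.coe_unitOfCoprime]))

theorem finprod_normClass_of_int (N : ℕ) {a : 𝓞 M} (ha : a ≠ 0) (x : Mˣ)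
    (hx : algebraMap (𝓞 M) M a = x) (hcop : (Ideal.absNorm (Ideal.span {a})).Coprime N) :
    ∏ᶠ P, normClass N P ^ ord P x =
      QuotientGroup.mk (ZMod.unitOfCoprime _ hcop) := by
  classical
  set s := (finite_setOf_ord_ne_zero x).toFinset
  have hs : ∀ P, P ∉ s → ord P x = 0 := fun P hP => by simpa [s] using hP
  rw [finprod_eq_prod_of_mulSupport_subset _ (s := s) (fun P hP => by
    by_contra h
    exact hP (show normClass N P ^ ord P x = 1 by rw [hs P (by simpa using h), zpow_zero]))]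
  set nf := UniqueFactorizationMonoid.normalizedFactors (Ideal.span {a})
  have hne : Ideal.span {a} ≠ 0 := by simpa using ha
  have hprod : Ideal.absNorm (Ideal.span {a}) =
      ∏ P ∈ s, Ideal.absNorm P.asIdeal ^ nf.count P.asIdeal := by
    conv_lhs => rw [← Ideal.prod_normalizedFactors_eq_self hne]
    rw [Finset.prod_multiset_count, map_prod]
    simp only [map_pow]
    rw [← Finset.prod_image (f := fun I => Ideal.absNorm I ^ nf.count I) (g := fun P => P.asIdeal)
      (fun _ _ _ _ h => HeightOneSpectrum.ext h)]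
    refine Finset.prod_subset (fun I hI => ?_) fun I _ hI => ?_
    · have hI' := Multiset.mem_toFinset.1 hI
      have hprime := UniqueFactorizationMonoid.prime_of_normalized_factor I hI'
      refine Finset.mem_image.2 ⟨⟨I, Ideal.isPrime_of_prime hprime, hprime.ne_zero⟩, ?_, rfl⟩
      refine (Set.Finite.mem_toFinset _).2 ?_
      show ord _ x ≠ 0
      rw [Duality.Global.ord_algebraMap _ a x hx.symm]
      exact Int.natCast_ne_zero.2 (Multiset.count_ne_zero.2 hI')
    · rw [Multiset.count_eq_zero.2 (fun h => hI (Multiset.mem_toFinset.2 h)), pow_zero]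
  have hunit : ∀ P ∈ s, nf.count P.asIdeal ≠ 0 → (Ideal.absNorm P.asIdeal).Coprime N := by
    intro P hP h
    refine Nat.Coprime.coprime_dvd_left ?_ hcop
    rw [hprod]
    exact (dvd_pow_self _ h).trans (Finset.dvd_prod_of_mem _ hP)
  let u : HeightOneSpectrum (𝓞 M) → (ZMod N)ˣ := fun P =>
    if h : (Ideal.absNorm P.asIdeal).Coprime N then ZMod.unitOfCoprime _ h else 1
  have hu : ∀ P, normClass N P = QuotientGroup.mk' _ (u P) := fun P => by
    simp only [normClass, u]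
    split_ifs
    · rfl
    · exact (map_one (QuotientGroup.mk' _)).symm
  simp only [hu, Duality.Global.ord_algebraMap _ a x hx.symm, zpow_natCast, ← map_pow, ← map_prod]
  refine congrArg QuotientGroup.mk (Units.ext ?_)
  rw [ZMod.coe_unitOfCoprime, hprod, Units.coe_prod, Nat.cast_prod]
  refine Finset.prod_congr rfl fun P hP => ?_
  rw [Units.val_pow_eq_pow_val, Nat.cast_pow]
  by_cases h : nf.count P.asIdeal = 0
  · rw [h, pow_zero, pow_zero]
  · simp only [u, dif_pos (hunit P hP h), ZMod.coe_unitOfCoprime, nf]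
  
theorem unit_class_eq {N a b : ℕ} (ha : a.Coprime N) (hb : b.Coprime N)
    (h : (a : ZMod N) = b ∨ (a : ZMod N) = -(b : ZMod N)) :
    (QuotientGroup.mk (ZMod.unitOfCoprime a ha) : UnitsPM N) =
      QuotientGroup.mk (ZMod.unitOfCoprime b hb) := by
  rcases h with h | h
  · exact congrArg QuotientGroup.mk (Units.ext (by simpa using h))
  · have e : ZMod.unitOfCoprime a ha = -1 * ZMod.unitOfCoprime b hb :=
      Units.ext (by simpa using h)
    rw [e]
    refine QuotientGroup.eq.2 ?_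
    rw [mul_inv_rev, inv_mul_cancel_comm]
    exact inv_mem (Subgroup.mem_zpowers _)

/-- **Reciprocity for cyclotomic fields**: the norms of the primes of a number congruent to `1`
modulo `N` multiply to a sign. -/
theorem finprod_normClass_eq_one (N : ℕ) (x : Mˣ) {a b : 𝓞 M} (hb : b ≠ 0)
    (hab : ((x : M)) * algebraMap (𝓞 M) M b = algebraMap (𝓞 M) M a)
    (hbcop : (Ideal.absNorm (Ideal.span {b})).Coprime N)
    (hcong : ((N) : 𝓞 M) ∣ a - b) :
    ∏ᶠ P, normClass N P ^ ord P x = 1 := by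
  classical
  have ha : a ≠ 0 := fun h => by
    rw [h, map_zero] at hab
    exact hb (by simpa using hab)
  have h1 := FermatAgent.CFT.norm_cast_eq_of_dvd_sub hcong
  have habs : ∀ z : 𝓞 M, (Ideal.absNorm (Ideal.span {z}) : ZMod N) =
      ((Algebra.norm ℤ z).natAbs : ℕ) := fun z => by rw [Ideal.absNorm_span_singleton]
  have hpm : (Ideal.absNorm (Ideal.span {a}) : ZMod N) = Ideal.absNorm (Ideal.span {b}) ∨
      (Ideal.absNorm (Ideal.span {a}) : ZMod N) =
        -(Ideal.absNorm (Ideal.span {b}) : ZMod N) := by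
    rw [habs, habs]
    have hsign : ∀ z : ℤ, ((z.natAbs : ℕ) : ZMod N) = (z : ZMod N) ∨
        ((z.natAbs : ℕ) : ZMod N) = -(z : ZMod N) := fun z => by
      rcases Int.natAbs_eq z with e | e
      · left; conv_rhs => rw [e, Int.cast_natCast]
      · right; conv_rhs => rw [e, Int.cast_neg, Int.cast_natCast, neg_neg]
    rcases hsign (Algebra.norm ℤ a) with e | e <;>
      rcases hsign (Algebra.norm ℤ b) with e' | e' <;> rw [e, e', h1] <;> simp
  have hacop : (Ideal.absNorm (Ideal.span {a})).Coprime N := by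
    rw [← ZMod.isUnit_iff_coprime]
    rcases hpm with e | e <;> rw [e]
    · exact (ZMod.isUnit_iff_coprime _ _).2 hbcop
    · exact ((ZMod.isUnit_iff_coprime _ _).2 hbcop).neg
  let a' : Mˣ := Units.mk0 (algebraMap (𝓞 M) M a) (by simpa using ha)
  let b' : Mˣ := Units.mk0 (algebraMap (𝓞 M) M b) (by simpa using hb)
  have e : x = a' / b' := eq_div_iff_mul_eq'.2 (Units.ext hab)
  have hfin : ∀ y : Mˣ, (Function.mulSupport fun P => normClass N P ^ ord P y).Finite :=
    fun y => (finite_setOf_ord_ne_zero y).subset fun P hP h => hP (show normClass N P ^ ord P y = 1 by rw [h, zpow_zero])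
  simp only [e, Duality.Global.ord_div, zpow_sub, ← div_eq_mul_inv]
  rw [finprod_div_distrib (hfin a') (hfin b'), finprod_normClass_of_int N ha a' rfl hacop,
    finprod_normClass_of_int N hb b' rfl hbcop, unit_class_eq hacop hbcop hpm, div_self']

/-- The case of the `2`-tower. -/
theorem finprod_normClassTwo_eq_one (n : ℕ) (x : Mˣ) {a b : 𝓞 M} (hb : b ≠ 0)
    (hab : ((x : M)) * algebraMap (𝓞 M) M b = algebraMap (𝓞 M) M a)
    (hbcop : (Ideal.absNorm (Ideal.span {b})).Coprime (2 ^ n))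
    (hcong : (((2 ^ n : ℕ)) : 𝓞 M) ∣ a - b) :
    ∏ᶠ P, normClassTwo n P ^ ord P x = 1 :=
  finprod_normClass_eq_one (2 ^ n) x hb hab hbcop hcong

end FermatAgent.LT.ClassField
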