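import Mathlib
import Fermat.Agent.CFT.GaloisPrimes

/-!
# The different of a Galois extension of prime degree at a tame prime

For `L / K` Galois of prime degree `ℓ` and a prime `P` of `L` with `ℓ ∉ P`: if the Galois group
acts trivially modulo `P` then `P` is totally ramified and divides the different exactly `ℓ - 1`
times; otherwise, for `ℓ ≤ 3`, `P` is unramified and prime to the different.
-/

set_option autoImplicit false

noncomputable section

open NumberField IsDedekindDomain WithZero Polynomial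
open scoped Pointwise

namespace FermatAgent.LT.ClassField

variable {K L : Type*} [Field K] [NumberField K] [Field L] [NumberField L] [Algebra K L]
  [IsGalois K L] {ℓ : ℕ} (hℓ : ℓ.Prime) (hcard : Module.finrank K L = ℓ)
  (P : HeightOneSpectrum (𝓞 L))

/-- The Galois group acts trivially modulo `P`. -/
def ResTrivial : Prop := ∀ (g : L ≃ₐ[K] L) (x : 𝓞 L), g • x - x ∈ P.asIdeal

variable {P}

omit [NumberField K] [NumberField L] [IsGalois K L] in
theorem coe_smul_int (g : L ≃ₐ[K] L) (x : 𝓞 L) : ((g • x : 𝓞 L) : L) = g (x : L) := rfl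

omit [NumberField K] [NumberField L] [IsGalois K L] in
theorem ResTrivial.smul_mem (h : ResTrivial (K := K) P) (g : L ≃ₐ[K] L) {x : 𝓞 L}
    (hx : x ∈ P.asIdeal) : g • x ∈ P.asIdeal := by
  have := add_mem (h g x) hx
  rwa [sub_add_cancel] at this

omit [NumberField K] [NumberField L] [IsGalois K L] in
theorem ResTrivial.smul_eq (h : ResTrivial (K := K) P) (g : L ≃ₐ[K] L) :
    g • P.asIdeal = P.asIdeal := by
  ext x
  rw [Ideal.mem_pointwise_smul_iff_inv_smul_mem]
  exact ⟨fun hx => by simpa using h.smul_mem g hx, fun hx => h.smul_mem _ hx⟩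

theorem natCard_gal : Nat.card (L ≃ₐ[K] L) = Module.finrank K L :=
  IsGalois.card_aut_eq_finrank K L

theorem finrank_int : Module.finrank (𝓞 K) (𝓞 L) = Module.finrank K L := by
  rw [← IsGaloisGroup.card_eq_finrank' (L ≃ₐ[K] L) (𝓞 K) (𝓞 L), natCard_gal]

/-- The trace on integers. -/
theorem exists_trace_int (x : 𝓞 L) :
    ∃ y : 𝓞 K, algebraMap (𝓞 K) (𝓞 L) y = ∑ g : L ≃ₐ[K] L, g • x :=
  Algebra.IsInvariant.isInvariant (A := 𝓞 K) (G := L ≃ₐ[K] L) _ fun h => by
    rw [Finset.smul_sum]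
    exact Fintype.sum_equiv (Equiv.mulLeft h) _ _ fun g => by rw [Equiv.coe_mulLeft, mul_smul]

section Trivial

variable (h : ResTrivial (K := K) P) (hP : (ℓ : 𝓞 L) ∉ P.asIdeal)
include hℓ hcard h hP

omit hℓ in
theorem exists_sub_mem_base (x : 𝓞 L) :
    ∃ y : 𝓞 K, x - algebraMap (𝓞 K) (𝓞 L) y ∈ P.asIdeal := by
  classical
  obtain ⟨t, ht⟩ := exists_trace_int (K := K) x
  set p₀ := CFT.underPrime K L P
  obtain ⟨a, ha⟩ := p₀.isMaximal.exists_inv (x := (ℓ : 𝓞 K)) fun h0 => hP (by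
    rw [show (ℓ : 𝓞 L) = algebraMap (𝓞 K) (𝓞 L) ℓ from (map_natCast _ ℓ).symm]
    exact h0)
  obtain ⟨i, hi, hai⟩ := ha
  refine ⟨a * t, ?_⟩
  have h1 : (ℓ : 𝓞 L) * x - algebraMap (𝓞 K) (𝓞 L) t ∈ P.asIdeal := by
    have e : (ℓ : 𝓞 L) * x = ∑ _g : L ≃ₐ[K] L, x := by
      rw [Finset.sum_const, Finset.card_univ, ← Nat.card_eq_fintype_card, natCard_gal, hcard,
        nsmul_eq_mul]
    rw [e, ht, ← Finset.sum_sub_distrib]
    exact sum_mem fun g _ => by simpa using neg_mem (h g x)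
  have e : x - algebraMap (𝓞 K) (𝓞 L) (a * t) =
      algebraMap (𝓞 K) (𝓞 L) a * ((ℓ : 𝓞 L) * x - algebraMap (𝓞 K) (𝓞 L) t) +
        algebraMap (𝓞 K) (𝓞 L) i * x := by
    have := congrArg (algebraMap (𝓞 K) (𝓞 L)) hai
    simp only [map_add, map_mul, map_natCast, map_one] at this
    rw [map_mul]
    linear_combination -x * this
  rw [e]
  exact add_mem (Ideal.mul_mem_left _ _ h1) (Ideal.mul_mem_right _ _ hi)

omit hℓ in
theorem absNorm_eq_base :
    Ideal.absNorm P.asIdeal = Ideal.absNorm (CFT.underPrime K L P).asIdeal := by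
  rw [← CFT.natCard_quotient_eq_absNorm, ← CFT.natCard_quotient_eq_absNorm]
  refine (Nat.card_eq_of_bijective (Ideal.quotientMap P.asIdeal (algebraMap (𝓞 K) (𝓞 L)) le_rfl)
    ⟨Ideal.quotientMap_injective' (H := le_rfl) le_rfl, fun z => ?_⟩).symm
  obtain ⟨x, rfl⟩ := Ideal.Quotient.mk_surjective z
  obtain ⟨y, hy⟩ := exists_sub_mem_base hcard h hP x
  exact ⟨Ideal.Quotient.mk _ y, (Ideal.Quotient.eq.mpr hy).symm⟩

omit hℓ in
/-- Total ramification. -/
theorem map_eq_pow :
    (CFT.underPrime K L P).asIdeal.map (algebraMap (𝓞 K) (𝓞 L)) = P.asIdeal ^ ℓ := by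
  classical
  set p₀ := CFT.underPrime K L P
  have hne : p₀.asIdeal.map (algebraMap (𝓞 K) (𝓞 L)) ≠ ⊥ := CFT.ideal_map_ne_bot p₀.ne_bot
  have := P.isMaximal
  obtain ⟨Q, hPQ, hQ⟩ := Ideal.eq_prime_pow_mul_coprime hne P.asIdeal
  set a := Multiset.count P.asIdeal
    (UniqueFactorizationMonoid.normalizedFactors (p₀.asIdeal.map (algebraMap (𝓞 K) (𝓞 L))))
  have hQstable : ∀ g : L ≃ₐ[K] L, g • Q = Q := by
    intro g
    have hmap : g • p₀.asIdeal.map (algebraMap (𝓞 K) (𝓞 L)) =
        p₀.asIdeal.map (algebraMap (𝓞 K) (𝓞 L)) := by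
      rw [Ideal.pointwise_smul_def, Ideal.map_map]
      congr 1
      ext x
      simp
    rw [hQ, smul_mul', smul_pow', h.smul_eq g] at hmap
    exact mul_left_cancel₀ (pow_ne_zero a P.ne_bot) hmap
  have hQtop : Q = ⊤ := by
    by_contra htop
    obtain ⟨x₁, hx₁, x, hx, hsum⟩ := Submodule.mem_sup.mp ((Ideal.eq_top_iff_one _).mp hPQ)
    obtain ⟨t, ht⟩ := exists_trace_int (K := K) x
    obtain ⟨Q₁, hQ₁, hle⟩ := Ideal.exists_le_maximal Q htop
    have htQ : algebraMap (𝓞 K) (𝓞 L) t ∈ Q := by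
      rw [ht]
      exact sum_mem fun g _ => hQstable g ▸ Ideal.smul_mem_pointwise_smul g _ _ hx
    have hmapQ : p₀.asIdeal.map (algebraMap (𝓞 K) (𝓞 L)) ≤ Q₁ :=
      hQ.le.trans (Ideal.mul_le_right.trans hle)
    have hunder : p₀.asIdeal = Q₁.comap (algebraMap (𝓞 K) (𝓞 L)) :=
      p₀.isMaximal.eq_of_le (Ideal.comap_ne_top _ hQ₁.ne_top) (Ideal.map_le_iff_le_comap.mp hmapQ)
    have hcomap : P.asIdeal.comap (algebraMap (𝓞 K) (𝓞 L)) =
        Q₁.comap (algebraMap (𝓞 K) (𝓞 L)) :=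
      (CFT.underPrime_asIdeal (K := K) P).symm.trans hunder
    have htP : algebraMap (𝓞 K) (𝓞 L) t ∈ P.asIdeal := by
      have : t ∈ Q₁.comap (algebraMap (𝓞 K) (𝓞 L)) := Ideal.mem_comap.mpr (hle htQ)
      rw [← hcomap] at this
      exact Ideal.mem_comap.mp this
    have h1 : (ℓ : 𝓞 L) - algebraMap (𝓞 K) (𝓞 L) t ∈ P.asIdeal := by
      have e : (ℓ : 𝓞 L) = ∑ _g : L ≃ₐ[K] L, (1 : 𝓞 L) := by
        rw [Finset.sum_const, Finset.card_univ, ← Nat.card_eq_fintype_card, natCard_gal, hcard,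
          nsmul_one]
      rw [e, ht, ← Finset.sum_sub_distrib]
      refine sum_mem fun g _ => ?_
      have e1 : (1 : 𝓞 L) - g • x = x₁ - (g • x - x) := by linear_combination -hsum
      rw [e1]
      exact sub_mem hx₁ (h g x)
    exact hP (by simpa using add_mem h1 htP)
  rw [hQtop, Ideal.mul_top] at hQ
  have hnorm := congrArg Ideal.absNorm hQ
  rw [Ideal.absNorm_algebraMap, map_pow, finrank_int, hcard,
    absNorm_eq_base hcard h hP] at hnorm
  rw [hQ]
  exact congrArg _ (Nat.pow_right_injective (CFT.two_le_absNorm p₀) hnorm).symm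

omit hℓ in
/-- An element whose conjugates are distinct to second order. -/
theorem exists_moved_mod_sq : ∃ x ∈ P.asIdeal, ∀ g : L ≃ₐ[K] L, g ≠ 1 →
    g • x - x ∉ P.asIdeal ^ 2 := by
  classical
  obtain ⟨x, hx⟩ := P.intValuation_exists_uniformizer
  have hxP : x ∈ P.asIdeal := by
    rw [← P.intValuation_lt_one_iff_mem, hx, ← exp_zero, exp_lt_exp]; norm_num
  have hx2 : x ∉ P.asIdeal ^ 2 := fun h2 => by
    rw [← P.intValuation_le_pow_iff_mem, hx, exp_le_exp] at h2
    norm_num at h2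
  refine ⟨x, hxP, fun g hg hgx => hg ?_⟩
  have hgen : Ideal.span {x} ⊔ P.asIdeal ^ 2 = P.asIdeal := by
    obtain ⟨i, hi, hJ⟩ := (dvd_prime_pow P.prime 2).mp
      (Ideal.dvd_iff_le.mpr (le_sup_right : P.asIdeal ^ 2 ≤ Ideal.span {x} ⊔ P.asIdeal ^ 2))
    rw [associated_iff_eq] at hJ
    interval_cases i
    · have hle : Ideal.span {x} ⊔ P.asIdeal ^ 2 ≤ P.asIdeal :=
        sup_le ((Ideal.span_singleton_le_iff_mem _).mpr hxP) (Ideal.pow_le_self two_ne_zero)
      rw [hJ, pow_zero, Ideal.one_eq_top, top_le_iff] at hle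
      exact absurd hle P.isPrime.ne_top
    · rwa [pow_one] at hJ
    · exact absurd (hJ ▸ Ideal.mem_sup_left (Ideal.mem_span_singleton_self x)) hx2
  -- trivial on `P / P²`
  have hone : ∀ b ∈ P.asIdeal, g • b - b ∈ P.asIdeal ^ 2 := by
    intro b hb
    rw [← hgen, Submodule.mem_sup] at hb
    obtain ⟨u, hu, e, he, rfl⟩ := hb
    obtain ⟨c, rfl⟩ := Ideal.mem_span_singleton'.mp hu
    have e1 : g • (c * x + e) - (c * x + e) =
        (g • c - c) * g • x + c * (g • x - x) + (g • e - e) := by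
      rw [smul_add, smul_mul']; ring
    rw [e1, pow_two]
    refine add_mem (add_mem (Ideal.mul_mem_mul (h g c) (h.smul_mem g hxP))
      (Ideal.mul_mem_left _ _ (pow_two P.asIdeal ▸ hgx))) (pow_two P.asIdeal ▸ sub_mem ?_ he)
    rw [← h.smul_eq g, ← smul_pow']
    exact Ideal.smul_mem_pointwise_smul g _ _ he
  -- trivial on `P ^ k / P ^ (k+1)`
  have hstep : ∀ k : ℕ, ∀ b ∈ P.asIdeal ^ (k + 1), g • b - b ∈ P.asIdeal ^ (k + 2) := by
    intro k
    induction k with
    | zero => simpa using hone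
    | succ k ih =>
      intro b hb
      rw [pow_succ] at hb
      refine Submodule.mul_induction_on hb (fun u hu v hv => ?_) fun u v hu hv => ?_
      · have e1 : g • (u * v) - u * v = (g • u - u) * g • v + u * (g • v - v) := by
          rw [smul_mul']; ring
        rw [e1]
        refine add_mem ?_ ?_
        · rw [pow_succ]; exact Ideal.mul_mem_mul (ih u hu) (h.smul_mem g hv)
        · rw [show k + 1 + 2 = k + 1 + 2 from rfl, pow_add]
          exact Ideal.mul_mem_mul hu (hone v hv)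
      · rw [smul_add, add_sub_add_comm]; exact add_mem hu hv
  -- hence trivial modulo every power
  have hord : g ^ ℓ = 1 := by
    rw [← hcard, ← natCard_gal (K := K) (L := L)]
    exact pow_card_eq_one'
  have hall : ∀ k : ℕ, ∀ z : 𝓞 L, g • z - z ∈ P.asIdeal ^ (k + 1) := by
    intro k
    induction k with
    | zero => simpa using h g
    | succ k ih =>
      intro z
      set d := g • z - z
      have hn : ∀ n : ℕ, g ^ n • z - z - (n : 𝓞 L) * d ∈ P.asIdeal ^ (k + 2) := by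
        intro n
        induction n with
        | zero => simp
        | succ n ihn =>
          have hd : g • d - d ∈ P.asIdeal ^ (k + 2) := hstep k d (ih z)
          have h1 : g • (g ^ n • z - z - (n : 𝓞 L) * d) ∈ P.asIdeal ^ (k + 2) := by
            rw [← h.smul_eq g, ← smul_pow']
            exact Ideal.smul_mem_pointwise_smul g _ _ ihn
          have e1 : g ^ (n + 1) • z - z - ((n + 1 : ℕ) : 𝓞 L) * d =
              g • (g ^ n • z - z - (n : 𝓞 L) * d) + (n : 𝓞 L) * (g • d - d) := by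
            have hn1 : g • ((n : 𝓞 L) * d) = (n : 𝓞 L) * g • d := by
              rw [← nsmul_eq_mul, smul_comm, nsmul_eq_mul]
            rw [smul_sub, smul_sub, pow_succ', mul_smul, hn1, Nat.cast_succ]
            simp only [d]
            ring
          rw [e1]
          exact add_mem h1 (Ideal.mul_mem_left _ _ hd)
      have hd2 : (ℓ : 𝓞 L) * d ∈ P.asIdeal ^ (k + 2) := by simpa [hord] using neg_mem (hn ℓ)
      obtain ⟨c, i, hi, hci⟩ := P.isMaximal.exists_inv hP
      rw [show d = c * ((ℓ : 𝓞 L) * d) + i * d by linear_combination -d * hci]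
      refine add_mem (Ideal.mul_mem_left _ _ hd2) ?_
      rw [pow_succ, mul_comm i d]
      exact Ideal.mul_mem_mul (ih z) hi
  have hfix : ∀ z : 𝓞 L, g • z = z := fun z => by
    rw [← sub_eq_zero, ← Ideal.mem_bot,
      ← Ideal.iInf_pow_eq_bot_of_isDomain P.asIdeal P.isPrime.ne_top, Submodule.mem_iInf]
    intro k
    exact Ideal.pow_le_pow_right (by omega) (hall k z)
  refine AlgEquiv.ext fun y => ?_
  obtain ⟨a, b, -, rfl⟩ := IsFractionRing.div_surjective (A := 𝓞 L) y
  rw [map_div₀]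
  show g (a : L) / g (b : L) = (a : L) / (b : L)
  rw [← coe_smul_int, ← coe_smul_int, hfix, hfix]

include hℓ hcard h hP in
/-- Tame total ramification: exact exponent in the different. -/
theorem different_exponent :
    P.asIdeal ^ (ℓ - 1) ∣ differentIdeal (𝓞 K) (𝓞 L) ∧
      ¬ P.asIdeal ^ ℓ ∣ differentIdeal (𝓞 K) (𝓞 L) := by
  classical
  have := (CFT.underPrime K L P).isMaximal
  refine ⟨pow_sub_one_dvd_differentIdeal (𝓞 K) P.asIdeal ℓ (CFT.underPrime K L P).ne_bot
    (map_eq_pow hcard h hP).symm.dvd, fun hdvd => ?_⟩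
  obtain ⟨x, hxP, hx⟩ := exists_moved_mod_sq hcard h hP
  have hne : ∀ g : L ≃ₐ[K] L, g ≠ 1 → g (x : L) ≠ (x : L) := fun g hg he => hx g hg (by
    rw [show g • x = x from RingOfIntegers.coe_injective he, sub_self]
    exact zero_mem _)
  have hinj : ∀ g₁ g₂ : L ≃ₐ[K] L, g₁ ≠ g₂ → g₁ (x : L) ≠ g₂ (x : L) := fun g₁ g₂ hg he =>
    hne (g₂⁻¹ * g₁) (fun h1 => hg (inv_mul_eq_one.1 h1).symm) (by
      show g₂⁻¹ (g₁ (x : L)) = _
      rw [he]
      exact g₂.symm_apply_apply _)
  have hint : IsIntegral K (x : L) := .of_finite K _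
  have hdvdq : (∏ g : L ≃ₐ[K] L, (X - C (g (x : L)))) ∣
      (minpoly K (x : L)).map (algebraMap K L) := by
    refine Finset.prod_dvd_of_coprime (fun g₁ _ g₂ _ hg => ?_) fun g _ => ?_
    · exact isCoprime_X_sub_C_of_isUnit_sub (sub_ne_zero.2 (hinj g₁ g₂ hg)).isUnit
    · rw [dvd_iff_isRoot, IsRoot, eval_map_algebraMap]
      exact (aeval_algHom_apply g.toAlgHom (x : L) _).trans (by rw [minpoly.aeval, map_zero])
  have hqdeg : (∏ g : L ≃ₐ[K] L, (X - C (g (x : L)))).natDegree = ℓ := by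
    rw [natDegree_prod _ _ fun g _ => X_sub_C_ne_zero _]
    simp [← hcard, ← natCard_gal (K := K) (L := L), Nat.card_eq_fintype_card]
  have hmin : (minpoly K (x : L)).map (algebraMap K L) = ∏ g : L ≃ₐ[K] L, (X - C (g (x : L))) :=
    (eq_of_monic_of_associated (monic_prod_of_monic _ _ fun g _ => monic_X_sub_C _)
      ((minpoly.monic hint).map _) (associated_of_dvd_of_natDegree_le hdvdq
        ((minpoly.monic hint).map _).ne_zero (by
          rw [hqdeg, natDegree_map, ← hcard]; exact minpoly.natDegree_le _))).symm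
  have hadj : Algebra.adjoin K {algebraMap (𝓞 L) L x} = ⊤ := by
    rw [← IntermediateField.adjoin_simple_toSubalgebra_of_isAlgebraic hint.isAlgebraic,
      ← IntermediateField.top_toSubalgebra]
    congr 1
    refine IntermediateField.eq_of_le_of_finrank_le le_top ?_
    rw [IntermediateField.adjoin.finrank hint, IntermediateField.finrank_top']
    have := congrArg natDegree hmin
    rw [natDegree_map, hqdeg] at this
    rw [hcard, this]
  have hmem := aeval_derivative_mem_differentIdeal (𝓞 K) K L x hadj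
  set y := aeval x (derivative (minpoly (𝓞 K) x))
  have hy : (y : L) = ∏ g ∈ (Finset.univ : Finset (L ≃ₐ[K] L)).erase 1, ((x : L) - g (x : L)) := by
    have e1 : minpoly K (x : L) = (minpoly (𝓞 K) x).map (algebraMap (𝓞 K) K) :=
      minpoly.isIntegrallyClosed_eq_field_fractions K L
        (IsIntegralClosure.isIntegral (𝓞 K) L x)
    have e2 : ((minpoly K (x : L)).map (algebraMap K L)).derivative.eval (x : L) = (y : L) := by
      rw [e1, derivative_map, derivative_map, eval_map_algebraMap, aeval_map_algebraMap]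
      exact aeval_algebraMap_apply L x _
    rw [← e2, hmin, derivative_prod_finset, eval_finsetSum, Finset.sum_eq_single 1]
    · simp [eval_prod]
    · intro g _ hg
      rw [eval_mul, eval_prod, Finset.prod_eq_zero (i := 1) (Finset.mem_erase.2
        ⟨Ne.symm hg, Finset.mem_univ _⟩) (by simp), zero_mul]
    · simp
  have hy' : y = ∏ g ∈ (Finset.univ : Finset (L ≃ₐ[K] L)).erase 1, (x - g • x) :=
    RingOfIntegers.coe_injective (hy.trans (by simp [map_prod, coe_smul_int]))
  have hval : ∀ g : L ≃ₐ[K] L, g ≠ 1 → P.intValuation (x - g • x) = exp (-1 : ℤ) := by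
    intro g hg
    have hm : x - g • x ∈ P.asIdeal := by simpa using neg_mem (h g x)
    have hm2 : x - g • x ∉ P.asIdeal ^ 2 := fun h2 => hx g hg (by simpa using neg_mem h2)
    rw [← P.intValuation_le_pow_iff_mem, not_le] at hm2
    have hm1 := (P.intValuation_lt_one_iff_mem _).2 hm
    obtain ⟨k, hk⟩ : ∃ k : ℤ, P.intValuation (x - g • x) = exp k := by
      refine ⟨_, (exp_log ?_).symm⟩
      exact (lt_of_le_of_lt zero_le hm2).ne'
    rw [hk, exp_lt_exp] at hm2
    rw [hk, ← exp_zero, exp_lt_exp] at hm1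
    rw [hk]
    congr 1
    omega
  have hyP : y ∈ P.asIdeal ^ ℓ := (Ideal.dvd_iff_le.1 hdvd) hmem
  rw [← P.intValuation_le_pow_iff_mem, hy', map_prod,
    Finset.prod_congr rfl fun g hg => hval g (Finset.ne_of_mem_erase hg), Finset.prod_const,
    Finset.card_erase_of_mem (Finset.mem_univ _), Finset.card_univ, ← Nat.card_eq_fintype_card,
    natCard_gal, hcard, ← exp_nsmul, exp_le_exp] at hyP
  have := hℓ.one_le
  rw [nsmul_eq_mul, Nat.cast_sub this] at hyP
  simp at hyP

end Trivial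

omit [NumberField K] [NumberField L] [IsGalois K L] in
theorem map_smul_eq (g : L ≃ₐ[K] L) (I : Ideal (𝓞 K)) :
    g • I.map (algebraMap (𝓞 K) (𝓞 L)) = I.map (algebraMap (𝓞 K) (𝓞 L)) := by
  rw [Ideal.pointwise_smul_def, Ideal.map_map]
  congr 1
  exact RingHom.ext fun x => RingOfIntegers.coe_injective (g.commutes (x : K))

variable (P) in
include hcard in
/-- In degree at most three a ramified prime has trivial residual action. -/
theorem resTrivial_of_sq_dvd (hle : ℓ ≤ 3)
    (hdvd : P.asIdeal ^ 2 ∣ (CFT.underPrime K L P).asIdeal.map (algebraMap (𝓞 K) (𝓞 L))) :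
    ResTrivial (K := K) P := by
  classical
  set p₀ := CFT.underPrime K L P
  have hmap : p₀.asIdeal.map (algebraMap (𝓞 K) (𝓞 L)) ≠ ⊥ := CFT.ideal_map_ne_bot p₀.ne_bot
  have h2 := CFT.two_le_absNorm p₀
  have hN : Ideal.absNorm (p₀.asIdeal.map (algebraMap (𝓞 K) (𝓞 L))) =
      Ideal.absNorm p₀.asIdeal ^ ℓ := by
    rw [Ideal.absNorm_algebraMap, finrank_int, hcard]
  have hover : P.asIdeal.LiesOver p₀.asIdeal := ⟨rfl⟩
  have hf := Ideal.absNorm_eq_pow_inertiaDeg'_of_liesOver P.asIdeal p₀.asIdeal p₀.isPrime p₀.ne_bot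
  generalize p₀.asIdeal.inertiaDeg' P.asIdeal = f at hf
  have hf1 : 1 ≤ f := Nat.one_le_iff_ne_zero.2 fun h0 => by
    have := CFT.two_le_absNorm P
    rw [hf, h0, pow_zero] at this
    omega
  -- residue degree one
  have hf' : f = 1 := by
    have h3 := map_dvd Ideal.absNorm hdvd
    rw [hN, map_pow, hf, ← pow_mul, Nat.pow_dvd_pow_iff_le_right (by omega)] at h3
    omega
  rw [hf', pow_one] at hf
  -- the prime is stable
  have hstab : ∀ g : L ≃ₐ[K] L, g • P.asIdeal = P.asIdeal := by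
    intro g
    by_contra hne
    have hP' : (g • P.asIdeal).IsPrime := inferInstance
    have hco : IsCoprime (P.asIdeal ^ 2) ((g • P.asIdeal) ^ 2) := by
      refine IsCoprime.pow ?_
      rw [Ideal.isCoprime_iff_sup_eq]
      have := P.isMaximal
      refine this.coprime_of_ne (hP'.isMaximal fun h0 => P.ne_bot ?_) (Ne.symm hne)
      rw [← inv_smul_smul g P.asIdeal, h0]
      exact Ideal.smul_bot _
    have hd2 : (g • P.asIdeal) ^ 2 ∣ p₀.asIdeal.map (algebraMap (𝓞 K) (𝓞 L)) := by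
      obtain ⟨Q, hQ⟩ := hdvd
      refine ⟨g • Q, ?_⟩
      rw [← smul_pow', ← smul_mul', ← hQ, map_smul_eq]
    have h3 := map_dvd Ideal.absNorm (hco.mul_dvd hdvd hd2)
    have hcardN : Ideal.absNorm (g • P.asIdeal) = Ideal.absNorm P.asIdeal := by
      rw [← CFT.natCard_quotient_eq_absNorm, ← CFT.natCard_quotient_eq_absNorm]
      exact Nat.card_congr (Ideal.quotientEquiv P.asIdeal (g • P.asIdeal)
        (MulSemiringAction.toRingEquiv _ _ g) rfl).symm.toEquiv
    rw [map_mul, map_pow, map_pow, hcardN, hf, hN, ← pow_add,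
      Nat.pow_dvd_pow_iff_le_right (by omega)] at h3
    omega
  -- every class comes from the base
  have hinj : Function.Injective
      (Ideal.quotientMap P.asIdeal (algebraMap (𝓞 K) (𝓞 L)) (le_refl (P.asIdeal.comap _))) :=
    Ideal.quotientMap_injective' (H := le_rfl) le_rfl
  have := CFT.finite_quotient_prime P
  have hbij := hinj.bijective_of_nat_card_le (le_of_eq (by
    rw [CFT.natCard_quotient_eq_absNorm, CFT.natCard_quotient_eq_absNorm, hf]
    rfl))
  intro g x
  obtain ⟨z, hz⟩ := hbij.2 (Ideal.Quotient.mk _ x)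
  obtain ⟨y, rfl⟩ := Ideal.Quotient.mk_surjective z
  have hxy : x - algebraMap (𝓞 K) (𝓞 L) y ∈ P.asIdeal := Ideal.Quotient.eq.mp hz.symm
  have hy : g • (x - algebraMap (𝓞 K) (𝓞 L) y) ∈ P.asIdeal :=
    (hstab g) ▸ Ideal.smul_mem_pointwise_smul g _ _ hxy
  rw [smul_sub, smul_algebraMap] at hy
  simpa using sub_mem hy hxy

variable (P) in
/-- A prime fixed by the Galois group and unramified is inert. -/
theorem map_eq_self_of_stable (hstab : ∀ g : L ≃ₐ[K] L, g • P.asIdeal = P.asIdeal)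
    (hdvd : ¬ P.asIdeal ^ 2 ∣ (CFT.underPrime K L P).asIdeal.map (algebraMap (𝓞 K) (𝓞 L))) :
    (CFT.underPrime K L P).asIdeal.map (algebraMap (𝓞 K) (𝓞 L)) = P.asIdeal := by
  classical
  set p₀ := CFT.underPrime K L P
  obtain ⟨Q, hQ⟩ : P.asIdeal ∣ p₀.asIdeal.map (algebraMap (𝓞 K) (𝓞 L)) :=
    Ideal.dvd_iff_le.2 (Ideal.map_le_iff_le_comap.2 le_rfl)
  suffices hQtop : Q = ⊤ by rw [hQ, hQtop, Ideal.mul_top]
  by_contra htop
  obtain ⟨Q₁, hQ₁, hle⟩ := Ideal.exists_le_maximal Q htop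
  have hQ0 : Q₁ ≠ ⊥ := fun h => CFT.ideal_map_ne_bot (L := L) p₀.ne_bot
    (le_bot_iff.1 (hQ.le.trans (Ideal.mul_le_right.trans (hle.trans h.le))))
  let R : HeightOneSpectrum (𝓞 L) := ⟨Q₁, hQ₁.isPrime, hQ0⟩
  have hunder : CFT.underPrime K L R = p₀ := HeightOneSpectrum.ext
    (p₀.isMaximal.eq_of_le (CFT.underPrime K L R).isPrime.ne_top
      (Ideal.map_le_iff_le_comap.1 (hQ.le.trans (Ideal.mul_le_right.trans hle)))).symm
  obtain ⟨γ, hγ⟩ := CFT.exists_smul_eq_of_underPrime_eq (G := L ≃ₐ[K] L) P R hunder.symm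
  rw [hstab γ] at hγ
  refine hdvd ?_
  rw [pow_two]
  exact hQ ▸ mul_dvd_mul_left _ (Ideal.dvd_iff_le.2 (hle.trans hγ.ge))

omit [IsGalois K L] in
variable (P) in
/-- An unramified prime is prime to the different. -/
theorem not_dvd_different_of_not_sq_dvd
    (hdvd : ¬ P.asIdeal ^ 2 ∣ (CFT.underPrime K L P).asIdeal.map (algebraMap (𝓞 K) (𝓞 L))) :
    ¬ P.asIdeal ∣ differentIdeal (𝓞 K) (𝓞 L) := by
  classical
  set p₀ := CFT.underPrime K L P
  have := p₀.isMaximal
  have := P.isMaximal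
  have : Finite (𝓞 K ⧸ p₀.asIdeal) := CFT.finite_quotient_prime p₀
  obtain ⟨Q, hQ⟩ : P.asIdeal ∣ p₀.asIdeal.map (algebraMap (𝓞 K) (𝓞 L)) :=
    Ideal.dvd_iff_le.2 (Ideal.map_le_iff_le_comap.2 le_rfl)
  refine not_dvd_differentIdeal_of_isCoprime (𝓞 K) P.asIdeal Q ?_ hQ.symm
  rw [Ideal.isCoprime_iff_sup_eq]
  by_contra hne
  have hQP : Q ≤ P.asIdeal := le_sup_right.trans_eq (P.isMaximal.eq_of_le hne le_sup_left).symm
  exact hdvd (hQ ▸ pow_two P.asIdeal ▸ mul_dvd_mul_left _ (Ideal.dvd_iff_le.2 hQP))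

/-- An ideal all of whose exponents are even is a square. -/
theorem exists_sq_eq_of_even {R : Type*} [CommRing R] [IsDedekindDomain R] {I : Ideal R}
    (hI : I ≠ ⊥) (h : ∀ Q : Ideal R, Q.IsPrime → Q ≠ ⊥ →
      2 ∣ Multiset.count Q (UniqueFactorizationMonoid.normalizedFactors I)) :
    ∃ J : Ideal R, I = J ^ 2 := by
  classical
  obtain ⟨u, hu⟩ := Multiset.exists_smul_of_dvd_count _ fun Q hQ =>
    h Q ((Ideal.mem_normalizedFactors_iff hI).1 hQ).1
      (UniqueFactorizationMonoid.prime_of_normalized_factor Q hQ).ne_zero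
  refine ⟨u.prod, ?_⟩
  rw [← Multiset.prod_nsmul, ← hu]
  exact (associated_iff_eq.1 (UniqueFactorizationMonoid.prod_normalizedFactors hI)).symm

end FermatAgent.LT.ClassField
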