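import Fermat.Agent.LT.ClassField.Basic
import Fermat.Agent.LT.Galois.Quaternion
import Fermat.Agent.LT.ClassField.TameDifferent
import Fermat.Agent.ExtVanish.InertiaLift

/-!
# The Galois groups of the fields `K`, `F`, `M` of a setup

Degrees, and the automorphisms of `M / F` and of `F / K` induced by elements of the absolute
Galois group.
-/

set_option autoImplicit false

noncomputable section

open NumberField IsDedekindDomain

namespace FermatAgent.LT

local notation "Qb" => AlgebraicClosure ℚ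
local notation "GQ" => AlgebraicClosure ℚ ≃ₐ[ℚ] AlgebraicClosure ℚ
local notation "G₂" => GL (Fin 2) (ZMod 3)

attribute [local instance] FermatAgent.RT.isGalois_algClosureRat

namespace GL2F3

set_option synthInstance.maxSize 1024 in
theorem tpow_even_of_q8 : ∀ g : Tup, TOct g → ∀ k : Fin 8, TQ8 (tpow g k.1) →
    ∃ j : Fin 4, tpow g k.1 = tpow g (2 * j.1) := by
  decide +kernel

set_option synthInstance.maxSize 1024 in
theorem tconj_q8 : ∀ h : Tup, TQ8 h → ∀ c : Tup, TQ8 c →
    tmul h c = tmul c h ∨ tmul h c = tmul (tpow c 3) h := by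
  decide +kernel

theorem tq8_pow_four : ∀ h : Tup, TQ8 h → tpow h 4 = (1, 0, 0, 1) := by
  decide +kernel

set_option synthInstance.maxSize 1024 in
theorem tq8_shift : ∀ i j : Fin 3, ∀ h : Tup, TQ8 h → ∀ e : Tup, TQ8 e →
    tmul h (tpow (1, 1, 0, 1) i.1) = tmul (tpow (1, 1, 0, 1) j.1) e → i = j := by
  decide +kernel

set_option synthInstance.maxSize 1024 in
theorem toct_shift : ∀ g : Tup, TOct g → ∀ i : Fin 3, i ≠ 0 →
    TQ8 (tmul (tpow (1, 1, 0, 1) i.1) (tmul (tpow g 2) (tpow (1, 1, 0, 1) (2 * i.1)))) ∧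
      ∀ k : Fin 4, tmul (tpow (1, 1, 0, 1) i.1) (tmul (tpow g 2) (tpow (1, 1, 0, 1) (2 * i.1))) ≠
        tpow g (2 * k.1) := by
  decide +kernel

theorem card_tq8 : Fintype.card {t : Tup // TQ8 t} = 8 := by
  decide +kernel

end GL2F3

theorem natCard_GL2F3 : Nat.card G₂ = 48 := by
  have : Fact (Nat.Prime 3) := ⟨by norm_num⟩
  rw [Matrix.card_GL_field]
  simp [Fin.prod_univ_two]

theorem natCard_quaternionSubgroup : Nat.card quaternionSubgroup = 8 := by
  classical
  rw [← GL2F3.card_tq8, ← Nat.card_eq_fintype_card]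
  refine Nat.card_eq_of_bijective (fun g => ⟨GL2F3.toTup (g : G₂), (GL2F3.tq8_toTup _).2 g.2⟩)
    ⟨fun g h e => Subtype.ext (Units.ext (GL2F3.toTup_injective (congrArg Subtype.val e))),
      fun ⟨⟨a, b, c, d⟩, ht⟩ => ?_⟩
  have hX : IsQ8 !![a, b; c, d] := (GL2F3.tq8_toTup _).1 (by simpa [GL2F3.toTup] using ht)
  exact ⟨⟨Matrix.nonsingInvUnit !![a, b; c, d] (by rw [hX.1]; exact isUnit_one), hX⟩,
    Subtype.ext (show GL2F3.toTup !![a, b; c, d] = _ by simp [GL2F3.toTup])⟩

theorem index_quaternionSubgroup : quaternionSubgroup.index = 6 := by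
  have h := quaternionSubgroup.card_mul_index
  rw [natCard_quaternionSubgroup, natCard_GL2F3] at h
  omega

namespace Setup

variable (S : Setup)

theorem fixingSubgroup_fixedField_comap (H : Subgroup G₂) :
    (IntermediateField.fixedField (H.comap S.ρ)).fixingSubgroup = H.comap S.ρ := by
  obtain ⟨E, hE, hEker⟩ := S.finiteLevel
  have hle : E.fixingSubgroup ≤ H.comap S.ρ := fun σ hσ => by
    rw [Subgroup.mem_comap, hEker σ ((IntermediateField.mem_fixingSubgroup_iff E σ).1 hσ)]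
    exact one_mem _
  exact InfiniteGalois.fixingSubgroup_fixedField
    ⟨H.comap S.ρ, Subgroup.isClosed_of_isOpen _
      (Subgroup.isOpen_mono hle (IntermediateField.fixingSubgroup_isOpen E))⟩

theorem finrank_fixedField_comap (H : Subgroup G₂) :
    Module.finrank ℚ (IntermediateField.fixedField (H.comap S.ρ)) = H.index := by
  rw [IntermediateField.finrank_eq_fixingSubgroup_index, S.fixingSubgroup_fixedField_comap,
    Subgroup.index_comap_of_surjective _ S.surjective]

theorem mem_fixing_F {σ : GQ} : σ ∈ S.F.fixingSubgroup ↔ S.ρ σ ∈ quaternionSubgroup :=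
  SetLike.ext_iff.1 (S.fixingSubgroup_fixedField_comap quaternionSubgroup) σ

theorem mem_fixing_K {σ : GQ} :
    σ ∈ S.K.fixingSubgroup ↔
      ((S.ρ σ : G₂) : Matrix (Fin 2) (Fin 2) (ZMod 3)).det = 1 := by
  refine (SetLike.ext_iff.1 (S.fixingSubgroup_fixedField_comap
    (Matrix.GeneralLinearGroup.det (n := Fin 2) (R := ZMod 3)).ker) σ).trans ?_
  rw [Subgroup.mem_comap, MonoidHom.mem_ker, Units.ext_iff, Units.val_one,
    Matrix.GeneralLinearGroup.val_det_apply]

theorem fix_K_of_fix_F {σ : GQ} (h : σ ∈ S.F.fixingSubgroup) : σ ∈ S.K.fixingSubgroup :=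
  IntermediateField.fixingSubgroup_antitone S.K_le_F h

theorem fix_F_of_fix_M {σ : GQ} (h : σ ∈ S.M.fixingSubgroup) : σ ∈ S.F.fixingSubgroup :=
  IntermediateField.fixingSubgroup_antitone S.F_le_M h

theorem finrank_rat_F : Module.finrank ℚ S.F = 6 :=
  (S.finrank_fixedField_comap _).trans index_quaternionSubgroup

theorem finrank_rat_K : Module.finrank ℚ S.K = 2 := by
  refine (S.finrank_fixedField_comap _).trans ?_
  have hs : Function.Surjective (Matrix.GeneralLinearGroup.det (n := Fin 2) (R := ZMod 3)) :=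
    fun u => ⟨Matrix.nonsingInvUnit !![(u : ZMod 3), 0; 0, 1]
      (by rw [Matrix.det_fin_two_of]; simp), Units.ext (show Matrix.det !![(u : ZMod 3), 0; 0, 1] = _ by simp [Matrix.det_fin_two_of])⟩
  rw [Subgroup.index_ker, MonoidHom.range_eq_top.2 hs,
    Nat.card_congr Subgroup.topEquiv.toEquiv, Nat.card_eq_fintype_card, ZMod.card_units_eq_totient,
    Nat.totient_prime Nat.prime_three]

theorem finrank_rat_M : Module.finrank ℚ S.M = 12 := by
  refine (S.finrank_fixedField_comap _).trans ?_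
  have h := (Subgroup.zpowers S.quartGen).card_mul_index
  rw [Nat.card_zpowers, S.orderOf_quartGen, natCard_GL2F3] at h
  omega

/-- The upper unipotent matrix. -/
theorem exists_shift : ∃ g : GQ, g ∈ S.K.fixingSubgroup ∧
    GL2F3.toTup ((S.ρ g : G₂) : Matrix (Fin 2) (Fin 2) (ZMod 3)) = (1, 1, 0, 1) ∧
    S.ρ g ^ 3 = 1 := by
  obtain ⟨g, hg⟩ := S.surjective
    (Matrix.nonsingInvUnit !![(1 : ZMod 3), 1; 0, 1] (by simp [Matrix.det_fin_two_of]))
  have e : ((S.ρ g : G₂) : Matrix (Fin 2) (Fin 2) (ZMod 3)) = !![1, 1; 0, 1] := by rw [hg]; rfl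
  refine ⟨g, S.mem_fixing_K.2 ?_, ?_, ?_⟩
  · rw [e]; simp [Matrix.det_fin_two_of]
  · rw [e]; simp [GL2F3.toTup]
  · rw [← tpow_eq_one_iff, e]; simp [GL2F3.toTup]; decide

theorem M_conj {g h : GQ} (hg : g ∈ S.F.fixingSubgroup) (hh : h ∈ S.M.fixingSubgroup) :
    g⁻¹ * h * g ∈ S.M.fixingSubgroup := by
  rw [S.mem_fix_M] at hh ⊢
  obtain ⟨k, hk⟩ := Subgroup.mem_zpowers_iff.1 hh
  have hc : S.quartGen ∈ quaternionSubgroup :=
    S.M_le_fix (g := S.tameGen ^ 2) (S.mem_fix_M.2 (by
      rw [map_pow]; exact Subgroup.mem_zpowers _)) |> fun h => by rwa [map_pow] at h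
  set a := (S.ρ g)⁻¹ with ha
  have haq : a ∈ quaternionSubgroup := inv_mem (S.mem_fixing_F.1 hg)
  have hconj : a * S.quartGen * a⁻¹ ∈ Subgroup.zpowers S.quartGen := by
    rcases GL2F3.tconj_q8 _ ((GL2F3.tq8_toTup _).2 haq) _ ((GL2F3.tq8_toTup _).2 hc) with h' | h'
    · rw [← GL2F3.toTup_mul, ← GL2F3.toTup_mul, GL2F3.toTup_injective.eq_iff, ← Units.val_mul,
        ← Units.val_mul, ← Units.ext_iff] at h'
      rw [h', mul_inv_cancel_right]
      exact Subgroup.mem_zpowers _
    · rw [toTup_pow_eq, ← GL2F3.toTup_mul, ← GL2F3.toTup_mul, GL2F3.toTup_injective.eq_iff,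
        ← Units.val_mul, ← Units.val_mul, ← Units.ext_iff] at h'
      rw [h', mul_inv_cancel_right]
      exact Subgroup.pow_mem _ (Subgroup.mem_zpowers _) _
  rw [map_mul, map_mul, map_inv, ← ha, ← hk, show S.ρ g = a⁻¹ from (inv_inv _).symm, ← conj_zpow]
  exact Subgroup.zpow_mem _ hconj k

theorem apply_mem_M {g : GQ} (hg : g ∈ S.F.fixingSubgroup) {x : Qb} (hx : x ∈ S.M) :
    g x ∈ S.M := by
  rintro ⟨h, hh⟩
  have e : (g⁻¹ * h * g) x = x :=
    hx ⟨g⁻¹ * h * g, S.mem_fix_M.1 (S.M_conj hg (S.mem_fix_M.2 hh))⟩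
  show h (g x) = g x
  rw [AlgEquiv.mul_apply, AlgEquiv.mul_apply] at e
  calc h (g x) = g (g⁻¹ (h (g x))) := (g.apply_symm_apply _).symm
    _ = g x := by rw [e]

theorem apply_mem_F (g : GQ) {x : Qb} (hx : x ∈ S.F) : g x ∈ S.F := by
  rintro ⟨h, hh⟩
  have e : (g⁻¹ * h * g) x = x := by
    refine hx ⟨g⁻¹ * h * g, ?_⟩
    rw [Subgroup.mem_comap, map_mul, map_mul, map_inv]
    have := quaternionSubgroup_conj (g := (S.ρ g)⁻¹) hh
    rwa [inv_inv] at this
  show h (g x) = g x
  rw [AlgEquiv.mul_apply, AlgEquiv.mul_apply] at e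
  calc h (g x) = g (g⁻¹ (h (g x))) := (g.apply_symm_apply _).symm
    _ = g x := by rw [e]

/-! ### The extension `M / F` -/

instance instNumberFieldM' : NumberField S.M where
  to_finiteDimensional := S.finiteDimensional_fixedField _

/-- The algebra of `M` over `F`. -/
@[instance_reducible] def algFM : Algebra S.F S.M :=
  (IntermediateField.inclusion S.F_le_M).toRingHom.toAlgebra

/-- The algebra of `F` over `K`. -/
@[instance_reducible] def algKF : Algebra S.K S.F :=
  (IntermediateField.inclusion S.K_le_F).toRingHom.toAlgebra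

attribute [local instance] algFM algKF

theorem finrank_F_M' : Module.finrank S.F S.M = 2 := by
  have : IsScalarTower ℚ S.F S.M := IsScalarTower.of_algebraMap_eq fun q => Subtype.ext rfl
  have h := Module.finrank_mul_finrank ℚ S.F S.M
  rw [S.finrank_rat_F, S.finrank_rat_M] at h
  omega

theorem finrank_K_F' : Module.finrank S.K S.F = 3 := by
  have : IsScalarTower ℚ S.K S.F := IsScalarTower.of_algebraMap_eq fun q => Subtype.ext rfl
  have h := Module.finrank_mul_finrank ℚ S.K S.F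
  rw [S.finrank_rat_F, S.finrank_rat_K] at h
  omega

theorem isGalois_F_M : IsGalois S.F S.M := by
  have : Algebra.IsQuadraticExtension S.F S.M := ⟨S.finrank_F_M'⟩
  have : FiniteDimensional S.F S.M := Module.finite_of_finrank_eq_succ S.finrank_F_M'
  exact IsGalois.mk

/-- The automorphism of `M / F` induced by an element fixing `F`. -/
def galM (g : GQ) (hg : g ∈ S.F.fixingSubgroup) : S.M ≃ₐ[S.F] S.M where
  toFun x := ⟨g x, S.apply_mem_M hg x.2⟩
  invFun x := ⟨g⁻¹ x, S.apply_mem_M (inv_mem hg) x.2⟩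
  left_inv _ := Subtype.ext (g.symm_apply_apply _)
  right_inv _ := Subtype.ext (g.apply_symm_apply _)
  map_mul' _ _ := Subtype.ext (map_mul g _ _)
  map_add' _ _ := Subtype.ext (map_add g _ _)
  commutes' x := Subtype.ext ((IntermediateField.mem_fixingSubgroup_iff _ g).1 hg _ x.2)

theorem galM_ne_one {g : GQ} (hg : g ∈ S.F.fixingSubgroup) (h : g ∉ S.M.fixingSubgroup) :
    S.galM g hg ≠ 1 := fun he => h ((IntermediateField.mem_fixingSubgroup_iff _ g).2 fun x hx =>
  (congrArg Subtype.val (DFunLike.congr_fun he (⟨x, hx⟩ : S.M)) :))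

theorem galM_eq_or {g : GQ} (hg : g ∈ S.F.fixingSubgroup) (h : g ∉ S.M.fixingSubgroup)
    (γ : S.M ≃ₐ[S.F] S.M) : γ = 1 ∨ γ = S.galM g hg := by
  have : IsGalois S.F S.M := S.isGalois_F_M
  have : FiniteDimensional S.F S.M := Module.finite_of_finrank_eq_succ S.finrank_F_M'
  have hc : Nat.card (S.M ≃ₐ[S.F] S.M) = 2 :=
    (IsGalois.card_aut_eq_finrank _ _).trans S.finrank_F_M'
  rw [Nat.card_eq_two_iff' (1 : S.M ≃ₐ[S.F] S.M)] at hc
  by_contra! hne
  exact hne.2 (hc.unique hne.1 (S.galM_ne_one hg h))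

/-- An element of inertia fixing `F` but not `M` makes the Galois group residually trivial. -/
theorem resTrivial_of_inertia {A : ValuationSubring Qb} {P : HeightOneSpectrum (𝓞 S.M)}
    (hA : Duality.Global.Over S.M A P) {i : GQ} (hi : i ∈ A.inertiaSubgroupIn ℚ)
    (hiF : i ∈ S.F.fixingSubgroup) (hiM : i ∉ S.M.fixingSubgroup) :
    ClassField.ResTrivial (K := S.F) P := by
  intro γ x
  rcases S.galM_eq_or hiF hiM γ with rfl | rfl
  · simp
  · rw [hA.mem_iff]
    exact Local.inertia_val_sub_lt_one hi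
      (RT.mem_of_isIntegral_int A (Duality.Global.toZB S.M x).2)

/-- Conversely, residual triviality gives such an element. -/
theorem exists_inertia_of_resTrivial {A : ValuationSubring Qb} {P : HeightOneSpectrum (𝓞 S.M)}
    (hA : Duality.Global.Over S.M A P) (h : ClassField.ResTrivial (K := S.F) P) :
    ∃ i ∈ A.inertiaSubgroupIn ℚ, i ∈ S.F.fixingSubgroup ∧ i ∉ S.M.fixingSubgroup := by
  have : IsGalois S.F S.M := S.isGalois_F_M
  have : FiniteDimensional S.F S.M := Module.finite_of_finrank_eq_succ S.finrank_F_M'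
  obtain ⟨γ, hγ⟩ : ∃ γ : S.M ≃ₐ[S.F] S.M, γ ≠ 1 := by
    by_contra! hall
    have hc : Nat.card (S.M ≃ₐ[S.F] S.M) = 2 :=
      (IsGalois.card_aut_eq_finrank _ _).trans S.finrank_F_M'
    have : Subsingleton (S.M ≃ₐ[S.F] S.M) := ⟨fun a b => (hall a).trans (hall b).symm⟩
    rw [Nat.card_of_subsingleton (1 : S.M ≃ₐ[S.F] S.M)] at hc
    omega
  obtain ⟨q, hq, hqA⟩ := hA.1
  obtain ⟨τ, hτ, hτγ⟩ := ExtVanish.exists_inertia_lift_at S.M.val hq hqA P.asIdeal
    (fun x => (hA.mem_iff x).trans A.mem_nonunits_iff.symm)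
    (AlgEquiv.ofRingEquiv (f := γ.toRingEquiv) fun r => map_ratCast γ r) fun x => h γ x
  refine ⟨τ, hτ, (IntermediateField.mem_fixingSubgroup_iff _ τ).2 fun x hx => ?_, fun hτM => ?_⟩
  · exact (hτγ (IntermediateField.inclusion S.F_le_M ⟨x, hx⟩)).trans
      (congrArg Subtype.val (γ.commutes ⟨x, hx⟩))
  · exact hγ (AlgEquiv.ext fun x => Subtype.ext ((hτγ x).symm.trans
      ((IntermediateField.mem_fixingSubgroup_iff _ τ).1 hτM _ x.2)))

/-- The automorphism of `F / K` induced by an element fixing `K`. -/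
def galK (g : GQ) (hg : g ∈ S.K.fixingSubgroup) : S.F ≃ₐ[S.K] S.F where
  toFun x := ⟨g x, S.apply_mem_F g x.2⟩
  invFun x := ⟨g⁻¹ x, S.apply_mem_F g⁻¹ x.2⟩
  left_inv _ := Subtype.ext (g.symm_apply_apply _)
  right_inv _ := Subtype.ext (g.apply_symm_apply _)
  map_mul' _ _ := Subtype.ext (map_mul g _ _)
  map_add' _ _ := Subtype.ext (map_add g _ _)
  commutes' x := Subtype.ext ((IntermediateField.mem_fixingSubgroup_iff _ g).1 hg _ x.2)

theorem isGalois_K_F : IsGalois S.K S.F := by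
  have : FiniteDimensional S.K S.F := Module.finite_of_finrank_eq_succ S.finrank_K_F'
  obtain ⟨g, hgK, hg, -⟩ := S.exists_shift
  refine IsGalois.of_card_aut_eq_finrank S.K S.F (le_antisymm ?_ ?_)
  · rw [Nat.card_eq_fintype_card]
    exact AlgEquiv.card_le
  · rw [S.finrank_K_F', ← Nat.card_fin 3]
    refine Nat.card_le_card_of_injective (fun i : Fin 3 => S.galK (g ^ i.1) (pow_mem hgK _))
      fun i j e => ?_
    have hfix : g⁻¹ ^ j.1 * g ^ i.1 ∈ S.F.fixingSubgroup :=
      (IntermediateField.mem_fixingSubgroup_iff _ _).2 fun x hx => by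
        have := congrArg Subtype.val (DFunLike.congr_fun e ⟨x, hx⟩)
        rw [AlgEquiv.mul_apply, show (g ^ i.1) x = (g ^ j.1) x from this, inv_pow]
        exact (g ^ j.1).symm_apply_apply x
    rw [S.mem_fixing_F, map_mul, map_pow, map_pow, map_inv] at hfix
    refine GL2F3.tq8_shift i j _ ((GL2F3.tq8_toTup _).2 quaternionSubgroup.one_mem) _
      ((GL2F3.tq8_toTup _).2 hfix) ?_
    rw [← hg, ← GL2F3.toTup_pow, ← GL2F3.toTup_pow, ← GL2F3.toTup_mul, ← GL2F3.toTup_mul,
      GL2F3.toTup_injective.eq_iff, ← Units.val_pow_eq_pow_val, ← Units.val_pow_eq_pow_val,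
      ← Units.val_mul, ← Units.val_mul, ← Units.ext_iff, inv_pow, one_mul, mul_inv_cancel_left]

end Setup

end FermatAgent.LT
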