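import Fermat.Agent.GalRep.Density.Conj
import Fermat.Agent.LT.ClassField.FieldsGroup

/-!
# The quadratic extension `M / F` of a setup

The three places of `F` over `3`, their behaviour in `M`, and the different.
-/

set_option autoImplicit false

noncomputable section

open NumberField IsDedekindDomain
open scoped Pointwise

namespace FermatAgent.LT.Setup

open FermatAgent.Duality.Global (Over toZB exists_place exists_over)
open FermatAgent.LT.ClassField

local notation "Qb" => AlgebraicClosure ℚ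
local notation "GQ" => AlgebraicClosure ℚ ≃ₐ[ℚ] AlgebraicClosure ℚ

attribute [local instance] FermatAgent.RT.isGalois_algClosureRat

variable (S : Setup)

instance instNumberFieldM : NumberField S.M where
  to_finiteDimensional := S.finiteDimensional_fixedField _

instance instAlgebraFM : Algebra S.F S.M :=
  S.algFM

theorem finrank_F_M : Module.finrank S.F S.M = 2 := S.finrank_F_M'

theorem over_under {A : ValuationSubring Qb} {P : HeightOneSpectrum (𝓞 S.M)} (h : Over S.M A P) :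
    Over S.F A (CFT.underPrime S.F S.M P) := by
  refine ⟨h.1, Ideal.ext fun x => ?_⟩
  rw [Ideal.mem_comap, CFT.underPrime_asIdeal, Ideal.under, Ideal.mem_comap, ← h.2, Ideal.mem_comap]
  rfl

/-- Away from `3` no prime of `M` is ramified over `F`. -/
theorem not_sq_dvd (Q : HeightOneSpectrum (𝓞 S.M)) (h3 : (3 : 𝓞 S.M) ∉ Q.asIdeal) :
    ¬ Q.asIdeal ^ 2 ∣
      (CFT.underPrime S.F S.M Q).asIdeal.map (algebraMap (𝓞 S.F) (𝓞 S.M)) := by
  have : IsGalois S.F S.M := S.isGalois_F_M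
  intro hdvd
  obtain ⟨A, hA⟩ := exists_place Q
  obtain ⟨l, hl, hlA⟩ := hA.1
  obtain ⟨i, hi, hiF, hiM⟩ := S.exists_inertia_of_resTrivial hA
    (resTrivial_of_sq_dvd S.finrank_F_M Q (by norm_num) hdvd)
  have hl3 : l ≠ 3 := fun h => h3 (by simpa [h] using hA.natCast_mem hlA)
  refine hiM (S.mem_fix_M.2 ?_)
  suffices hone : S.ρ i = 1 by rw [hone]; exact one_mem _
  by_cases hlm : l ∣ 3 * S.m
  · have hlm' : l ∣ S.m := (hl.dvd_mul.1 hlm).resolve_left fun h =>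
      hl3 ((Nat.prime_dvd_prime_iff_eq hl (by norm_num)).1 h)
    have h3 := S.unipotent l hl hlm' A hlA i hi
    have h4 : S.ρ i ^ 4 = 1 :=
      (tpow_eq_one_iff _ 4).1 (GL2F3.tq8_pow_four _ ((GL2F3.tq8_toTup _).2 (S.mem_fixing_F.1 hiF)))
    have := pow_gcd_eq_one.2 ⟨h3, h4⟩
    simpa using this
  · exact S.unramified l hl hlm A hlA i hi

/-- `M / F` is unramified outside `3`. -/
theorem map_isRadical (q : HeightOneSpectrum (𝓞 S.F)) (hq : (3 : 𝓞 S.F) ∉ q.asIdeal) :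
    (q.asIdeal.map (algebraMap (𝓞 S.F) (𝓞 S.M))).IsRadical := by
  set I := q.asIdeal.map (algebraMap (𝓞 S.F) (𝓞 S.M))
  have hI : I ≠ ⊥ := CFT.ideal_map_ne_bot q.ne_bot
  have hsf : Squarefree I := by
    intro J hJ
    by_contra hunit
    obtain ⟨Q, hQ, hJQ⟩ := Ideal.exists_le_maximal J fun h => hunit (Ideal.isUnit_iff.2 h)
    have hIQ : I ≤ Q * Q := (Ideal.dvd_iff_le.1 hJ).trans (Ideal.mul_mono hJQ hJQ)
    have hQ0 : Q ≠ ⊥ := fun h => hI (le_bot_iff.1 (hIQ.trans (by rw [h]; simp)))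
    let P : HeightOneSpectrum (𝓞 S.M) := ⟨Q, hQ.isPrime, hQ0⟩
    have hunder : CFT.underPrime S.F S.M P = q := HeightOneSpectrum.ext
      (q.isMaximal.eq_of_le (CFT.underPrime S.F S.M P).isPrime.ne_top
        (Ideal.map_le_iff_le_comap.1 (hIQ.trans Ideal.mul_le_left))).symm
    refine S.not_sq_dvd P (fun h => hq ?_) (by rw [hunder, pow_two]; exact Ideal.dvd_iff_le.2 hIQ)
    rw [← hunder, CFT.underPrime_asIdeal, Ideal.under, Ideal.mem_comap, map_ofNat]
    exact h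
  intro x hx
  obtain ⟨n, hn⟩ := Ideal.mem_radical_iff.1 hx
  rw [← Ideal.dvd_span_singleton]
  exact hsf.isRadical n _ (by rw [Ideal.span_singleton_pow]; exact Ideal.dvd_span_singleton.2 hn)

section Three

attribute [local instance] algKF

/-- The square root of `-3` and the different of `K`. -/
theorem exists_sqrt_neg_three : ∃ s : 𝓞 S.K, s ^ 2 = -3 ∧
    Ideal.absNorm (Ideal.span {s}) = 3 ∧ differentIdeal ℤ (𝓞 S.K) = Ideal.span {s} := by
  obtain ⟨ζ, hζK, h3, h1, -⟩ := S.exists_three_root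
  set z : S.K := ⟨ζ, hζK⟩ with hzdef
  have hz3 : z ^ 3 = 1 := Subtype.ext (by simpa [z] using h3)
  have hz1 : z ≠ 1 := fun h => h1 (congrArg Subtype.val h)
  have hquad : z ^ 2 + z + 1 = 0 := by
    have : (z - 1) * (z ^ 2 + z + 1) = 0 := by linear_combination hz3
    exact (mul_eq_zero.1 this).resolve_left (sub_ne_zero.2 hz1)
  let zi : 𝓞 S.K := ⟨z, .of_pow (n := 3) (by norm_num) (by rw [hz3]; exact isIntegral_one)⟩
  have hzi : zi ^ 2 + zi + 1 = 0 := RingOfIntegers.coe_injective (by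
    simp only [map_add, map_pow, map_one, map_zero]
    exact hquad)
  set s : 𝓞 S.K := 2 * zi + 1
  have hs : s ^ 2 = -3 := by linear_combination 4 * hzi
  have hsp : Ideal.span {s} ^ 2 = Ideal.span {(3 : 𝓞 S.K)} := by
    rw [Ideal.span_singleton_pow, hs, Ideal.span_singleton_neg]
  have hN : Ideal.absNorm (Ideal.span {s}) = 3 := by
    have h := congrArg Ideal.absNorm hsp
    rw [map_pow, show (3 : 𝓞 S.K) = ((3 : ℕ) : 𝓞 S.K) from rfl, Ideal.absNorm_span_natCast,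
      RingOfIntegers.rank, S.finrank_rat_K] at h
    exact Nat.pow_left_injective two_ne_zero h
  refine ⟨s, hs, hN, ?_⟩
  have hpr : (Ideal.span {s}).IsPrime := Ideal.isPrime_of_irreducible_absNorm
    (by rw [hN]; exact Nat.prime_three)
  have hne : Ideal.span {s} ≠ ⊥ := fun h => by
    rw [h, Ideal.absNorm_bot] at hN; norm_num at hN
  have hdegm : ∀ r : ℚ, z ≠ algebraMap ℚ S.K r := by
    intro r hr
    rw [hr, ← map_pow, ← map_add, ← map_one (algebraMap ℚ S.K), ← map_add,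
      map_eq_zero_iff _ (algebraMap ℚ S.K).injective] at hquad
    nlinarith [sq_nonneg (2 * r + 1)]
  have hadj : Algebra.adjoin ℚ {algebraMap (𝓞 S.K) S.K zi} = ⊤ := by
    have : Nat.Prime (Module.finrank ℚ S.K) := by rw [S.finrank_rat_K]; exact Nat.prime_two
    rw [← IntermediateField.adjoin_simple_toSubalgebra_of_isAlgebraic
      (Algebra.IsAlgebraic.isAlgebraic _), ← IntermediateField.top_toSubalgebra]
    congr 1
    have := IntermediateField.isSimpleOrder_of_finrank_prime ℚ S.K this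
    refine (IsSimpleOrder.eq_bot_or_eq_top _).resolve_left fun hb => ?_
    obtain ⟨r, hr⟩ := IntermediateField.mem_bot.1
      (hb ▸ IntermediateField.mem_adjoin_simple_self ℚ (z : S.K) : z ∈ (⊥ : IntermediateField ℚ S.K))
    exact hdegm r hr.symm
  have hmem := aeval_derivative_mem_differentIdeal ℤ ℚ S.K zi hadj
  have hmin : minpoly ℤ zi = Polynomial.X ^ 2 + Polynomial.X + 1 := by
    have hint : IsIntegral ℤ zi := IsIntegralClosure.isIntegral ℤ S.K zi
    have hd := minpoly.isIntegrallyClosed_dvd (R := ℤ) hint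
      (p := Polynomial.X ^ 2 + Polynomial.X + 1) (by simpa using hzi)
    refine Polynomial.eq_of_dvd_of_natDegree_le_of_leadingCoeff hd ?_
      ((minpoly.monic hint).leadingCoeff.trans
        (show Polynomial.Monic (Polynomial.X ^ 2 + Polynomial.X + 1 : Polynomial ℤ) by
          monicity!).leadingCoeff.symm)
    have h2 : (Polynomial.X ^ 2 + Polynomial.X + 1 : Polynomial ℤ).natDegree = 2 := by
      compute_degree!
    rw [h2]
    refine (minpoly.two_le_natDegree_iff hint).2 fun ⟨r, hr⟩ => hdegm r ?_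
    have e : z = algebraMap (𝓞 S.K) S.K (algebraMap ℤ (𝓞 S.K) r) := by rw [hr]; rfl
    rw [e]
    simp
  rw [hmin] at hmem
  have hle : Ideal.span {s} ≤ differentIdeal ℤ (𝓞 S.K) := by
    rw [Ideal.span_singleton_le_iff_mem]
    convert hmem using 1
    simp [s, map_ofNat]
  have := hpr.isMaximal hne
  refine (this.eq_of_le ?_ hle).symm
  intro htop
  have h2 := NumberField.abs_discr_gt_two (K := S.K) (by rw [S.finrank_rat_K]; norm_num)
  have h := NumberField.absNorm_differentIdeal S.K (𝓞 S.K)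
  rw [htop, Ideal.absNorm_top] at h
  rw [Int.abs_eq_natAbs, ← h] at h2
  norm_num at h2

theorem two_not_mem {R : Type*} [CommRing R] {P : Ideal R} (hP : P.IsPrime) (h3 : (3 : R) ∈ P) :
    ((2 : ℕ) : R) ∉ P := fun h => hP.ne_top ((Ideal.eq_top_iff_one _).2 (by
  have := sub_mem h3 h
  norm_num at this ⊢
  exact this))

/-- A generator of the product of the places over `3`. -/
theorem exists_span_eq_prod {w : Fin 3 → HeightOneSpectrum (𝓞 S.F)}
    (h3 : Ideal.span {(3 : 𝓞 S.F)} = ∏ i, (w i).asIdeal ^ 2) {s : 𝓞 S.K} (hs : s ^ 2 = -3) :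
    Ideal.span {algebraMap (𝓞 S.K) (𝓞 S.F) s} = ∏ i, (w i).asIdeal := by
  rw [Finset.prod_pow] at h3
  refine associated_iff_eq.1 ?_
  have hne : (∏ i, (w i).asIdeal) ≠ ⊥ := by
    rw [← Ideal.zero_eq_bot, Finset.prod_ne_zero_iff]
    exact fun i _ => (w i).ne_bot
  have hsq : Ideal.span {algebraMap (𝓞 S.K) (𝓞 S.F) s} ^ 2 = (∏ i, (w i).asIdeal) ^ 2 := by
    rw [← h3, Ideal.span_singleton_pow, ← map_pow, hs, map_neg, map_ofNat,
      Ideal.span_singleton_neg]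
  have hne' : Ideal.span {algebraMap (𝓞 S.K) (𝓞 S.F) s} ≠ ⊥ := fun h => by
    rw [h] at hsq
    exact pow_ne_zero 2 hne (hsq.symm.trans (by simp))
  rw [UniqueFactorizationMonoid.associated_iff_normalizedFactors_eq_normalizedFactors hne' hne]
  have h := congrArg UniqueFactorizationMonoid.normalizedFactors hsq
  rw [UniqueFactorizationMonoid.normalizedFactors_pow,
    UniqueFactorizationMonoid.normalizedFactors_pow] at h
  exact nsmul_right_injective two_ne_zero h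

end Three

theorem tameGen_spec :
    GL2F3.TOct (GL2F3.toTup ((S.ρ S.tameGen : GL (Fin 2) (ZMod 3)) :
      Matrix (Fin 2) (Fin 2) (ZMod 3))) ∧ S.ρ S.tameGen ^ 8 = 1 :=
  ⟨(S.exists_oct_generator S.A₀_liesOver).choose_spec.2.1,
    (S.exists_oct_generator S.A₀_liesOver).choose_spec.2.2.1⟩

theorem exists_inertia_shift {g : GQ}
    (hg : GL2F3.toTup ((S.ρ g : GL (Fin 2) (ZMod 3)) : Matrix (Fin 2) (Fin 2) (ZMod 3)) = (1, 1, 0, 1))
    (hg3 : S.ρ g ^ 3 = 1) (i : Fin 3) (hi : i ≠ 0) :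
    ∃ τ ∈ (g ^ i.1 • S.A₀).inertiaSubgroupIn ℚ,
      τ ∈ S.F.fixingSubgroup ∧ τ ∉ S.M.fixingSubgroup := by
  obtain ⟨hoct, -⟩ := S.tameGen_spec
  obtain ⟨hq, hnc⟩ := GL2F3.toct_shift _ hoct i hi
  have he : GL2F3.tmul (GL2F3.tpow (1, 1, 0, 1) i.1) (GL2F3.tmul
      (GL2F3.tpow (GL2F3.toTup ((S.ρ S.tameGen : GL (Fin 2) (ZMod 3)) : Matrix _ _ (ZMod 3))) 2)
      (GL2F3.tpow (1, 1, 0, 1) (2 * i.1))) =
      GL2F3.toTup ((S.ρ (g ^ i.1 * S.tameGen ^ 2 * (g ^ i.1)⁻¹) : GL (Fin 2) (ZMod 3)) :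
        Matrix _ _ (ZMod 3)) := by
    rw [← hg, ← GL2F3.toTup_pow, ← GL2F3.toTup_pow, ← GL2F3.toTup_pow, ← GL2F3.toTup_mul,
      ← GL2F3.toTup_mul, ← Units.val_pow_eq_pow_val, ← Units.val_pow_eq_pow_val,
      ← Units.val_pow_eq_pow_val, ← Units.val_mul, ← Units.val_mul]
    have hinv : S.ρ g ^ (2 * i.1) = (S.ρ g ^ i.1)⁻¹ := eq_inv_of_mul_eq_one_left (by
      rw [← pow_add, show 2 * i.1 + i.1 = 3 * i.1 by ring, pow_mul, hg3, one_pow])
    simp only [map_mul, map_pow, map_inv, hinv, mul_assoc]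
  rw [he] at hq hnc
  refine ⟨g ^ i.1 * S.tameGen ^ 2 * (g ^ i.1)⁻¹,
    TW.conj_mem_inertia (pow_mem S.tameGen_mem 2), S.mem_fixing_F.2 ((GL2F3.tq8_toTup _).1 hq),
    fun hM => ?_⟩
  obtain ⟨k, hk⟩ := Subgroup.mem_zpowers_iff.1 (S.mem_fix_M.1 hM)
  rw [← zpow_mod_orderOf, S.orderOf_quartGen] at hk
  obtain ⟨n, hn⟩ := Int.eq_ofNat_of_zero_le (Int.emod_nonneg k (by norm_num : (4 : ℤ) ≠ 0))
  have hn4 : n < 4 := by omega
  refine hnc ⟨n, hn4⟩ ?_
  rw [toTup_pow_eq, pow_mul, ← hk]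
  push_cast
  rw [hn, zpow_natCast]
  rfl

theorem shift_injective {g : GQ} (hgK : g ∈ S.K.fixingSubgroup)
    (hg : GL2F3.toTup ((S.ρ g : GL (Fin 2) (ZMod 3)) : Matrix (Fin 2) (Fin 2) (ZMod 3)) = (1, 1, 0, 1))
    {i j : Fin 3} {v : HeightOneSpectrum (𝓞 S.F)} (hwi : Over S.F (g ^ i.1 • S.A₀) v)
    (hwj : Over S.F (g ^ j.1 • S.A₀) v) : i = j := by
  obtain ⟨h, hhF, hAj⟩ := Duality.Global.exists_smul_eq_of_over hwi hwj
  set e := (g ^ j.1)⁻¹ * h * g ^ i.1
  have he : e ∈ S.A₀.decompositionSubgroup ℚ := MulAction.mem_stabilizer_iff.2 (by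
    simp only [e, mul_smul]
    rw [← hAj]
    exact inv_smul_smul _ _)
  have heK : e ∈ S.K.fixingSubgroup := mul_mem (mul_mem (inv_mem (pow_mem hgK _))
    (S.fix_K_of_fix_F hhF)) (pow_mem hgK _)
  obtain ⟨ι, hι, hιe⟩ := S.exists_inertia_mul_q8 Nat.prime_three ⟨S.m, rfl⟩ S.A₀_liesOver heK he
  have hιq : S.ρ ι ∈ quaternionSubgroup := by
    obtain ⟨hoct, h8⟩ := S.tameGen_spec
    obtain ⟨k, hk⟩ := Subgroup.mem_zpowers_iff.1 (S.inertia_le_zpowers hι)
    have hdet : Matrix.det ((S.ρ ι : GL (Fin 2) (ZMod 3)) : Matrix (Fin 2) (Fin 2) (ZMod 3)) = 1 := by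
      have h1 := hιe.1
      rw [map_mul, Units.val_mul, Matrix.det_mul, S.det_eq_one_of_fix heK, mul_one] at h1
      exact h1
    rcases Int.even_or_odd' k with ⟨j, rfl | rfl⟩
    · rw [← hk, zpow_mul, zpow_two, ← pow_two, ← map_pow]
      exact Subgroup.zpow_mem _ (S.M_le_fix (g := S.tameGen ^ 2) (S.mem_fix_M.2 (by
        rw [map_pow]; exact Subgroup.mem_zpowers _))) _
    · exfalso
      rw [← hk, zpow_add, zpow_mul, zpow_one, zpow_two, Units.val_mul, Matrix.det_mul,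
        ← Matrix.GeneralLinearGroup.val_det_apply, map_zpow, map_mul,
        ← Matrix.GeneralLinearGroup.val_det_apply] at hdet
      have hd : Matrix.GeneralLinearGroup.det (S.ρ S.tameGen) = -1 := Units.ext (by
        rw [Matrix.GeneralLinearGroup.val_det_apply, ← GL2F3.tdet_toTup, Units.val_neg,
          Units.val_one]
        exact hoct.1)
      rw [hd] at hdet
      simp at hdet
      revert hdet; decide
  have heq : S.ρ e ∈ quaternionSubgroup := by
    have := mul_mem (inv_mem hιq) (show S.ρ (ι * e) ∈ quaternionSubgroup from hιe)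
    rwa [map_mul, inv_mul_cancel_left] at this
  refine GL2F3.tq8_shift i j _ ((GL2F3.tq8_toTup _).2 (S.mem_fixing_F.1 hhF)) _
    ((GL2F3.tq8_toTup _).2 heq) ?_
  rw [← hg, ← GL2F3.toTup_pow, ← GL2F3.toTup_pow, ← GL2F3.toTup_mul, ← GL2F3.toTup_mul,
    GL2F3.toTup_injective.eq_iff, ← Units.val_pow_eq_pow_val, ← Units.val_pow_eq_pow_val,
    ← Units.val_mul, ← Units.val_mul, ← Units.ext_iff]
  simp only [e, map_mul, map_inv, map_pow, mul_assoc, mul_inv_cancel_left]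

theorem frobenius_not_fix_M {d : GQ} (hdD : d ∈ S.A₀.decompositionSubgroup ℚ)
    (hdFrob : S.A₀.IsFrobeniusAt d 3) : d ∉ S.M.fixingSubgroup := by
  obtain ⟨hoct, h8⟩ := S.tameGen_spec
  intro hdM
  obtain ⟨L, hLfin, hLnorm, hL⟩ := RTLift.Finish.Image.exists_normal_level S.finiteLevel
  obtain ⟨-, hrel⟩ := TW.tame_inertia (A := S.A₀) (ℓ := 3) (p := 2) Nat.prime_three
    Nat.prime_two (by norm_num) S.A₀_liesOver L
    (S.ρ.comp (S.A₀.inertiaSubgroupIn ℚ).subtype) (fun σ h => hL _ h) fun σ => ⟨3, by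
      obtain ⟨k, hk⟩ := Subgroup.mem_zpowers_iff.1 (S.inertia_le_zpowers σ.2)
      show S.ρ (σ : GQ) ^ 8 = 1
      rw [← hk, ← zpow_natCast, ← zpow_mul, mul_comm, zpow_mul, zpow_natCast]
      show (S.ρ S.tameGen ^ 8) ^ k = 1
      rw [h8, _root_.one_zpow]⟩
  have hc : d * S.tameGen * d⁻¹ ∈ S.A₀.inertiaSubgroupIn ℚ := by
    have := TW.conj_mem_inertia (g := d) S.tameGen_mem
    rwa [MulAction.mem_stabilizer_iff.1 hdD] at this
  have h := hrel d hdFrob ⟨S.tameGen, S.tameGen_mem⟩ ⟨_, hc⟩ rfl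
  simp only [MonoidHom.comp_apply, Subgroup.coe_subtype] at h
  obtain ⟨k, hk⟩ := Subgroup.mem_zpowers_iff.1 (S.mem_fix_M.1 hdM)
  have hcomm : Commute (S.ρ d) (S.ρ S.tameGen) := by
    rw [← hk, quartGen]
    exact ((Commute.refl _).pow_left _).zpow_left _
  rw [map_mul, map_mul, map_inv, hcomm.eq, mul_inv_cancel_right] at h
  refine hoct.2.1 ((tpow_eq_one_iff _ 4).2 ?_)
  have h2 : S.ρ S.tameGen ^ 2 = 1 :=
    mul_left_cancel (a := S.ρ S.tameGen) (by rw [mul_one, ← pow_succ']; exact h.symm)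
  rw [show (4 : ℕ) = 2 * 2 from rfl, pow_mul, h2, one_pow]

theorem not_resTrivial_first {P : HeightOneSpectrum (𝓞 S.M)} (hP0 : Over S.M S.A₀ P) :
    ¬ ResTrivial (K := S.F) P := by
  intro hd
  obtain ⟨hoct, h8⟩ := S.tameGen_spec
  obtain ⟨i, hi, hiF, hiM⟩ := S.exists_inertia_of_resTrivial hP0 hd
  obtain ⟨k, hk⟩ := Subgroup.mem_zpowers_iff.1 (S.inertia_le_zpowers hi)
  rw [← zpow_mod_orderOf] at hk
  have hk0 : 0 ≤ k % (orderOf (S.ρ S.tameGen) : ℤ) :=
    Int.emod_nonneg _ (by simpa using (isOfFinOrder_of_finite (S.ρ S.tameGen)).orderOf_pos.ne')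
  obtain ⟨n, hn⟩ := Int.eq_ofNat_of_zero_le hk0
  rw [hn, zpow_natCast, pow_eq_pow_mod n h8] at hk
  obtain ⟨j, hj⟩ := GL2F3.tpow_even_of_q8 _ hoct ⟨n % 8, Nat.mod_lt _ (by norm_num)⟩ (by
    rw [toTup_pow_eq, GL2F3.tq8_toTup]
    exact hk ▸ S.mem_fixing_F.1 hiF)
  rw [toTup_pow_eq, toTup_pow_eq, GL2F3.toTup_injective.eq_iff, ← Units.ext_iff] at hj
  refine hiM (S.mem_fix_M.2 ?_)
  rw [← hk, hj, pow_mul]
  exact Subgroup.pow_mem _ (Subgroup.mem_zpowers _) _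

theorem eq_of_mem_three {w : Fin 3 → HeightOneSpectrum (𝓞 S.F)}
    (h3 : Ideal.span {(3 : 𝓞 S.F)} = ∏ i, (w i).asIdeal ^ 2) {v : HeightOneSpectrum (𝓞 S.F)}
    (hv : (3 : 𝓞 S.F) ∈ v.asIdeal) : ∃ i, v = w i := by
  have hle : ∏ i, (w i).asIdeal ^ 2 ≤ v.asIdeal := by
    rw [← h3, Ideal.span_singleton_le_iff_mem]; exact hv
  obtain ⟨i, -, hi⟩ := (Ideal.IsPrime.prod_le v.isPrime).1 hle
  exact ⟨i, HeightOneSpectrum.ext
    ((w i).isMaximal.eq_of_le v.isPrime.ne_top (v.isPrime.le_of_pow_le hi)).symm⟩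

/-- The places of `F` and of `M` over `3`: inert at the first one, ramified at the other two. -/
theorem exists_places_three :
    ∃ w : Fin 3 → HeightOneSpectrum (𝓞 S.F), ∃ P : Fin 3 → HeightOneSpectrum (𝓞 S.M),
      Function.Injective w ∧ Over S.F S.A₀ (w 0) ∧
      Ideal.span {(3 : 𝓞 S.F)} = ∏ i, (w i).asIdeal ^ 2 ∧
      (∀ i, Ideal.absNorm (w i).asIdeal = 3) ∧
      (∀ v : HeightOneSpectrum (𝓞 S.F), (3 : 𝓞 S.F) ∈ v.asIdeal → ∃ i, v = w i) ∧
      (w 0).asIdeal.map (algebraMap (𝓞 S.F) (𝓞 S.M)) = (P 0).asIdeal ∧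
      (∀ i, i ≠ 0 → (w i).asIdeal.map (algebraMap (𝓞 S.F) (𝓞 S.M)) = (P i).asIdeal ^ 2) ∧
      ∀ i, i ≠ 0 → ∃ A : ValuationSubring Qb, Over S.F A (w i) ∧ A.LiesOverPrime 3 ∧
        ∃ g ∈ A.inertiaSubgroupIn ℚ, g ∈ S.F.fixingSubgroup ∧ g ∉ S.M.fixingSubgroup := by
  let _ : Algebra S.K S.F := S.algKF
  have : IsGalois S.F S.M := S.isGalois_F_M
  obtain ⟨g, hgK, hg, hg3⟩ := S.exists_shift
  let A : Fin 3 → ValuationSubring Qb := fun i => g ^ i.1 • S.A₀
  have hA3 : ∀ i, (A i).LiesOverPrime 3 := fun i => GalRep.liesOverPrime_smul _ S.A₀_liesOver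
  choose P hP using fun i => exists_over (K := S.M) (A := A i) ⟨3, Nat.prime_three, hA3 i⟩
  let w : Fin 3 → HeightOneSpectrum (𝓞 S.F) := fun i => CFT.underPrime S.F S.M (P i)
  have hw : ∀ i, Over S.F (A i) (w i) := fun i => S.over_under (hP i)
  have hinj : Function.Injective w := fun i j hij =>
    S.shift_injective hgK hg (hw i) (hij ▸ hw j)
  -- the norms
  obtain ⟨s, hs, -, -⟩ := S.exists_sqrt_neg_three
  set sF := algebraMap (𝓞 S.K) (𝓞 S.F) s
  have hsp : Ideal.span {sF} ^ 2 = Ideal.span {(3 : 𝓞 S.F)} := by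
    rw [Ideal.span_singleton_pow, ← map_pow, hs, map_neg, map_ofNat, Ideal.span_singleton_neg]
  have hN : Ideal.absNorm (Ideal.span {sF}) = 3 ^ 3 := by
    have h := congrArg Ideal.absNorm hsp
    rw [map_pow, show (3 : 𝓞 S.F) = ((3 : ℕ) : 𝓞 S.F) from rfl, Ideal.absNorm_span_natCast,
      RingOfIntegers.rank, S.finrank_rat_F, show (3 : ℕ) ^ 6 = (3 ^ 3) ^ 2 by norm_num] at h
    exact Nat.pow_left_injective two_ne_zero h
  have hmem : ∀ i, Ideal.span {sF} ≤ (w i).asIdeal := fun i => by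
    have h : Ideal.span {sF} ^ 2 ≤ (w i).asIdeal := by
      rw [hsp, Ideal.span_singleton_le_iff_mem]
      simpa using (hw i).natCast_mem (hA3 i)
    exact (w i).isPrime.le_of_pow_le h
  obtain ⟨J, hJ⟩ : (∏ i, (w i).asIdeal) ∣ Ideal.span {sF} := by
    refine Fintype.prod_dvd_of_coprime (fun i j hij => ?_) fun i => Ideal.dvd_iff_le.2 (hmem i)
    show IsCoprime _ _
    rw [Ideal.isCoprime_iff_sup_eq]
    exact (w i).isMaximal.coprime_of_ne (w j).isMaximal fun h => hij (hinj (HeightOneSpectrum.ext h))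
  have hNJ := congrArg Ideal.absNorm hJ
  rw [hN, map_mul, map_prod, Fin.prod_univ_three] at hNJ
  have hpow : ∀ i, ∃ a, 1 ≤ a ∧ Ideal.absNorm (w i).asIdeal = 3 ^ a := fun i => by
    obtain ⟨a, -, ha⟩ := (Nat.dvd_prime_pow Nat.prime_three).1
      (hN ▸ Ideal.absNorm_dvd_absNorm_of_le (hmem i))
    refine ⟨a, Nat.one_le_iff_ne_zero.2 fun h0 => ?_, ha⟩
    have := CFT.two_le_absNorm (w i)
    rw [ha, h0] at this
    norm_num at this
  choose a ha1 ha using hpow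
  rw [ha, ha, ha, ← pow_add, ← pow_add] at hNJ
  have hsum : a 0 + a 1 + a 2 ≤ 3 :=
    (Nat.pow_dvd_pow_iff_le_right (by norm_num)).1 ⟨_, hNJ⟩
  have hone : ∀ i, a i = 1 := fun i => by
    have := ha1 0; have := ha1 1; have := ha1 2
    obtain rfl | rfl | rfl : i = 0 ∨ i = 1 ∨ i = 2 := by omega
    all_goals omega
  have hnorm : ∀ i, Ideal.absNorm (w i).asIdeal = 3 := fun i => by rw [ha, hone, pow_one]
  have hJ1 : J = ⊤ := by
    rw [hone, hone, hone] at hNJ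
    exact Ideal.absNorm_eq_one_iff.1 (by omega)
  rw [hJ1, Ideal.mul_top] at hJ
  have h3 : Ideal.span {(3 : 𝓞 S.F)} = ∏ i, (w i).asIdeal ^ 2 := by
    rw [Finset.prod_pow, ← hsp, hJ]
  have hramI : ∀ i : Fin 3, i ≠ 0 → ∃ τ ∈ (A i).inertiaSubgroupIn ℚ,
      τ ∈ S.F.fixingSubgroup ∧ τ ∉ S.M.fixingSubgroup := fun i hi =>
    S.exists_inertia_shift hg hg3 i hi
  refine ⟨w, P, hinj, ?_, h3, hnorm, fun v hv => ?_, ?_, fun i hi => ?_, fun i hi => ?_⟩
  · simpa [A] using hw 0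
  · exact S.eq_of_mem_three h3 hv
  · -- inert at the first place
    have hA0 : A 0 = S.A₀ := by simp [A]
    have hP0 : Over S.M S.A₀ (P 0) := hA0 ▸ hP 0
    have hnot : ¬ (P 0).asIdeal ^ 2 ∣ (w 0).asIdeal.map (algebraMap (𝓞 S.F) (𝓞 S.M)) := fun hd =>
      S.not_resTrivial_first hP0 (resTrivial_of_sq_dvd S.finrank_F_M (P 0) (by norm_num) hd)
    obtain ⟨d, hdF, hdD, -, hdFrob⟩ := exists_frobenius_over S.F (hA0 ▸ hw 0 : Over S.F S.A₀ (w 0))
    rw [hnorm] at hdFrob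
    have hdM : d ∉ S.M.fixingSubgroup := S.frobenius_not_fix_M hdD hdFrob
    refine map_eq_self_of_stable (P 0) (fun γ => ?_) hnot
    ext x
    rw [Ideal.mem_pointwise_smul_iff_inv_smul_mem]
    rcases S.galM_eq_or hdF hdM γ⁻¹ with h | h <;> rw [h]
    · rw [one_smul]
    · rw [hP0.mem_iff, hP0.mem_iff]
      exact Eq.to_iff (congrArg (· < 1) (Local.val_galois_eq hdD _))
  · obtain ⟨τ, hτ, hτF, hτM⟩ : ∃ τ ∈ (A i).inertiaSubgroupIn ℚ,
        τ ∈ S.F.fixingSubgroup ∧ τ ∉ S.M.fixingSubgroup := hramI i hi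
    exact map_eq_pow S.finrank_F_M (S.resTrivial_of_inertia (hP i) hτ hτF hτM)
      (two_not_mem (P i).isPrime (by simpa using (hP i).natCast_mem (hA3 i)))
  · exact ⟨A i, hw i, hA3 i, hramI i hi⟩

/-- The relative different of `M / F`. -/
theorem differentIdeal_F_M (w : Fin 3 → HeightOneSpectrum (𝓞 S.F))
    (P : Fin 3 → HeightOneSpectrum (𝓞 S.M)) (hw : Function.Injective w)
    (h3 : Ideal.span {(3 : 𝓞 S.F)} = ∏ i, (w i).asIdeal ^ 2)
    (h0 : (w 0).asIdeal.map (algebraMap (𝓞 S.F) (𝓞 S.M)) = (P 0).asIdeal)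
    (hi : ∀ i, i ≠ 0 → (w i).asIdeal.map (algebraMap (𝓞 S.F) (𝓞 S.M)) = (P i).asIdeal ^ 2) :
    differentIdeal (𝓞 S.F) (𝓞 S.M) = (P 1).asIdeal * (P 2).asIdeal := by
  have : IsGalois S.F S.M := S.isGalois_F_M
  have hle : ∀ i, (w i).asIdeal.map (algebraMap (𝓞 S.F) (𝓞 S.M)) ≤ (P i).asIdeal := by
    intro i
    by_cases h : i = 0
    · subst h; exact h0.le
    · exact (hi i h).le.trans (Ideal.pow_le_self two_ne_zero)
  have hunder : ∀ i, CFT.underPrime S.F S.M (P i) = w i := fun i => HeightOneSpectrum.ext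
    ((w i).isMaximal.eq_of_le (CFT.underPrime S.F S.M (P i)).isPrime.ne_top
      (Ideal.map_le_iff_le_comap.1 (hle i))).symm
  have h3w : ∀ i, (3 : 𝓞 S.F) ∈ (w i).asIdeal := fun i =>
    (h3.le.trans (Ideal.prod_le_inf.trans ((Finset.inf_le (Finset.mem_univ i)).trans
      (Ideal.pow_le_self two_ne_zero)))) (Ideal.mem_span_singleton_self _)
  have h3P : ∀ i, (3 : 𝓞 S.M) ∈ (P i).asIdeal := fun i => by
    have := hle i (Ideal.mem_map_of_mem _ (h3w i))
    rwa [map_ofNat] at this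
  have hexp : ∀ i, i ≠ 0 → (P i).asIdeal ∣ differentIdeal (𝓞 S.F) (𝓞 S.M) ∧
      ¬ (P i).asIdeal ^ 2 ∣ differentIdeal (𝓞 S.F) (𝓞 S.M) := fun i hi0 => by
    have htriv : ResTrivial (K := S.F) (P i) := resTrivial_of_sq_dvd S.finrank_F_M (P i)
      (by norm_num) (by rw [hunder, hi i hi0])
    simpa using different_exponent Nat.prime_two S.finrank_F_M htriv
      (two_not_mem (P i).isPrime (h3P i))
  have hne : (P 1).asIdeal ≠ (P 2).asIdeal := fun h => by
    have := congrArg (CFT.underPrime S.F S.M) (HeightOneSpectrum.ext h)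
    rw [hunder, hunder] at this
    exact absurd (hw this) (by decide)
  obtain ⟨J, hJ⟩ : (P 1).asIdeal * (P 2).asIdeal ∣ differentIdeal (𝓞 S.F) (𝓞 S.M) := by
    refine IsCoprime.mul_dvd ?_ (hexp 1 (by decide)).1 (hexp 2 (by decide)).1
    rw [Ideal.isCoprime_iff_sup_eq]
    exact (P 1).isMaximal.coprime_of_ne (P 2).isMaximal hne
  suffices hJtop : J = ⊤ by rw [hJ, hJtop, Ideal.mul_top]
  by_contra htop
  obtain ⟨Q, hQ, hJQ⟩ := Ideal.exists_le_maximal J htop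
  have hQd : Q ∣ differentIdeal (𝓞 S.F) (𝓞 S.M) :=
    hJ ▸ Dvd.dvd.mul_left (Ideal.dvd_iff_le.2 hJQ) _
  have hQ0 : Q ≠ ⊥ := fun h => differentIdeal_ne_bot (A := 𝓞 S.F) (B := 𝓞 S.M)
    (le_bot_iff.1 (h ▸ Ideal.dvd_iff_le.1 hQd))
  let R : HeightOneSpectrum (𝓞 S.M) := ⟨Q, hQ.isPrime, hQ0⟩
  have hsq : R.asIdeal ^ 2 ∣
      (CFT.underPrime S.F S.M R).asIdeal.map (algebraMap (𝓞 S.F) (𝓞 S.M)) := by
    by_contra hn
    exact not_dvd_different_of_not_sq_dvd R hn hQd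
  have h3R : (3 : 𝓞 S.M) ∈ R.asIdeal := by
    by_contra hn
    exact S.not_sq_dvd R hn hsq
  obtain ⟨i, hwi⟩ := S.eq_of_mem_three h3 (v := CFT.underPrime S.F S.M R) (by
    rw [CFT.underPrime_asIdeal, Ideal.under, Ideal.mem_comap, map_ofNat]
    exact h3R)
  rw [hwi] at hsq
  have hiR : (P i).asIdeal = Q := by
    refine (P i).isMaximal.eq_of_le hQ.ne_top ?_
    have hd : (w i).asIdeal.map (algebraMap (𝓞 S.F) (𝓞 S.M)) ≤ Q :=
      (Ideal.dvd_iff_le.1 hsq).trans (Ideal.pow_le_self two_ne_zero)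
    by_cases h : i = 0
    · subst h; exact h0 ▸ hd
    · exact hQ.isPrime.le_of_pow_le (hi i h ▸ hd)
  by_cases h : i = 0
  · subst h
    rw [h0, show R.asIdeal = (P 0).asIdeal from hiR.symm] at hsq
    exact (P 0).prime.not_isUnit (isUnit_of_dvd_one (by
      rw [pow_two] at hsq
      exact (mul_dvd_mul_iff_left (P 0).prime.ne_zero).1 (hsq.trans (mul_one _).symm.dvd)))
  · refine (hexp i h).2 (hJ ▸ ?_)
    have hQJ : (P i).asIdeal ∣ J := hiR ▸ Ideal.dvd_iff_le.2 hJQ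
    rw [pow_two]
    refine mul_dvd_mul ?_ hQJ
    fin_cases i
    · exact absurd rfl h
    · exact dvd_mul_right _ _
    · exact dvd_mul_left _ _

section Three

attribute [local instance] algKF

/-- The different of `F`: the square root of `-3` times a square prime to `3`. -/
theorem differentIdeal_F (w : Fin 3 → HeightOneSpectrum (𝓞 S.F)) (hw : Function.Injective w)
    (h3 : Ideal.span {(3 : 𝓞 S.F)} = ∏ i, (w i).asIdeal ^ 2) :
    ∃ J : Ideal (𝓞 S.F), J ^ 2 ⊔ Ideal.span {(3 : 𝓞 S.F)} = ⊤ ∧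
      differentIdeal ℤ (𝓞 S.F) = J ^ 2 * ∏ i, (w i).asIdeal := by
  classical
  have : IsGalois S.K S.F := S.isGalois_K_F
  obtain ⟨s, hs, hN, hdiff⟩ := S.exists_sqrt_neg_three
  have hprod := S.exists_span_eq_prod h3 hs
  set D := differentIdeal (𝓞 S.K) (𝓞 S.F)
  have hD : D ≠ ⊥ := differentIdeal_ne_bot
  have hcop : ∀ Q : HeightOneSpectrum (𝓞 S.F), (3 : 𝓞 S.F) ∈ Q.asIdeal → ¬ Q.asIdeal ∣ D := by
    intro Q hQ
    obtain ⟨i, rfl⟩ := S.eq_of_mem_three h3 hQ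
    have hsK : s ∈ (CFT.underPrime S.K S.F (w i)).asIdeal := by
      rw [CFT.underPrime_asIdeal, Ideal.under, Ideal.mem_comap]
      refine (w i).isPrime.mem_of_pow_mem 2 ?_
      rw [← map_pow, hs, map_neg, map_ofNat]
      exact neg_mem hQ
    have hne : Ideal.span {s} ≠ ⊥ := fun h => by
      rw [h, Ideal.absNorm_bot] at hN; norm_num at hN
    have hmax : (Ideal.span {s}).IsMaximal := (Ideal.isPrime_of_irreducible_absNorm
      (by rw [hN]; exact Nat.prime_three)).isMaximal hne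
    have hunder : (CFT.underPrime S.K S.F (w i)).asIdeal = Ideal.span {s} :=
      (hmax.eq_of_le (CFT.underPrime S.K S.F (w i)).isPrime.ne_top
        ((Ideal.span_singleton_le_iff_mem _).2 hsK)).symm
    refine not_dvd_different_of_not_sq_dvd (w i) ?_
    rw [hunder, Ideal.map_span, Set.image_singleton, hprod,
      ← Finset.mul_prod_erase _ _ (Finset.mem_univ i), pow_two]
    intro h
    obtain ⟨j, hj, hdvd⟩ := (w i).prime.exists_mem_finset_dvd
      ((mul_dvd_mul_iff_left (w i).prime.ne_zero).1 h)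
    exact Finset.ne_of_mem_erase hj (hw (HeightOneSpectrum.ext
      ((w j).isMaximal.eq_of_le (w i).isPrime.ne_top (Ideal.dvd_iff_le.1 hdvd))))
  obtain ⟨J, hJ⟩ : ∃ J : Ideal (𝓞 S.F), D = J ^ 2 := by
    refine exists_sq_eq_of_even hD fun Q hQ hQ0 => ?_
    let R : HeightOneSpectrum (𝓞 S.F) := ⟨Q, hQ, hQ0⟩
    by_cases hd : Q ∣ D
    · have hsq : R.asIdeal ^ 2 ∣
          (CFT.underPrime S.K S.F R).asIdeal.map (algebraMap (𝓞 S.K) (𝓞 S.F)) := by
        by_contra hn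
        exact not_dvd_different_of_not_sq_dvd R hn hd
      obtain ⟨h1, h2⟩ := different_exponent Nat.prime_three S.finrank_K_F'
        (resTrivial_of_sq_dvd S.finrank_K_F' R le_rfl hsq) fun h => hcop R (by simpa using h) hd
      rw [Ideal.count_normalizedFactors_eq (n := 2) (Ideal.dvd_iff_le.1 h1)
        fun h => h2 (Ideal.dvd_iff_le.2 h)]
    · rw [Multiset.count_eq_zero_of_notMem fun h =>
        hd (UniqueFactorizationMonoid.dvd_of_mem_normalizedFactors h)]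
      exact dvd_zero 2
  refine ⟨J, ?_, ?_⟩
  · by_contra htop
    obtain ⟨Q, hQ, hle⟩ := Ideal.exists_le_maximal _ htop
    have hQ3 : (3 : 𝓞 S.F) ∈ Q := hle (Ideal.mem_sup_right (Ideal.mem_span_singleton_self _))
    refine hcop ⟨Q, hQ.isPrime, fun h => ?_⟩ hQ3
      (Ideal.dvd_iff_le.2 (hJ.le.trans (le_sup_left.trans hle)))
    rw [h, Ideal.mem_bot] at hQ3
    norm_num at hQ3
  · rw [differentIdeal_eq_differentIdeal_mul_differentIdeal ℤ (𝓞 S.K) (𝓞 S.F), hdiff,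
      Ideal.map_span, Set.image_singleton, hprod, ← hJ]

end Three

/-- The different of `M`: tame at `3`, and a square elsewhere. -/
theorem exists_different_eq (w : Fin 3 → HeightOneSpectrum (𝓞 S.F))
    (P : Fin 3 → HeightOneSpectrum (𝓞 S.M)) (hw : Function.Injective w)
    (h3 : Ideal.span {(3 : 𝓞 S.F)} = ∏ i, (w i).asIdeal ^ 2)
    (h0 : (w 0).asIdeal.map (algebraMap (𝓞 S.F) (𝓞 S.M)) = (P 0).asIdeal)
    (hi : ∀ i, i ≠ 0 → (w i).asIdeal.map (algebraMap (𝓞 S.F) (𝓞 S.M)) = (P i).asIdeal ^ 2) :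
    ∃ J : Ideal (𝓞 S.F), J ^ 2 ⊔ Ideal.span {(3 : 𝓞 S.F)} = ⊤ ∧
      differentIdeal ℤ (𝓞 S.M) * ∏ i, (P i).asIdeal =
        Ideal.span {(3 : 𝓞 S.M)} * (J ^ 2).map (algebraMap (𝓞 S.F) (𝓞 S.M)) := by
  obtain ⟨J, hJ, hF⟩ := S.differentIdeal_F w hw h3
  refine ⟨J, hJ, ?_⟩
  set f := algebraMap (𝓞 S.F) (𝓞 S.M)
  have hmap : (∏ i, (w i).asIdeal).map f =
      (P 0).asIdeal * ((P 1).asIdeal ^ 2 * (P 2).asIdeal ^ 2) := by
    rw [Fin.prod_univ_three, Ideal.map_mul, Ideal.map_mul, h0, hi 1 (by decide), hi 2 (by decide),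
      mul_assoc]
  have h3M : Ideal.span {(3 : 𝓞 S.M)} = (∏ i, (w i).asIdeal).map f ^ 2 := by
    rw [← Ideal.map_pow, ← Finset.prod_pow, ← h3, Ideal.map_span, Set.image_singleton, map_ofNat]
  rw [differentIdeal_eq_differentIdeal_mul_differentIdeal ℤ (𝓞 S.F) (𝓞 S.M),
    S.differentIdeal_F_M w P hw h3 h0 hi, hF, Ideal.map_mul, h3M, hmap, Fin.prod_univ_three]
  ring

end FermatAgent.LT.Setup
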