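import Fermat.Agent.TW.Decomposition
import Fermat.Agent.Duality.Global.Val
import Fermat.Agent.Duality.Local.Transfer
import Fermat.Agent.CFT.GaloisPrimes

/-!
# Unramified abelian characters at a place

For a homomorphism of `G_M` trivial on an open subgroup and on the inertia at a place, the
decomposition group maps onto the powers of a Frobenius value, and an element fixed by the kernel
has the value of an element of `M`.
-/

set_option autoImplicit false

noncomputable section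

open NumberField IsDedekindDomain
open scoped Pointwise

namespace FermatAgent.LT.ClassField

open FermatAgent.RT (centre mem_centre_iff mem_of_isIntegral_int mem_decompositionSubgroup_of_smul_centre)
open FermatAgent.Duality.Global (Over toZB coe_toZB)
open FermatAgent.Duality (localGroup localField)

local notation "Qb" => AlgebraicClosure ℚ
local notation "GQ" => AlgebraicClosure ℚ ≃ₐ[ℚ] AlgebraicClosure ℚ
local notation "ZB" => integralClosure ℤ (AlgebraicClosure ℚ)

attribute [local instance] FermatAgent.RT.isGalois_algClosureRat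

variable {A : ValuationSubring Qb} {ℓ : ℕ}

/-- An element of the decomposition group which is trivial on the residues of `L` is an inertia
element times an element fixing `L`. -/
theorem exists_inertia_mul_fix (hℓ : ℓ.Prime) (hA : A.LiesOverPrime ℓ) (L : IntermediateField ℚ Qb)
    [FiniteDimensional ℚ L] {τ : GQ} (hτd : τ ∈ A.decompositionSubgroup ℚ)
    (hτ : ∀ b : ZB, (b : Qb) ∈ L → τ • b - b ∈ centre A) :
    ∃ i ∈ A.inertiaSubgroupIn ℚ, ∃ h ∈ L.fixingSubgroup, τ = i * h := by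
  let H : Subgroup GQ := L.fixingSubgroup
  have : CompactSpace H :=
    isCompact_iff_compactSpace.mp (IntermediateField.fixingSubgroup_isClosed _).isCompact
  let : TopologicalSpace ZB := ⊥
  have : DiscreteTopology ZB := ⟨rfl⟩
  have : ContinuousSMul GQ ZB := TW.continuousSMul_intClosure
  have : ContinuousSMul H ZB := by
    rw [continuousSMul_iff_stabilizer_isOpen]
    intro b
    exact (stabilizer_isOpen GQ b).preimage continuous_subtype_val
  let R := FixedPoints.subalgebra ℤ ZB H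
  have : SMulCommClass H R ZB := ⟨fun g a b => by
    show g • ((a : ZB) * b) = (a : ZB) * g • b
    rw [smul_mul', show g • (a : ZB) = a from a.2 g]⟩
  have : Algebra.IsInvariant R ZB H := ⟨fun b hb => ⟨⟨b, hb⟩, rfl⟩⟩
  have hR : ∀ a : R, ((a : ZB) : Qb) ∈ L := by
    intro a
    rw [← InfiniteGalois.fixedField_fixingSubgroup (K := Qb) L]
    intro g
    exact congrArg Subtype.val (a.2 g)
  let P : Ideal R := (centre A).under R
  let e : (ZB ⧸ centre A) ≃ₐ[R ⧸ P] (ZB ⧸ centre A) :=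
    AlgEquiv.ofRingEquiv (f := Ideal.quotientEquiv (centre A) (centre A)
        (MulSemiringAction.toRingEquiv GQ ZB τ) (by exact (TW.smul_centre_eq hτd).symm))
      (by
        intro a
        obtain ⟨a, rfl⟩ := Ideal.Quotient.mk_surjective a
        show Ideal.Quotient.mk (centre A) (τ • (a : ZB)) = Ideal.Quotient.mk (centre A) (a : ZB)
        rw [Ideal.Quotient.eq]
        exact hτ _ (hR a))
  obtain ⟨⟨h, hh⟩, hhe⟩ :=
    Ideal.Quotient.stabilizerHom_surjective_of_profinite (G := H) P (centre A) e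
  have hhd : (h : GQ) ∈ A.decompositionSubgroup ℚ :=
    mem_decompositionSubgroup_of_smul_centre hℓ hA hh
  refine ⟨τ * (h : GQ)⁻¹, ?_, h, h.2, (inv_mul_cancel_right _ _).symm⟩
  refine TW.mem_inertia_of_forall_centre hℓ hA (mul_mem hτd (inv_mem hhd)) fun b => ?_
  have h1 : Ideal.Quotient.mk (centre A) ((h : GQ) • ((h : GQ)⁻¹ • b)) =
      Ideal.Quotient.mk (centre A) (τ • ((h : GQ)⁻¹ • b)) :=
    DFunLike.congr_fun hhe (Ideal.Quotient.mk (centre A) ((h : GQ)⁻¹ • b))
  rw [smul_inv_smul, Ideal.Quotient.eq] at h1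
  rw [mul_smul]
  simpa using neg_mem h1

theorem isFrobeniusAt_pow {σ : GQ} {N : ℕ} (h : A.IsFrobeniusAt σ N) (j : ℕ) :
    A.IsFrobeniusAt (σ ^ j) (N ^ j) := by
  rw [TW.isFrobeniusAt_iff] at h ⊢
  refine ⟨pow_mem h.1 j, ?_⟩
  induction j with
  | zero => intro z _; simp
  | succ j ih =>
    intro z hz
    have h1 := h.2 z hz
    have h2 := ih (z ^ N) (pow_mem hz N)
    rw [← Local.val_galois_eq (pow_mem h.1 j) (σ z - z ^ N)] at h1
    rw [pow_succ σ, AlgEquiv.mul_apply, pow_succ' N, pow_mul,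
      show (σ ^ j) (σ z) - (z ^ N) ^ N ^ j =
        (σ ^ j) (σ z - z ^ N) + ((σ ^ j) (z ^ N) - (z ^ N) ^ N ^ j) by rw [map_sub]; ring]
    exact A.valuation.map_add_lt h1 h2

variable {M : IntermediateField ℚ Qb} [NumberField M] {P : HeightOneSpectrum (𝓞 M)}
  {Q : Type} [CommGroup Q] (f : M.fixingSubgroup →* Q)
  (hlev : ∃ L : IntermediateField ℚ Qb, FiniteDimensional ℚ L ∧
    ∀ h : M.fixingSubgroup, (h : GQ) ∈ L.fixingSubgroup → f h = 1)
  (hun : ∀ i : M.fixingSubgroup, (i : GQ) ∈ A.inertiaSubgroupIn ℚ → f i = 1)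
  (hA : Over M A P) {g : M.fixingSubgroup}
  (hg : A.IsFrobeniusAt (g : GQ) (Ideal.absNorm P.asIdeal))

include hlev in
theorem exists_level_le : ∃ L : IntermediateField ℚ Qb, FiniteDimensional ℚ L ∧ Normal ℚ L ∧
    M ≤ L ∧ ∀ h : M.fixingSubgroup, (h : GQ) ∈ L.fixingSubgroup → f h = 1 := by
  obtain ⟨L, hL, hLf⟩ := hlev
  have : FiniteDimensional ℚ (L ⊔ M : IntermediateField ℚ Qb) :=
    IntermediateField.finiteDimensional_sup L M
  refine ⟨IntermediateField.normalClosure ℚ (L ⊔ M : IntermediateField ℚ Qb) Qb, inferInstance,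
    normalClosure.normal ℚ _ Qb, le_trans le_sup_right (IntermediateField.le_normalClosure _), fun h hh => ?_⟩
  exact hLf h (IntermediateField.fixingSubgroup_antitone
    (le_trans le_sup_left (IntermediateField.le_normalClosure _)) hh)

include hlev hun hA hg in
/-- The decomposition group maps into the powers of the Frobenius value. -/
theorem exists_pow_eq {d : M.fixingSubgroup} (hd : (d : GQ) ∈ A.decompositionSubgroup ℚ) :
    ∃ j : ℕ, f d = f g ^ j := by
  obtain ⟨L, hL, hLn, hML, hLf⟩ := exists_level_le f hlev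
  obtain ⟨l, hl, hlA⟩ := hA.1
  obtain ⟨F, hF⟩ := RT.exists_isFrobeniusAt hl hlA
  obtain ⟨m, i, hi, hd'⟩ := TW.exists_frobenius_pow_mul hl hlA L hF hd
  obtain ⟨f₀, hf₀⟩ : ∃ f₀ : ℕ, Ideal.absNorm P.asIdeal = l ^ f₀ := by
    have h2 := Ideal.absNorm_dvd_absNorm_of_le
      ((Ideal.span_singleton_le_iff_mem _).mpr (hA.natCast_mem hlA))
    rw [Ideal.absNorm_span_natCast] at h2
    obtain ⟨f₀, -, h⟩ := (Nat.dvd_prime_pow hl).mp h2
    exact ⟨f₀, h⟩
  have hN : ∀ x : 𝓞 M, x ^ l ^ m - x ∈ P.asIdeal := by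
    intro x
    rw [← hA.2, Ideal.mem_comap, mem_centre_iff, A.mem_nonunits_iff]
    show A.valuation ((((x : M) : Qb)) ^ l ^ m - ((x : M) : Qb)) < 1
    have hxA : ((x : M) : Qb) ∈ A := mem_of_isIntegral_int A (toZB M x).2
    have h1 := (TW.isFrobeniusAt_iff.1 (isFrobeniusAt_pow hF m)).2 _ hxA
    have h2 := Local.inertia_val_sub_lt_one hi hxA
    rw [← Local.val_galois_eq (pow_mem (TW.isFrobeniusAt_iff.1 hF).1 m), map_sub] at h2
    have hdx : (F ^ m * i : GQ) ((x : M) : Qb) = ((x : M) : Qb) :=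
      (hd' _ (hML (x : M).2)).symm.trans (d.2 ⟨_, (x : M).2⟩)
    rw [AlgEquiv.mul_apply] at hdx
    rw [hdx] at h2
    rw [show ((x : M) : Qb) ^ l ^ m - ((x : M) : Qb) =
      -((F ^ m) ((x : M) : Qb) - ((x : M) : Qb) ^ l ^ m) + -(((x : M) : Qb) - (F ^ m) ((x : M) : Qb))
      by ring]
    exact A.valuation.map_add_lt (by rw [Valuation.map_neg]; exact h1)
      (by rw [Valuation.map_neg]; exact h2)
  have hf0 : 0 < f₀ := Nat.pos_of_ne_zero fun h => by
    have := CFT.two_le_absNorm P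
    rw [hf₀, h, pow_zero] at this
    omega
  have hdvd : f₀ ∣ m := by
    rw [Nat.dvd_iff_mod_eq_zero]
    by_contra hr
    have hiter : ∀ (k : ℕ) (x : 𝓞 M), x ^ l ^ (f₀ * k) - x ∈ P.asIdeal := by
      intro k
      induction k with
      | zero => intro x; simp
      | succ k ih =>
        intro x
        have h1 := ih (x ^ Ideal.absNorm P.asIdeal)
        have h2 := CFT.pow_absNorm_sub_self_mem P x
        have := add_mem h1 h2
        rwa [sub_add_sub_cancel, hf₀, ← pow_mul, ← pow_add,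
          show f₀ + f₀ * k = f₀ * (k + 1) by ring] at this
    have hle : Ideal.absNorm P.asIdeal ≤ l ^ (m % f₀) := by
      refine CFT.absNorm_le_of_forall_pow_sub_mem P ?_ fun x => ?_
      · exact Nat.one_lt_pow hr hl.one_lt
      · have h1 := hiter (m / f₀) (x ^ l ^ (m % f₀))
        rw [← pow_mul, ← pow_add, Nat.mod_add_div] at h1
        have := sub_mem (hN x) h1
        rwa [sub_sub_sub_cancel_left] at this
    rw [hf₀] at hle
    exact absurd ((Nat.pow_le_pow_iff_right hl.one_lt).1 hle) (not_le.2 (Nat.mod_lt _ hf0))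
  obtain ⟨j, rfl⟩ := hdvd
  refine ⟨j, ?_⟩
  have hgj := isFrobeniusAt_pow hg j
  rw [hf₀, ← pow_mul] at hgj
  have hi' := mul_mem (TW.inv_mul_mem_inertia hgj (isFrobeniusAt_pow hF (f₀ * j))) hi
  set i' := ((g : GQ) ^ j)⁻¹ * F ^ (f₀ * j) * i
  set n := (F ^ (f₀ * j) * i)⁻¹ * (d : GQ)
  have hn : n ∈ L.fixingSubgroup := fun x => by
    show n (x : Qb) = x
    rw [show n (x : Qb) = (F ^ (f₀ * j) * i)⁻¹ ((d : GQ) x) from rfl, hd' _ x.2]
    exact (F ^ (f₀ * j) * i).symm_apply_apply _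
  have hnM : n ∈ M.fixingSubgroup := IntermediateField.fixingSubgroup_antitone hML hn
  have e : (d : GQ) = (g : GQ) ^ j * i' * n := by simp only [i', n]; group
  have hiM : i' ∈ M.fixingSubgroup := by
    rw [show i' = ((g : GQ) ^ j)⁻¹ * d * n⁻¹ by rw [e]; group]
    exact mul_mem (mul_mem (inv_mem (pow_mem g.2 j)) d.2) (inv_mem hnM)
  rw [show d = g ^ j * ⟨i', hiM⟩ * ⟨n, hnM⟩ from Subtype.ext (by simpa using e), map_mul, map_mul,
    map_pow, hun ⟨i', hiM⟩ hi', hLf ⟨n, hnM⟩ hn, mul_one, mul_one]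

include hlev hun hA hg in
/-- An element fixed by the kernel has the value of an element of `M`. -/
theorem exists_val_eq {q : Qb} (hq0 : q ≠ 0)
    (hq : ∀ h : M.fixingSubgroup, f h = 1 → (h : GQ) q = q) :
    ∃ y ∈ M, y ≠ 0 ∧ A.valuation y = A.valuation q := by
  classical
  obtain ⟨L, hL, hLn, hML, hLf⟩ := exists_level_le f hlev
  obtain ⟨l, hl, hlA⟩ := hA.1
  have hgD := (TW.isFrobeniusAt_iff.1 hg).1
  let H : Subgroup GQ := f.ker.map M.fixingSubgroup.subtype
  have hHf : ∀ h ∈ H, ∃ h' : M.fixingSubgroup, f h' = 1 ∧ (h' : GQ) = h := fun h hh => by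
    obtain ⟨h', h1, h2⟩ := hh
    exact ⟨h', h1, h2⟩
  have hLH : L.fixingSubgroup ≤ H := fun h hh =>
    ⟨⟨h, IntermediateField.fixingSubgroup_antitone hML hh⟩, hLf _ hh, rfl⟩
  have hfix : (IntermediateField.fixedField H).fixingSubgroup = H :=
    InfiniteGalois.fixingSubgroup_fixedField ⟨H, Subgroup.isClosed_of_isOpen _
      (Subgroup.isOpen_mono hLH (IntermediateField.fixingSubgroup_isOpen L))⟩
  set Ω := IntermediateField.fixedField H
  have hΩL : Ω ≤ L := by
    rw [← InfiniteGalois.fixedField_fixingSubgroup L]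
    exact IntermediateField.fixedField_antitone hLH
  have : FiniteDimensional ℚ Ω := FiniteDimensional.of_injective
    (IntermediateField.inclusion hΩL).toLinearMap (IntermediateField.inclusion hΩL).injective
  have hmem : ∀ x : Qb, x ∈ Ω ↔ ∀ h : M.fixingSubgroup, f h = 1 → (h : GQ) x = x :=
    fun x => ⟨fun hx h hh => hx ⟨h, h, hh, rfl⟩, fun hx ⟨h, hh⟩ => by
      obtain ⟨h', h1, rfl⟩ := hHf h hh
      exact hx h' h1⟩
  have hstab : ∀ (u : M.fixingSubgroup) (x : Qb), x ∈ Ω → (u : GQ) x ∈ Ω := fun u x hx => by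
    refine (hmem _).2 fun h hh => ?_
    have h1 := (hmem x).1 hx (u⁻¹ * h * u) (by rw [map_mul, map_mul, hh, mul_one, ← map_mul,
      inv_mul_cancel, map_one])
    have h2 := congrArg (u : GQ) h1
    rwa [Subgroup.coe_mul, Subgroup.coe_mul, Subgroup.coe_inv, ← AlgEquiv.mul_apply,
      ← mul_assoc, ← mul_assoc, mul_inv_cancel, one_mul, AlgEquiv.mul_apply] at h2
  -- the order of the Frobenius value
  have hfin : IsOfFinOrder (f g) := by
    have hLfin := Duality.finiteIndex_fixingSubgroup L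
    obtain ⟨k, hk0, -, hk⟩ := Subgroup.exists_pow_mem_of_index_ne_zero
      (H := L.fixingSubgroup) hLfin.index_ne_zero (g : GQ)
    exact isOfFinOrder_iff_pow_eq_one.2 ⟨k, hk0, by
      rw [← map_pow]; exact hLf _ (by simpa using hk)⟩
  set n₀ := orderOf (f g)
  have hn₀ : 0 < n₀ := hfin.orderOf_pos
  have hper : ∀ x ∈ Ω, ((g : GQ) ^ n₀) x = x := fun x hx => by
    simpa using (hmem x).1 hx (g ^ n₀) (by rw [map_pow, pow_orderOf_eq_one])
  -- residual characters
  let O : Submonoid ZB :=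
    { carrier := {b | (b : Qb) ∈ Ω}
      one_mem' := one_mem Ω
      mul_mem' := fun {a b} ha hb => (mul_mem ha hb : ((a : ZB) : Qb) * ((b : ZB) : Qb) ∈ Ω) }
  let ψ : Fin n₀ → (O →* IsLocalRing.ResidueField A) := fun k =>
    ((IsLocalRing.residue A).toMonoidHom).comp
      { toFun := fun b => ⟨((g : GQ) ^ (k : ℕ)) ((b : ZB) : Qb),
          (Local.decomposition_mem_iff (pow_mem hgD k) _).2 (mem_of_isIntegral_int A (b : ZB).2)⟩
        map_one' := Subtype.ext (map_one _)
        map_mul' := fun a b => Subtype.ext (map_mul _ _ _) }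
  have hψ : Function.Injective ψ := by
    intro a b hab
    by_contra hne
    wlog hlt : (a : ℕ) < b generalizing a b
    · exact this hab.symm (Ne.symm hne)
        (lt_of_le_of_ne (not_lt.1 hlt) fun h => hne (Fin.ext h).symm)
    set k := (b : ℕ) - a with hk
    have hτ : ∀ x : ZB, (x : Qb) ∈ Ω → ((g : GQ) ^ k) • x - x ∈ centre A := by
      intro x hx
      set x' : ZB := ((g : GQ) ^ (a : ℕ))⁻¹ • x with hx'
      have hx'Ω : (x' : Qb) ∈ Ω := by
        have := hstab ((g ^ (a : ℕ))⁻¹) _ hx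
        simpa [hx', AlgEquiv.smul_def] using this
      have h1 : ψ b ⟨x', hx'Ω⟩ = ψ a ⟨x', hx'Ω⟩ := by rw [hab]
      have h2 := (Duality.Local.residue_eq_residue_iff).1 h1
      rw [mem_centre_iff, A.mem_nonunits_iff]
      have e1 : ((g : GQ) ^ (b : ℕ)) (x' : Qb) = ((((g : GQ) ^ k) • x : ZB) : Qb) := by
        show ((g : GQ) ^ (b : ℕ)) ((((g : GQ) ^ (a : ℕ))⁻¹) (x : Qb)) = ((g : GQ) ^ k) (x : Qb)
        rw [← AlgEquiv.mul_apply, show (b : ℕ) = k + a by omega, pow_add, mul_assoc, mul_inv_cancel,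
          mul_one]
      have e2 : ((g : GQ) ^ (a : ℕ)) (x' : Qb) = (x : Qb) := by
        show ((g : GQ) ^ (a : ℕ)) ((((g : GQ) ^ (a : ℕ))⁻¹) (x : Qb)) = _
        rw [← AlgEquiv.mul_apply, mul_inv_cancel, AlgEquiv.one_apply]
      show A.valuation ((((g : GQ) ^ k) • x : ZB) - (x : Qb)) < 1
      have h3 : A.valuation (((g : GQ) ^ (b : ℕ)) (x' : Qb) - ((g : GQ) ^ (a : ℕ)) (x' : Qb)) < 1 := h2
      rwa [e1, e2] at h3
    obtain ⟨i, hi, h, hh, e⟩ := exists_inertia_mul_fix hl hlA Ω (pow_mem hgD k) hτ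
    rw [hfix] at hh
    obtain ⟨h', h1, rfl⟩ := hHf h hh
    have hiM : i ∈ M.fixingSubgroup := by
      rw [show i = ((g : GQ) ^ k) * (h' : GQ)⁻¹ by rw [e, mul_inv_cancel_right]]
      exact mul_mem (pow_mem g.2 k) (inv_mem h'.2)
    have h2 : f g ^ k = 1 := by
      rw [← map_pow, show g ^ k = ⟨i, hiM⟩ * h' from Subtype.ext (by simpa using e), map_mul, h1,
        hun ⟨i, hiM⟩ hi, mul_one]
    have := Nat.le_of_dvd (by omega) (orderOf_dvd_of_pow_eq_one h2)
    omega
  have hqΩ : q ∈ Ω := (hmem q).2 hq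
  have hqv : A.valuation q ≠ 0 := (map_ne_zero _).2 hq0
  have hunit : ∀ k : ℕ, ((g : GQ) ^ k) q / q ∈ A := fun k => (A.valuation_le_one_iff _).1 (by
    rw [map_div₀, Local.val_galois_eq (pow_mem hgD k), div_self hqv])
  obtain ⟨θ, hθ⟩ : ∃ θ : O, (∑ k : Fin n₀, IsLocalRing.residue A ⟨_, hunit k⟩ * ψ k θ) ≠ 0 := by
    by_contra! hall
    have hli := (linearIndependent_monoidHom O (IsLocalRing.ResidueField A)).comp ψ hψ
    rw [Fintype.linearIndependent_iff] at hli
    have h0 := hli (fun k => IsLocalRing.residue A ⟨_, hunit k⟩) (funext fun θ => by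
      rw [Finset.sum_apply, Pi.zero_apply, ← hall θ]
      rfl) ⟨0, hn₀⟩
    rw [IsLocalRing.residue_eq_zero_iff] at h0
    refine h0 ?_
    rw [show (⟨_, hunit ((⟨0, hn₀⟩ : Fin n₀) : ℕ)⟩ : A) = 1 from Subtype.ext (by simp [div_self hq0])]
    exact isUnit_one
  set t : Qb := ((θ : ZB) : Qb) * q
  have htΩ : t ∈ Ω := mul_mem θ.2 hqΩ
  set y : Qb := ∑ k ∈ Finset.range n₀, ((g : GQ) ^ k) t with hy
  have hgy : (g : GQ) y = y := by
    have h1 : (g : GQ) y + ((g : GQ) ^ 0) t = y + ((g : GQ) ^ n₀) t := by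
      rw [hy, map_sum, ← Finset.sum_range_succ (fun k => ((g : GQ) ^ k) t),
        Finset.sum_range_succ' (fun k => ((g : GQ) ^ k) t)]
      congr 1
      exact Finset.sum_congr rfl fun k _ => by rw [pow_succ', AlgEquiv.mul_apply]
    rw [hper t htΩ, pow_zero, AlgEquiv.one_apply, add_left_inj] at h1
    exact h1
  have hyΩ : y ∈ Ω := sum_mem fun k _ => by simpa using hstab (g ^ k) t htΩ
  have hyv : A.valuation y = A.valuation q := by
    have h1 : y / q = ((∑ k : Fin n₀, (⟨_, hunit k⟩ : A) *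
        ⟨((g : GQ) ^ (k : ℕ)) ((θ : ZB) : Qb),
          (Local.decomposition_mem_iff (pow_mem hgD k) _).2 (mem_of_isIntegral_int A (θ : ZB).2)⟩ :
          A) : Qb) := by
      rw [hy, Finset.sum_div, Finset.sum_range (fun k => ((g : GQ) ^ k) t / q),
        AddSubmonoidClass.coe_finsetSum]
      refine Finset.sum_congr rfl fun k _ => ?_
      show ((g : GQ) ^ (k : ℕ)) (((θ : ZB) : Qb) * q) / q =
        ((g : GQ) ^ (k : ℕ)) q / q * ((g : GQ) ^ (k : ℕ)) ((θ : ZB) : Qb)
      rw [map_mul]; ring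
    have h2 : A.valuation (y / q) = 1 := by
      rw [h1]
      refine (A.valuation_eq_one_iff _).1 ?_
      rw [← IsLocalRing.residue_ne_zero_iff_isUnit, map_sum]
      exact fun h => hθ ((Finset.sum_congr rfl fun k _ => (map_mul _ _ _).symm).trans h)
    rwa [map_div₀, div_eq_one_iff_eq hqv] at h2
  have hyloc : y ∈ localField M A := by
    rw [Duality.Local.mem_localField_iff]
    intro d hd
    obtain ⟨j, hj⟩ := exists_pow_eq f hlev hun hA hg (d := ⟨d, hd.1⟩) hd.2
    have h1 := (hmem y).1 hyΩ ((g ^ j)⁻¹ * ⟨d, hd.1⟩) (by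
      rw [map_mul, map_inv, map_pow, hj, inv_mul_cancel])
    have h2 := congrArg (((g : GQ) ^ j)) h1
    rw [Subgroup.coe_mul, Subgroup.coe_inv, SubgroupClass.coe_pow, ← AlgEquiv.mul_apply,
      mul_inv_cancel_left] at h2
    rw [h2]
    clear h1 h2 hj
    induction j with
    | zero => simp
    | succ j ih => rw [pow_succ, AlgEquiv.mul_apply, hgy, ih]
  have hy0 : y ≠ 0 := fun h => hqv (by rw [← hyv, h, map_zero])
  obtain ⟨y', h1, h2, h3⟩ := Duality.Local.exists_mem_val_eq hl hlA hyloc hy0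
  exact ⟨y', h1, h2, h3.trans hyv⟩

end FermatAgent.LT.ClassField
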