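import Fermat.Agent.LT.ClassField.Residual

/-!
# The character on ideals attached to a quartic character
-/

set_option autoImplicit false

noncomputable section

open NumberField IsDedekindDomain UniqueFactorizationMonoid

namespace FermatAgent.LT.ClassField

open FermatAgent.Duality.Global (Over exists_over exists_place ord finite_setOf_ord_ne_zero)

local notation "Qb" => AlgebraicClosure ℚ

attribute [local instance] FermatAgent.RT.isGalois_algClosureRat
  FermatAgent.Duality.Global.numberField_of_finite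

/-- The powers of `i`. -/
def unitPow : Multiplicative (ZMod 4) →* ℂ where
  toFun a := Complex.I ^ a.toAdd.val
  map_one' := by simp
  map_mul' a b := by
    rw [toAdd_mul, ← pow_add, ZMod.val_add]
    exact (pow_eq_pow_mod _ Complex.I_pow_four).symm

theorem unitPow_ofAdd (a : ZMod 4) : unitPow (Multiplicative.ofAdd a) = Complex.I ^ a.val := rfl

theorem unitPow_two : unitPow (Multiplicative.ofAdd 2) = -1 := by
  rw [unitPow_ofAdd]
  exact Complex.I_sq

theorem unitPow_neg_mul (a : ZMod 4) :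
    unitPow (Multiplicative.ofAdd a) * unitPow (Multiplicative.ofAdd (-a)) = 1 := by
  rw [← map_mul, ← ofAdd_add, add_neg_cancel, ofAdd_zero, map_one]

/-- The signs. -/
def signPow : Multiplicative (ZMod 2) →* ℂ where
  toFun a := (-1) ^ a.toAdd.val
  map_one' := by simp
  map_mul' a b := by
    rw [toAdd_mul, ← pow_add, ZMod.val_add]
    exact (pow_eq_pow_mod _ neg_one_sq).symm

section Eval

variable {L : IntermediateField ℚ Qb} [NumberField L] {B : Type} [AddCommGroup B]

/-- A multiplicative function on ideals, evaluated at a principal ideal. -/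
theorem eval_span {φ : Ideal (𝓞 L) →* ℂ} {b : HeightOneSpectrum (𝓞 L) → B}
    {ψ : Multiplicative B →* ℂ} {a : 𝓞 L} (ha : a ≠ 0) (x : Lˣ)
    (hx : algebraMap (𝓞 L) L a = x)
    (hb : ∀ P : HeightOneSpectrum (𝓞 L), a ∈ P.asIdeal →
      φ P.asIdeal = ψ (Multiplicative.ofAdd (b P))) :
    φ (Ideal.span {a}) = ψ (Multiplicative.ofAdd (∑ᶠ P, ord P x • b P)) := by
  classical
  set s := (finite_setOf_ord_ne_zero x).toFinset
  have hs : ∀ P, P ∉ s → ord P x = 0 := fun P hP => by simpa [s] using hP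
  rw [finsum_eq_sum_of_support_subset _ (s := s) (fun P hP => by
    by_contra h
    exact hP (show ord P x • b P = 0 by rw [hs P (by simpa using h), zero_smul]))]
  set nf := normalizedFactors (Ideal.span {a})
  have hne : Ideal.span {a} ≠ 0 := by simpa using ha
  have hprod : φ (Ideal.span {a}) = ∏ P ∈ s, φ P.asIdeal ^ nf.count P.asIdeal := by
    conv_lhs => rw [← Ideal.prod_normalizedFactors_eq_self hne]
    rw [Finset.prod_multiset_count, map_prod]
    simp only [map_pow]
    rw [← Finset.prod_image (f := fun I => φ I ^ nf.count I) (g := fun P => P.asIdeal)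
      (fun _ _ _ _ h => HeightOneSpectrum.ext h)]
    refine Finset.prod_subset (fun I hI => ?_) fun I _ hI => ?_
    · have hI' := Multiset.mem_toFinset.1 hI
      have hprime := prime_of_normalized_factor I hI'
      refine Finset.mem_image.2 ⟨⟨I, Ideal.isPrime_of_prime hprime, hprime.ne_zero⟩, ?_, rfl⟩
      refine (Set.Finite.mem_toFinset _).2 ?_
      show ord _ x ≠ 0
      rw [Duality.Global.ord_algebraMap _ a x hx.symm]
      exact Int.natCast_ne_zero.2 (Multiset.count_ne_zero.2 hI')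
    · rw [Multiset.count_eq_zero.2 (fun h => hI (Multiset.mem_toFinset.2 h)), pow_zero]
  rw [hprod, ofAdd_sum, map_prod]
  refine Finset.prod_congr rfl fun P _ => ?_
  rw [Duality.Global.ord_algebraMap _ a x hx.symm, natCast_zsmul, ofAdd_nsmul, map_pow]
  by_cases h : nf.count P.asIdeal = 0
  · rw [show (normalizedFactors (Ideal.span {a})).count P.asIdeal = 0 from h, pow_zero, pow_zero]
  · have hmem := Multiset.count_ne_zero.1 h
    rw [hb P (Ideal.dvd_span_singleton.1 (dvd_of_mem_normalizedFactors hmem))]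

end Eval

namespace QuarticChar

variable (C : QuarticChar)

/-- The value at one ideal, meaningful at primes. -/
def xiPrime (I : Ideal (𝓞 C.M)) : ℂ :=
  open scoped Classical in
  if h : I.IsPrime ∧ I ≠ ⊥ then unitPow (Multiplicative.ofAdd (C.frobVal ⟨I, h.1, h.2⟩)) else 1

theorem sup_three_mul (I J : Ideal (𝓞 C.M)) : I * J ⊔ Ideal.span {(3 : 𝓞 C.M)} = ⊤ ↔
    I ⊔ Ideal.span {(3 : 𝓞 C.M)} = ⊤ ∧ J ⊔ Ideal.span {(3 : 𝓞 C.M)} = ⊤ := by
  simp only [← Ideal.isCoprime_iff_sup_eq]
  exact IsCoprime.mul_left_iff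

theorem ne_bot_of_sup_three {I : Ideal (𝓞 C.M)} (h : I ⊔ Ideal.span {(3 : 𝓞 C.M)} = ⊤) : I ≠ ⊥ := by
  rintro rfl
  rw [bot_sup_eq, Ideal.span_singleton_eq_top] at h
  obtain ⟨A, hA⟩ := FermatAgent.RT.exists_liesOverPrime (show (3 : ℕ).Prime by norm_num)
  obtain ⟨P, hP⟩ := exists_over (K := C.M) (A := A) ⟨3, by norm_num, hA⟩
  exact P.isPrime.ne_top (Ideal.eq_top_of_isUnit_mem _ (by simpa using hP.natCast_mem hA) h)

/-- The character on ideals: zero at those not prime to `3`. -/
def xi : Ideal (𝓞 C.M) →*₀ ℂ where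
  toFun I := open scoped Classical in
    if I ⊔ Ideal.span {(3 : 𝓞 C.M)} = ⊤ then ((normalizedFactors I).map C.xiPrime).prod else 0
  map_zero' := if_neg fun h => C.ne_bot_of_sup_three h rfl
  map_one' := by
    rw [if_pos (by simp), normalizedFactors_one]
    simp
  map_mul' I J := by
    by_cases h : I * J ⊔ Ideal.span {(3 : 𝓞 C.M)} = ⊤
    · obtain ⟨hI, hJ⟩ := (C.sup_three_mul I J).1 h
      rw [if_pos h, if_pos hI, if_pos hJ,
        normalizedFactors_mul (C.ne_bot_of_sup_three hI) (C.ne_bot_of_sup_three hJ),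
        Multiset.map_add, Multiset.prod_add]
    · rw [if_neg h]
      by_cases hI : I ⊔ Ideal.span {(3 : 𝓞 C.M)} = ⊤
      · rw [if_neg fun hJ => h ((C.sup_three_mul I J).2 ⟨hI, hJ⟩), mul_zero]
      · rw [if_neg hI, zero_mul]

theorem xi_eq_zero (I : Ideal (𝓞 C.M)) : C.xi I = 0 ↔ I ⊔ Ideal.span {(3 : 𝓞 C.M)} ≠ ⊤ := by
  classical
  show (if I ⊔ Ideal.span {(3 : 𝓞 C.M)} = ⊤ then _ else (0 : ℂ)) = 0 ↔ _
  split_ifs with h
  · refine ⟨fun h0 => ?_, fun hn => absurd h hn⟩
    obtain ⟨J, -, hJ0⟩ := Multiset.mem_map.1 (Multiset.prod_eq_zero_iff.1 h0)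
    simp only [xiPrime] at hJ0
    split_ifs at hJ0
    · exact absurd hJ0 (pow_ne_zero _ Complex.I_ne_zero)
    · exact absurd hJ0 one_ne_zero
  · exact ⟨fun _ => h, fun _ => rfl⟩

theorem sup_three_iff {P : HeightOneSpectrum (𝓞 C.M)} :
    P.asIdeal ⊔ Ideal.span {(3 : 𝓞 C.M)} = ⊤ ↔ (3 : 𝓞 C.M) ∉ P.asIdeal := by
  refine ⟨fun h h3 => P.isPrime.ne_top (top_unique ?_), fun h =>
    P.isMaximal.1.2 _ (left_lt_sup.2 fun hle => h ((Ideal.span_singleton_le_iff_mem _).1 hle))⟩
  rw [← h]
  exact sup_le le_rfl ((Ideal.span_singleton_le_iff_mem _).2 h3)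

theorem xi_prime {P : HeightOneSpectrum (𝓞 C.M)} (h3 : (3 : 𝓞 C.M) ∉ P.asIdeal) :
    C.xi P.asIdeal = unitPow (Multiplicative.ofAdd (C.frobVal P)) := by
  classical
  show (if P.asIdeal ⊔ Ideal.span {(3 : 𝓞 C.M)} = ⊤ then _ else (0 : ℂ)) = _
  rw [if_pos (C.sup_three_iff.2 h3), normalizedFactors_irreducible P.irreducible,
    normalize_eq, Multiset.map_singleton, Multiset.prod_singleton, xiPrime,
    dif_pos ⟨P.isPrime, P.ne_bot⟩]

/-- The value at a principal ideal prime to `3`. -/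
theorem xi_span {a : 𝓞 C.M} (ha : a ≠ 0)
    (h3 : ∀ P : HeightOneSpectrum (𝓞 C.M), (3 : 𝓞 C.M) ∈ P.asIdeal → a ∉ P.asIdeal) (x : C.Mˣ)
    (hx : algebraMap (𝓞 C.M) C.M a = x) :
    C.xi (Ideal.span {a}) = unitPow (Multiplicative.ofAdd (C.artin x)) := by
  exact eval_span (φ := C.xi.toMonoidHom) ha x hx fun P hP => C.xi_prime fun h => h3 P h hP

end QuarticChar

end FermatAgent.LT.ClassField
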