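import Fermat.Agent.LT.ClassField.ResidueChar
import Fermat.Agent.LT.Dihedral.Data

/-!
# The class field theoretic input of the dihedral form
-/

set_option autoImplicit false

noncomputable section

open NumberField IsDedekindDomain

namespace FermatAgent.LT.Setup

open FermatAgent.Duality.Global (Over exists_over exists_place)
open FermatAgent.LT.ClassField

local notation "Qb" => AlgebraicClosure ℚ
local notation "GQ" => AlgebraicClosure ℚ ≃ₐ[ℚ] AlgebraicClosure ℚ

attribute [local instance] FermatAgent.RT.isGalois_algClosureRat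

variable {S : Setup}

theorem sigmaO_algebraMap {g : GQ} (hg : g ∈ S.F.fixingSubgroup) (I : Ideal (𝓞 S.F)) :
    (I.map (algebraMap (𝓞 S.F) (𝓞 S.M))).map (S.sigmaO hg) =
      I.map (algebraMap (𝓞 S.F) (𝓞 S.M)) := by
  rw [Ideal.map_map, show (S.sigmaO hg).comp (algebraMap (𝓞 S.F) (𝓞 S.M)) =
    algebraMap (𝓞 S.F) (𝓞 S.M) from RingHom.ext fun x =>
      RingOfIntegers.coe_injective ((S.galM g hg).commutes (x : S.F))]

/-- Conjugation inverts the character. -/
theorem xiM_conj {g : GQ} (hg : g ∈ S.F.fixingSubgroup) (hgM : g ∉ S.M.fixingSubgroup)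
    (J : Ideal (𝓞 S.M)) (hJ : J ⊔ Ideal.span {(3 : 𝓞 S.M)} = ⊤) :
    S.xiM J * S.xiM (J.map (S.sigmaO hg)) = 1 := by
  induction J using UniqueFactorizationMonoid.induction_on_prime with
  | h₁ => exact absurd rfl (S.quartic.ne_bot_of_sup_three hJ)
  | h₂ x hx =>
    obtain rfl : x = 1 := by simpa using Ideal.isUnit_iff.mp hx
    rw [Ideal.one_eq_top, Ideal.map_top, ← Ideal.one_eq_top, map_one, one_mul]
  | h₃ J p hJ0 hp ih =>
    obtain ⟨hp3, hJ3⟩ := (S.quartic.sup_three_mul p J).1 hJ
    let Q : HeightOneSpectrum (𝓞 S.M) := ⟨p, Ideal.isPrime_of_prime hp, hp.ne_zero⟩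
    have hQ3 : (3 : 𝓞 S.M) ∉ Q.asIdeal := (S.quartic.sup_three_iff (P := Q)).1 hp3
    obtain ⟨h3', -, hneg⟩ := S.conjPrime_frobVal hg hgM hQ3
    have h := ih hJ3
    rw [Ideal.map_mul, map_mul, map_mul, mul_mul_mul_comm, h, mul_one,
      show S.xiM p = S.xiM Q.asIdeal from rfl,
      show S.xiM (p.map (S.sigmaO hg)) = S.xiM (S.conjPrime hg hgM Q).asIdeal from rfl,
      S.xiM_prime hQ3, S.xiM_prime h3', hneg, unitPow_neg_mul]

/-- The fibre of the relative norm over a split prime. -/
theorem fibre_split {g : GQ} (hg : g ∈ S.F.fixingSubgroup) (hgM : g ∉ S.M.fixingSubgroup)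
    {Q : HeightOneSpectrum (𝓞 S.M)} {J : Ideal (𝓞 S.M)}
    (h : J * J.map (S.sigmaO hg) = Q.asIdeal * (S.conjPrime hg hgM Q).asIdeal) :
    J = Q.asIdeal ∨ J = (S.conjPrime hg hgM Q).asIdeal := by
  have key : ∀ K : Ideal (𝓞 S.M), K * K.map (S.sigmaO hg) =
      Q.asIdeal * (S.conjPrime hg hgM Q).asIdeal → Q.asIdeal ∣ K → K = Q.asIdeal := by
    rintro K hK ⟨K', rfl⟩
    rw [Ideal.map_mul, mul_mul_mul_comm] at hK
    have hne : Q.asIdeal * (S.conjPrime hg hgM Q).asIdeal ≠ 0 :=
      mul_ne_zero Q.ne_bot (S.conjPrime hg hgM Q).ne_bot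
    have h1 : K' * K'.map (S.sigmaO hg) = 1 :=
      mul_left_cancel₀ hne (hK.trans (mul_one _).symm)
    rw [Ideal.one_eq_top] at h1
    have : K' = ⊤ := top_unique (h1 ▸ Ideal.mul_le_left)
    rw [this, Ideal.mul_top]
  have hdvd : Q.asIdeal ∣ J * J.map (S.sigmaO hg) := h ▸ dvd_mul_right _ _
  rcases (Q.prime.dvd_or_dvd hdvd) with hQ | hQ
  · exact Or.inl (key J h hQ)
  · right
    have h' : J.map (S.sigmaO hg) * (J.map (S.sigmaO hg)).map (S.sigmaO hg) =
        Q.asIdeal * (S.conjPrime hg hgM Q).asIdeal := by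
      rw [S.map_map_sigmaO hg hgM, mul_comm, h]
    have e := key _ h' hQ
    rw [← S.map_map_sigmaO hg hgM J, e]
    rfl

/-- The fibre of the relative norm over an inert prime is empty. -/
theorem fibre_inert {g : GQ} (hg : g ∈ S.F.fixingSubgroup) (hgM : g ∉ S.M.fixingSubgroup)
    {Q : HeightOneSpectrum (𝓞 S.M)} {J : Ideal (𝓞 S.M)}
    (h : J * J.map (S.sigmaO hg) = Q.asIdeal) : False := by
  refine Q.isPrime.ne_top ?_
  rcases Q.irreducible.isUnit_or_isUnit h.symm with hu | hu
  · rw [← h, Ideal.isUnit_iff.1 hu, Ideal.map_top, Ideal.mul_top]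
  · have hJ := Ideal.isUnit_iff.1 hu
    rw [← h, ← S.map_map_sigmaO hg hgM J, hJ, Ideal.map_top, Ideal.map_top, Ideal.mul_top]

end FermatAgent.LT.Setup

namespace FermatAgent.LT.Dihedral

open FermatAgent.Duality.Global (Over exists_over exists_place)
open FermatAgent.LT.ClassField

local notation "GQ" => AlgebraicClosure ℚ ≃ₐ[ℚ] AlgebraicClosure ℚ

attribute [local instance] FermatAgent.RT.isGalois_algClosureRat

theorem hasDihedralData (S : Setup) : HasDihedralData S := by
  classical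
  obtain ⟨Pl⟩ := S.exists_places
  obtain ⟨g, hg, hgM⟩ := S.exists_gal
  obtain ⟨J, hJ3, hdiff⟩ :=
    S.exists_different_eq Pl.w Pl.P Pl.w_injective Pl.three_eq Pl.inert Pl.ramified
  have hnotw : ∀ q : HeightOneSpectrum (𝓞 S.F), (∀ i, q ≠ Pl.w i) → (3 : 𝓞 S.F) ∉ q.asIdeal :=
    fun q hq h => by
      obtain ⟨i, hi⟩ := Pl.cover q h
      exact hq i hi
  let D : DihedralData S.F :=
    { M := S.M
      finrank_eq := S.finrank_F_M
      totallyComplex := fun v => S.instIsTotallyComplexF.isComplex v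
      σ := S.galM g hg
      σ_ne := S.galM_ne_one hg hgM
      w := Pl.w
      w_injective := Pl.w_injective
      three_eq := Pl.three_eq
      absNorm_w := Pl.absNorm_w
      P := Pl.P
      map_inert := Pl.inert
      unramified := fun q hq => S.map_isRadical q (hnotw q hq)
      map_ramified := Pl.ramified
      D' := J ^ 2
      D'_coprime := hJ3
      different_eq := hdiff
      ξ := S.xiM
      ξ_eq_zero := S.xiM_eq_zero
      ξ_conj := fun I hI => S.xiM_conj hg hgM I hI
      ξ_base := fun q hq => by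
        obtain ⟨A, hA⟩ := exists_place q
        obtain ⟨τ, hτ, -, -, hτA⟩ := exists_frobenius_over S.F hA
        obtain ⟨Q, hQ3, hcase⟩ := S.splitting hg hgM (hnotw q hq) hA hτ hτA
        rcases hcase with ⟨hmap, -, hval⟩ | ⟨-, hmap, -⟩
        · rw [hmap]
          refine ⟨fun _ => ?_, fun h => absurd Q.isPrime h⟩
          rw [S.xiM_prime hQ3, hval, unitPow_two]
        · obtain ⟨h3', -, hneg⟩ := S.conjPrime_frobVal hg hgM hQ3
          rw [hmap]
          refine ⟨fun h => ?_, fun _ => ?_⟩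
          · exfalso
            rcases (h.mul_le.1 le_rfl) with hle | hle
            · have e := le_antisymm hle Ideal.mul_le_left
              refine (S.conjPrime hg hgM Q).isPrime.ne_top ?_
              rw [← Ideal.one_eq_top]
              exact mul_left_cancel₀ Q.ne_bot (e.symm.trans (mul_one _).symm)
            · have e := le_antisymm hle Ideal.mul_le_right
              refine Q.isPrime.ne_top ?_
              rw [← Ideal.one_eq_top]
              exact mul_right_cancel₀ (S.conjPrime hg hgM Q).ne_bot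
                (e.symm.trans (one_mul _).symm)
          · rw [map_mul, S.xiM_prime hQ3, S.xiM_prime h3', hneg, unitPow_neg_mul]
      ξ_D' := by
        have h1 : J ⊔ Ideal.span {(3 : 𝓞 S.F)} = ⊤ :=
          top_unique (hJ3 ▸ sup_le_sup_right (Ideal.pow_le_self two_ne_zero) _)
        have h2 : J.map (algebraMap (𝓞 S.F) (𝓞 S.M)) ⊔ Ideal.span {(3 : 𝓞 S.M)} = ⊤ := by
          have h := congrArg (Ideal.map (algebraMap (𝓞 S.F) (𝓞 S.M))) h1
          rwa [Ideal.map_sup, Ideal.map_span, Set.image_singleton, map_ofNat, Ideal.map_top] at h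
        have h3 := S.xiM_conj hg hgM _ h2
        rw [S.sigmaO_algebraMap hg] at h3
        rw [Ideal.map_pow, map_pow, pow_two]
        exact h3
      χ := Pl.chi
      χ_ne_one := fun i h => by
        by_cases hi : i = 0
        · subst hi
          exact Pl.chi_zero_sq (by rw [h, one_pow])
        · have := Pl.chi_neg_one hi
          rw [h, MulChar.one_apply ((isUnit_one.neg).map (Ideal.Quotient.mk (Pl.P i).asIdeal))] at this
          norm_num at this
      χ_zero_sq := Pl.chi_zero_sq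
      χ_zero_base := fun x hx => by
        have hneg1 : Pl.chi 0 (Ideal.Quotient.mk _ (-1)) = 1 := by
          have h := Pl.xi_principal (x := -1) fun i h => Pl.one_notMem i (by simpa using h)
          rw [Ideal.span_singleton_neg, Ideal.span_singleton_one, ← Ideal.one_eq_top, map_one,
            Fin.prod_univ_three, Pl.chi_neg_one (i := 1) (by decide),
            Pl.chi_neg_one (i := 2) (by decide)] at h
          simpa using h.symm
        have h3 := CFT.pow_absNorm_sub_self_mem (Pl.w 0) x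
        rw [Pl.absNorm_w, show x ^ 3 - x = x * ((x - 1) * (x + 1)) by ring] at h3
        have hι : ∀ b ∈ (Pl.w 0).asIdeal, algebraMap (𝓞 S.F) (𝓞 S.M) b ∈ (Pl.P 0).asIdeal :=
          fun b hb => Pl.map_w_le 0 (Ideal.mem_map_of_mem _ hb)
        rcases (Pl.w 0).isPrime.mem_or_mem (((Pl.w 0).isPrime.mem_or_mem h3).resolve_left hx) with
          h | h
        · have h' := hι _ h
          rw [map_sub, map_one, ← Ideal.Quotient.eq, map_one] at h'
          rw [h', map_one]
        · have h' := hι _ h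
          rw [map_add, map_one, ← sub_neg_eq_add, ← Ideal.Quotient.eq] at h'
          rw [h', hneg1]
      ξ_principal := fun x hx => Pl.xi_principal hx }
  refine ⟨D, fun v hv => S.absNorm_eq_comap v hv, fun v hv σ hσ => ?_⟩
  obtain ⟨hσF, A, hA, hσA⟩ := hσ
  have h3 : (3 : 𝓞 S.F) ∉ v.asIdeal := fun h => hv (by
    rw [Nat.cast_mul, Nat.cast_ofNat]
    exact v.asIdeal.mul_mem_right _ h)
  obtain ⟨Q, hQ3, hcase⟩ := S.splitting hg hgM h3 (Setup.over_of_nonunits hA) hσF hσA
  rcases hcase with ⟨hmap, hσM, -⟩ | ⟨hne, hmap, hσM, hval⟩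
  · have hempty : ∀ I : Ideal (𝓞 S.M), I * I.map (S.sigmaO hg) ≠
        v.asIdeal.map (algebraMap (𝓞 S.F) (𝓞 S.M)) := fun I hI =>
      S.fibre_inert hg hgM (hI.trans hmap)
    have hzero : D.coeff v.asIdeal = 0 := by
      unfold DihedralData.coeff
      exact finsum_eq_zero_of_forall_eq_zero fun I => absurd I.2 (hempty I.1)
    rw [hzero]
    obtain ⟨-, h2, h3'⟩ := S.anticomm hσF hσM
    have h1 : S.ρ σ ≠ 1 := fun e => h3' (by rw [e, one_mul, mul_one])
    have hm1 : S.ρ σ ≠ -1 := fun e => h3' (by rw [e, neg_mul, mul_neg, one_mul, mul_one])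
    simp [q8Trace, h1, hm1]
  · obtain ⟨h3', -, hneg⟩ := S.conjPrime_frobVal hg hgM hQ3
    set Q' := S.conjPrime hg hgM Q
    have hQmem : Q.asIdeal * Q.asIdeal.map (S.sigmaO hg) =
        v.asIdeal.map (algebraMap (𝓞 S.F) (𝓞 S.M)) := hmap.symm
    have hQ'mem : Q'.asIdeal * Q'.asIdeal.map (S.sigmaO hg) =
        v.asIdeal.map (algebraMap (𝓞 S.F) (𝓞 S.M)) := by
      rw [show Q'.asIdeal.map (S.sigmaO hg) = Q.asIdeal from S.map_map_sigmaO hg hgM _, mul_comm]
      exact hQmem
    let a : {I : Ideal (𝓞 S.M) // I * I.map (S.sigmaO hg) =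
        v.asIdeal.map (algebraMap (𝓞 S.F) (𝓞 S.M))} := ⟨Q.asIdeal, hQmem⟩
    let b : {I : Ideal (𝓞 S.M) // I * I.map (S.sigmaO hg) =
        v.asIdeal.map (algebraMap (𝓞 S.F) (𝓞 S.M))} := ⟨Q'.asIdeal, hQ'mem⟩
    have hab : a ≠ b := fun e => hne (HeightOneSpectrum.ext (congrArg Subtype.val e).symm)
    have hsum : ∑ᶠ I : {I : Ideal (𝓞 S.M) // I * I.map (S.sigmaO hg) =
        v.asIdeal.map (algebraMap (𝓞 S.F) (𝓞 S.M))}, S.xiM I = S.xiM a + S.xiM b := by
      rw [finsum_eq_sum_of_support_subset _ (s := {a, b}) fun I _ => ?_, Finset.sum_pair hab]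
      rcases S.fibre_split hg hgM (I.2.trans hmap) with e | e
      · simp [show I = a from Subtype.ext e]
      · simp [show I = b from Subtype.ext e]
    have hcoeff : D.coeff v.asIdeal = S.xiM Q.asIdeal + S.xiM Q'.asIdeal := hsum
    rw [hcoeff, S.xiM_prime hQ3, S.xiM_prime h3', hneg, hval, S.q8Trace_eq ⟨σ, hσM⟩]
    rfl

end FermatAgent.LT.Dihedral
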