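import Fermat.Agent.LT.ClassField.Crossing

/-!
# Norms from the field cut out by a finite abelian character

At an unramified prime the order of a norm is a multiple of the order of the Frobenius value; and
two approximation lemmas.
-/

set_option autoImplicit false

noncomputable section

open NumberField IsDedekindDomain Finset
open scoped Pointwise

namespace FermatAgent.LT.ClassField

open FermatAgent.Duality.Global (Over IsPlace exists_over exists_place ord valuation_eq_exp)

local notation "Qb" => AlgebraicClosure ℚ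
local notation "GQ" => AlgebraicClosure ℚ ≃ₐ[ℚ] AlgebraicClosure ℚ

attribute [local instance] FermatAgent.RT.isGalois_algClosureRat
  FermatAgent.Duality.Global.numberField_of_finite

section Norm

variable {M : IntermediateField ℚ Qb} [NumberField M] {Q : Type} [CommGroup Q] [Finite Q]
  (f : M.fixingSubgroup →* Q)

local instance : Fintype f.range := Fintype.ofFinite _

/-- A lift of a value. -/
def lift (q : f.range) : M.fixingSubgroup := q.2.choose

omit [NumberField M] [Finite Q] in
theorem apply_lift (q : f.range) : f (lift f q) = q := q.2.choose_spec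

/-- The norm from the field of the kernel. -/
def normOf (z : Qb) : Qb := ∏ q : f.range, (lift f q : GQ) z

/-- The trace from the field of the kernel. -/
def trOf (z : Qb) : Qb := ∑ q : f.range, (lift f q : GQ) z

variable {f} {z : Qb} (hz : ∀ k : M.fixingSubgroup, f k = 1 → (k : GQ) z = z)

omit [NumberField M] [Finite Q] in
include hz in
theorem apply_lift_mul (g : M.fixingSubgroup) (q : f.range) :
    (g : GQ) ((lift f q : GQ) z) = (lift f (⟨f g, g, rfl⟩ * q) : GQ) z := by
  rw [← AlgEquiv.mul_apply, ← Subgroup.coe_mul]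
  exact apply_eq_of_hom_eq hz (by rw [map_mul, apply_lift, apply_lift, Subgroup.coe_mul])

omit [NumberField M] in
include hz in
theorem normOf_mem : normOf f z ∈ M := by
  suffices h : normOf f z ∈ IntermediateField.fixedField M.fixingSubgroup by
    exact (InfiniteGalois.fixedField_fixingSubgroup M).le h
  intro g
  show (g : GQ) (normOf f z) = normOf f z
  rw [normOf, map_prod]
  exact Fintype.prod_equiv (Equiv.mulLeft (⟨f g, g, rfl⟩ : f.range)) _ _ fun q => apply_lift_mul hz g q

omit [NumberField M] in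
include hz in
theorem trOf_mem : trOf f z ∈ M := by
  suffices h : trOf f z ∈ IntermediateField.fixedField M.fixingSubgroup by
    exact (InfiniteGalois.fixedField_fixingSubgroup M).le h
  intro g
  show (g : GQ) (trOf f z) = trOf f z
  rw [trOf, map_sum]
  exact Fintype.sum_equiv (Equiv.mulLeft (⟨f g, g, rfl⟩ : f.range)) _ _ fun q => apply_lift_mul hz g q

omit [NumberField M] in
theorem normOf_ne_zero (hz0 : z ≠ 0) : normOf f z ≠ 0 :=
  prod_ne_zero_iff.2 fun _ _ => (map_ne_zero _).2 hz0

variable
  (hlev : ∃ L : IntermediateField ℚ Qb, FiniteDimensional ℚ L ∧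
    ∀ h : M.fixingSubgroup, (h : GQ) ∈ L.fixingSubgroup → f h = 1)
  {A : ValuationSubring Qb} {P : HeightOneSpectrum (𝓞 M)} (hA : Over M A P)
  (hun : ∀ i : M.fixingSubgroup, (i : GQ) ∈ A.inertiaSubgroupIn ℚ → f i = 1)
  {g : M.fixingSubgroup} (hg : A.IsFrobeniusAt (g : GQ) (Ideal.absNorm P.asIdeal))

include hlev hA hun hg hz in
/-- **The Frobenius value kills the order of a norm.** -/
theorem frob_zpow_ord_norm (hz0 : z ≠ 0) {y : Mˣ} (hy : ((y : M) : Qb) = normOf f z) :
    f g ^ ord P y = 1 := by
  classical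
  set γ : f.range := ⟨f g, g, rfl⟩
  set H := Subgroup.zpowers γ
  have hgd := (TW.isFrobeniusAt_iff.1 hg).1
  let F : f.range → A.ValueGroup := fun q => A.valuation ((lift f q : GQ) z)
  have hstep : ∀ q, F (γ * q) = F q := fun q => by
    show A.valuation _ = A.valuation _
    rw [← apply_lift_mul hz g q]
    exact Local.val_galois_eq hgd _
  have hconst : ∀ h ∈ H, ∀ q, F (h * q) = F q := fun h hh q => by
    rw [← mem_powers_iff_mem_zpowers, Submonoid.mem_powers_iff] at hh
    obtain ⟨k, rfl⟩ := hh
    induction k with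
    | zero => rw [pow_zero, one_mul]
    | succ k ih => rw [pow_succ', mul_assoc, hstep, ih]
  let e : f.range ≃ (f.range ⧸ H) × H := Subgroup.groupEquivQuotientProdSubgroup
  set q' : Qb := ∏ c : f.range ⧸ H, (lift f c.out : GQ) z
  have hq'0 : q' ≠ 0 := prod_ne_zero_iff.2 fun _ _ => (map_ne_zero _).2 hz0
  obtain ⟨y', hy'M, hy'0, hy'v⟩ := exists_val_eq f hlev hun hA hg hq'0 fun k hk => by
    rw [map_prod]
    exact prod_congr rfl fun c _ => fixed_apply hz _ k hk
  let yu : Mˣ := Units.mk0 ⟨y', hy'M⟩ fun h => hy'0 (congrArg Subtype.val h)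
  have hval : A.valuation ((y : M) : Qb) = A.valuation (((yu ^ Nat.card H : Mˣ) : M) : Qb) := by
    rw [Units.val_pow_eq_pow_val, SubmonoidClass.coe_pow, map_pow]
    show _ = A.valuation y' ^ _
    rw [hy'v, hy, normOf, map_prod, map_prod, ← prod_pow]
    show ∏ q, F q = ∏ c : f.range ⧸ H, F c.out ^ Nat.card H
    calc ∏ q, F q = ∏ q, F (QuotientGroup.mk q : f.range ⧸ H).out := prod_congr rfl fun q _ => by
          obtain ⟨h, hh⟩ := QuotientGroup.mk_out_eq_mul H q
          rw [hh, mul_comm, hconst _ h.2]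
      _ = ∏ x : (f.range ⧸ H) × H, F x.1.out := Fintype.prod_equiv e _ _ fun q => by
          rfl
      _ = ∏ c : f.range ⧸ H, F c.out ^ Nat.card H := by
          rw [Fintype.prod_prod_type]
          simp [Nat.card_eq_fintype_card]
  have hord := (hA.val_eq_iff _ _).1 hval
  rw [Duality.Global.ord_pow] at hord
  have h1 : γ ^ Nat.card H = 1 := by
    rw [Nat.card_zpowers]
    exact pow_orderOf_eq_one γ
  have h2 : f g ^ Nat.card H = 1 := congrArg Subtype.val h1
  rw [hord, zpow_mul, zpow_natCast, h2, one_zpow]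

end Norm

/-- The product of `1 + tᵢ` is `1 + ∑ tᵢ` up to the square of the size. -/
theorem val_prod_one_add_le {A : ValuationSubring Qb} {ι : Type*} (s : Finset ι) (t : ι → Qb)
    {c : A.ValueGroup} (hc : c ≤ 1) (ht : ∀ i ∈ s, A.valuation (t i) ≤ c) :
    A.valuation (∏ i ∈ s, (1 + t i) - 1 - ∑ i ∈ s, t i) ≤ c ^ 2 := by
  classical
  induction s using Finset.induction with
  | empty => simp
  | insert j s hj ih =>
    have hs : ∀ i ∈ s, A.valuation (t i) ≤ c := fun i hi => ht i (mem_insert_of_mem hi)
    have h0 := ih hs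
    have hj' := ht j (mem_insert_self j s)
    rw [prod_insert hj, sum_insert hj,
      show (1 + t j) * ∏ i ∈ s, (1 + t i) - 1 - (t j + ∑ i ∈ s, t i) =
        (∏ i ∈ s, (1 + t i) - 1 - ∑ i ∈ s, t i) +
        t j * ((∏ i ∈ s, (1 + t i) - 1 - ∑ i ∈ s, t i) + ∑ i ∈ s, t i) by ring]
    refine A.valuation.map_add_le h0 ?_
    rw [map_mul, sq]
    exact mul_le_mul' hj' (A.valuation.map_add_le (h0.trans (pow_le_of_le_one zero_le hc two_ne_zero))
      (A.valuation.map_sum_le fun i hi => hs i hi))

/-- An element of the integers close to prescribed integral elements at finitely many primes. -/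
theorem exists_approx {E : IntermediateField ℚ Qb} [NumberField E]
    (T : Finset (HeightOneSpectrum (𝓞 E))) (c : HeightOneSpectrum (𝓞 E) → 𝓞 E) {N : ℕ}
    (hN : N ≠ 0) :
    ∃ y : 𝓞 E, ∀ P ∈ T, ∀ A, Over E A P →
      A.valuation (((y : E) : Qb) - ((c P : E) : Qb)) < A.valuation (N : Qb) := by
  classical
  let Nu : Eˣ := Units.mk0 (N : E) (Nat.cast_ne_zero.2 hN)
  obtain ⟨y, hy⟩ := IsDedekindDomain.exists_forall_sub_mem_ideal (s := T)
    (fun P => P.asIdeal) (fun P => (ord P Nu).natAbs + 1) (fun P _ => P.prime)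
    (fun P _ Q _ h hPQ => h (HeightOneSpectrum.ext hPQ)) (fun P => c P.1)
  refine ⟨y, fun P hP A hA => ?_⟩
  have hmem := hy P hP
  set d := y - c P
  rw [show ((y : E) : Qb) - ((c P : E) : Qb) = ((d : E) : Qb) by simp [d]]
  have hNu : (((Nu : Eˣ) : E) : Qb) = (N : Qb) := map_natCast (algebraMap E Qb) N
  by_cases hd : d = 0
  · rw [show ((d : E) : Qb) = 0 by rw [hd]; simp, map_zero]
    exact zero_lt_iff.2 ((map_ne_zero _).2 (Nat.cast_ne_zero.2 hN))
  let d' : Eˣ := Units.mk0 (algebraMap (𝓞 E) E d) (by simpa using hd)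
  by_contra hle
  have h1 := (hA.val_le_iff Nu d').1 (by rw [hNu]; exact not_lt.1 hle)
  have h2 : (((ord P Nu).natAbs + 1 : ℕ) : ℤ) ≤ ord P d' := by
    have h3 := (P.intValuation_le_pow_iff_mem d _).mpr hmem
    have h4 := valuation_eq_exp P d'
    rw [Units.val_mk0, P.valuation_of_algebraMap] at h4
    rw [h4, WithZero.exp_le_exp] at h3
    omega
  omega

end FermatAgent.LT.ClassField
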