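import Mathlib

/-!
# Periods of a closed one-form on the lattice of exponents

The algebra behind reciprocity between two crossed cyclic extensions.
-/

set_option autoImplicit false

namespace FermatAgent.LT.ClassField

open Finset

variable {Γ : Type*} [CommMonoid Γ] (Z W : ℕ → ℕ → Γ)

/-- The potential. -/
def pot (i j : ℕ) : Γ := (∏ k ∈ range i, Z k 0) * ∏ k ∈ range j, W i k

theorem pot_zero_zero : pot Z W 0 0 = 1 := by simp [pot]

theorem pot_succ_right (i j : ℕ) : pot Z W i (j + 1) = pot Z W i j * W i j := by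
  rw [pot, pot, prod_range_succ, mul_assoc]

variable {Z W} (hc : ∀ i j, W i j * Z i (j + 1) = Z i j * W (i + 1) j)
include hc

theorem pot_succ_left (i j : ℕ) : pot Z W (i + 1) j = pot Z W i j * Z i j := by
  have h : (∏ k ∈ range j, W i k) * Z i j = Z i 0 * ∏ k ∈ range j, W (i + 1) k := by
    induction j with
    | zero => simp
    | succ j ih =>
      rw [prod_range_succ, prod_range_succ, mul_assoc, hc, ← mul_assoc, ih, mul_assoc]
  rw [pot, pot, prod_range_succ, mul_assoc, ← h, mul_assoc]

theorem pot_add {a b : ℕ} (hZ : ∀ i j, Z (i + a) (j + b) = Z i j)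
    (hW : ∀ i j, W (i + a) (j + b) = W i j) (i j : ℕ) :
    pot Z W (i + a) (j + b) = pot Z W a b * pot Z W i j := by
  induction j with
  | zero =>
    induction i with
    | zero => simp [pot_zero_zero]
    | succ i ih =>
      rw [Nat.succ_add, pot_succ_left hc, ih, hZ, pot_succ_left hc, mul_assoc]
  | succ j ih => rw [Nat.succ_add, pot_succ_right, ih, hW, pot_succ_right, mul_assoc]

theorem pot_mul {a b : ℕ} (hZ : ∀ i j, Z (i + a) (j + b) = Z i j)
    (hW : ∀ i j, W (i + a) (j + b) = W i j) (k : ℕ) :
    pot Z W (k * a) (k * b) = pot Z W a b ^ k := by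
  induction k with
  | zero => simp [pot_zero_zero]
  | succ k ih => rw [add_mul, one_mul, add_mul, one_mul, pot_add hc hZ hW, ih, pow_succ']

/-- The period of a third lattice vector is tied to the two coordinate periods. -/
theorem pot_pow_eq {a b n m : ℕ} (hZ : ∀ i j, Z (i + a) (j + b) = Z i j)
    (hW : ∀ i j, W (i + a) (j + b) = W i j) (hZn : ∀ i j, Z (i + n) j = Z i j)
    (hWn : ∀ i j, W (i + n) j = W i j) (hZm : ∀ i j, Z i (j + m) = Z i j)
    (hWm : ∀ i j, W i (j + m) = W i j) :
    pot Z W a b ^ (n * m) =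
      (∏ k ∈ range n, Z k 0) ^ (m * a) * (∏ k ∈ range m, W 0 k) ^ (n * b) := by
  have hn : pot Z W n 0 = ∏ k ∈ range n, Z k 0 := by simp [pot]
  have hm : pot Z W 0 m = ∏ k ∈ range m, W 0 k := by simp [pot]
  have key : ∀ q r : ℕ, pot Z W (q * n) (r * m) = pot Z W 0 m ^ r * pot Z W n 0 ^ q := by
    intro q r
    induction r with
    | zero =>
      simpa using pot_mul hc (a := n) (b := 0) (fun i j => by simpa using hZn i j)
        (fun i j => by simpa using hWn i j) q
    | succ r ih =>
      rw [add_mul, one_mul]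
      have h := pot_add hc (a := 0) (b := m) (fun i j => by simpa using hZm i j)
        (fun i j => by simpa using hWm i j) (q * n) (r * m)
      rw [add_zero] at h
      rw [h, ih, ← mul_assoc, ← pow_succ']
  rw [← pot_mul hc hZ hW, show n * m * a = m * a * n by ring, show n * m * b = n * b * m by ring,
    key, hn, hm, mul_comm]

end FermatAgent.LT.ClassField
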