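import Fermat.Agent.Duality.Global.HasseNorm

/-!
# The Hasse norm theorem for a quadratic extension of a totally imaginary field

In the language of elements of `ℚ̄`: the extension is given by a square root `r`.
-/

set_option autoImplicit false

noncomputable section

open NumberField IsDedekindDomain

namespace FermatAgent.LT.ClassField

open FermatAgent.Duality (localGroup localField)
open FermatAgent.Duality.Global
open FermatAgent.Duality.Local (rootP rootP_pow)

local notation "Qb" => AlgebraicClosure ℚ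
local notation "GQ" => AlgebraicClosure ℚ ≃ₐ[ℚ] AlgebraicClosure ℚ

attribute [local instance] FermatAgent.RT.isGalois_algClosureRat
  FermatAgent.Duality.Global.numberField_of_finite

instance fact_prime_two' : Fact (Nat.Prime 2) := ⟨Nat.prime_two⟩

theorem containsMuP_two (E : IntermediateField ℚ Qb) : Duality.ContainsMuP 2 E := fun σ _ => by
  have h : ∀ u : (ZMod 2)ˣ, u = 1 := by decide
  exact h _

variable {E : IntermediateField ℚ Qb} [FiniteDimensional ℚ E]

theorem exists_quad_norm (hE : IsTotallyComplex E) {r : Qb} (hr0 : r ≠ 0) (hr2 : r ^ 2 ∈ E)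
    {s : GQ} (hs : s ∈ E.fixingSubgroup) (hsr : s r = -r) {x : Qb} (hxE : x ∈ E) (hx0 : x ≠ 0)
    (hloc : ∀ (A : ValuationSubring Qb) (l : ℕ), l.Prime → A.LiesOverPrime l →
      (∀ d ∈ localGroup E A, d r = r) ∨ (∃ y ∈ localField E A, y ^ 2 = x) ∨
        (l ≠ 2 ∧ A.valuation x = 1 ∧ A.valuation r = 1)) :
    ∃ z : Qb, (∀ g ∈ E.fixingSubgroup, g r = r → g z = z) ∧ z * s z = x := by
  have hμ := containsMuP_two E
  let a : Eˣ := Units.mk0 ⟨r ^ 2, hr2⟩ fun h => pow_ne_zero 2 hr0 (congrArg Subtype.val h)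
  let b : Eˣ := Units.mk0 ⟨x, hxE⟩ fun h => hx0 (congrArg Subtype.val h)
  set ρ := rootP 2 ((a : E) : Qb) with hρdef
  have hρ : ρ = r ∨ ρ = -r := sq_eq_sq_iff_eq_or_eq_neg.1 (rootP_pow _)
  have hmem : ∀ g : GQ, g ρ = ρ ↔ g r = r := fun g => by
    rcases hρ with e | e <;> rw [e]
    rw [map_neg, neg_inj]
  have hchi : ∀ (g : GQ) (hg : g ∈ E.fixingSubgroup),
      (chi hμ a).1 ⟨g, hg⟩ = 0 ↔ g r = r := fun g hg => by
    rw [← hmem]
    constructor
    · intro h
      have h1 : g ∈ (kummerExt 2 a).fixingSubgroup := (mem_fix_kummerExt hμ a).2 ⟨hg, h⟩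
      exact h1 ⟨ρ, rootP_mem a⟩
    · intro h
      refine Duality.Local.kapFun_eq_of (muGlobal hμ) (toFix a) (rootP_pow _) _ _ ?_
      rw [Duality.Local.zpw_zero, one_mul]
      exact h
  have hs1 : (chi hμ a).1 ⟨s, hs⟩ = 1 := by
    have h : (chi hμ a).1 ⟨s, hs⟩ ≠ 0 := fun h => hr0 (by
      have h2 := (hchi s hs).1 h
      rw [hsr, neg_eq_iff_add_eq_zero, ← two_mul] at h2
      exact (mul_eq_zero.1 h2).resolve_left two_ne_zero)
    revert h
    generalize (chi hμ a).1 ⟨s, hs⟩ = i
    revert i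
    decide
  choose pl hpl using exists_place (K := E)
  have hsym : ∀ P, sym hμ (pl P) b a = 0 := fun P => by
    obtain ⟨l, hl, hlA⟩ := (hpl P).1
    rcases hloc _ l hl hlA with h | ⟨y, hy, hy2⟩ | ⟨hl2, hvx, hvr⟩
    · have h0 : locF1 (pl P) (kappa hμ a) = 0 := by
        rw [← cl1_chi]
        exact Duality.Local.cl1_triv_eq_zero_iff.mpr
          (Subtype.ext (funext fun d => (hchi _ d.2.1).2 (h d d.2)))
      rw [sym, h0, map_zero]
    · have h0 : locF1 (pl P) (kappa hμ b) = 0 := by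
        have hy0 : y ≠ 0 := fun h => hx0 (by rw [← hy2, h, zero_pow two_ne_zero])
        rw [locF1_kappa, Duality.Local.kapHom_eq_zero_iff]
        exact ⟨⟨Units.mk0 y hy0, Duality.Local.mem_localField_iff.1 hy⟩,
          Subtype.ext (Units.ext hy2)⟩
      rw [sym, h0, map_zero, LinearMap.zero_apply]
    · refine sym_units_eq_zero hμ (hpl P) hl hlA hl2 ?_ ?_
      · rw [((hpl P).val_eq_one_iff b).1 hvx]; exact dvd_zero _
      · rw [((hpl P).val_eq_one_iff a).1 (by
          show (pl P).valuation (r ^ 2) = 1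
          rw [map_pow, hvr, one_pow])]
        exact dvd_zero _
  obtain ⟨z, hz⟩ := exists_norm_of_gsym hμ hs1
    (gsym_eq_zero_of_sym hμ pl hpl (Or.inr hE) b a hsym)
  refine ⟨((z : kummerExt 2 a) : Qb), fun g hg hgr => ?_, ?_⟩
  · exact ((mem_fix_kummerExt hμ a).2 ⟨hg, (hchi g hg).2 hgr⟩) ⟨_, (z : kummerExt 2 a).2⟩
  · have h := congrArg (fun u : Eˣ => ((u : E) : Qb)) hz
    simp only [coe_normU, Finset.prod_range_succ, Finset.prod_range_zero, one_mul] at h
    simpa [b] using h

end FermatAgent.LT.ClassField
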