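import Fermat.Agent.LT.ClassField.Tower
import Fermat.Agent.LT.ClassField.Basic
import Fermat.Agent.Duality.Global.Invariants

/-!
# The quadratic test

A quadratic character of a totally imaginary field unramified outside `3` and ramified at a prime
`P` over `3`: for a number which is a nonsquare unit at `P` and a square at the other bad places the
Frobenius values weighted by the orders sum to `1`.
-/

set_option autoImplicit false

noncomputable section

open NumberField IsDedekindDomain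

namespace FermatAgent.LT.ClassField

open FermatAgent.Duality (localGroup localField cl1_eq_zero_iff unramifiedH1 localDualityAt cupTriv
  localLevels subLevels triv)
open FermatAgent.Duality.Global

local notation "Qb" => AlgebraicClosure ℚ
local notation "GQ" => AlgebraicClosure ℚ ≃ₐ[ℚ] AlgebraicClosure ℚ

attribute [local instance] FermatAgent.RT.isGalois_algClosureRat
  FermatAgent.Duality.Global.numberField_of_finite

variable {E : IntermediateField ℚ Qb} [FiniteDimensional ℚ E]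

theorem unramified_of_two_dvd (hμ : Duality.ContainsMuP 2 E) {A : ValuationSubring Qb}
    {P : HeightOneSpectrum (𝓞 E)} (h : Over E A P) {l : ℕ} (hl : l.Prime)
    (hA : A.LiesOverPrime l) (hl2 : l ≠ 2) {z : Eˣ} (hz : (2 : ℤ) ∣ ord P z) :
    locF1 A (kappa hμ z) ∈ unramifiedH1 2 E A := by
  obtain ⟨k, hk⟩ := hz
  obtain ⟨π, hπ⟩ := exists_ord_eq_one P
  have := locF1_kappa_unit_mem_unramified hμ h hl hA hl2 (x := z / (π ^ k) ^ 2)
    (by rw [ord_div, ord_pow, ord_zpow, hπ, hk]; push_cast; ring)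
  rwa [div_eq_mul_inv, kappa_mul, kappa_inv, kappa_pow, ← Nat.cast_smul_eq_nsmul (ZMod 2),
    ZMod.natCast_self, zero_smul, neg_zero, add_zero] at this

/-- A unit failing Euler's criterion is not a local square. -/
theorem not_localSquare {A : ValuationSubring Qb} {P : HeightOneSpectrum (𝓞 E)} (h : Over E A P)
    {x : Qb} (hx : A.valuation x = 1) {n : ℕ} (hn : Ideal.absNorm P.asIdeal = 2 * n + 1)
    (hres : ¬ A.valuation (x ^ n - 1) < 1) :
    ¬ ∃ y ∈ localField E A, y ^ 2 = x := by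
  rintro ⟨y, hy, rfl⟩
  have hy1 : A.valuation y = 1 := by
    rw [map_pow] at hx
    exact (pow_eq_one_iff.1 hx).resolve_right two_ne_zero
  obtain ⟨g, hg, hgd, -, hgF⟩ := exists_frobenius_over E h
  refine hres ?_
  have h1 := (TW.isFrobeniusAt_iff.1 hgF).2 y ((A.valuation_le_one_iff _).1 hy1.le)
  rw [Duality.Local.mem_localField_iff.1 hy g ⟨hg, hgd⟩, hn, pow_succ, pow_mul,
    show y - (y ^ 2) ^ n * y = -(((y ^ 2) ^ n - 1) * y) by ring, Valuation.map_neg, map_mul, hy1,
    mul_one] at h1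
  exact h1

variable (φ : E.fixingSubgroup →* Multiplicative (ZMod 2))
  (hlev : ∃ L : IntermediateField ℚ Qb, FiniteDimensional ℚ L ∧
    ∀ h : E.fixingSubgroup, (h : GQ) ∈ L.fixingSubgroup → φ h = 1)
  (hun : ∀ l : ℕ, l.Prime → l ≠ 3 → ∀ A : ValuationSubring Qb, A.LiesOverPrime l →
    ∀ i : E.fixingSubgroup, (i : GQ) ∈ A.inertiaSubgroupIn ℚ → φ i = 1)

include hlev hun in
/-- **The quadratic test.** -/
theorem exists_odd_sum (hE : IsTotallyComplex E) {A₁ : ValuationSubring Qb}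
    {P₁ : HeightOneSpectrum (𝓞 E)} (hA₁ : A₁.LiesOverPrime 3) (hP₁ : Over E A₁ P₁)
    (hram : ∃ i : E.fixingSubgroup, (i : GQ) ∈ A₁.inertiaSubgroupIn ℚ ∧ φ i ≠ 1)
    (a : HeightOneSpectrum (𝓞 E) → ZMod 2)
    (ha : ∀ (P : HeightOneSpectrum (𝓞 E)) (A : ValuationSubring Qb) (g : E.fixingSubgroup),
      (3 : 𝓞 E) ∉ P.asIdeal → Over E A P →
        A.IsFrobeniusAt (g : GQ) (Ideal.absNorm P.asIdeal) → a P = (φ g).toAdd)
    {x : Eˣ} (hx1 : A₁.valuation ((x : E) : Qb) = 1)
    (hxns : ¬ ∃ y ∈ localField E A₁, y ^ 2 = ((x : E) : Qb))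
    (hxbad : ∀ (P : HeightOneSpectrum (𝓞 E)) (A : ValuationSubring Qb), Over E A P →
      A.LiesOverPrime 2 ∨ A.LiesOverPrime 3 → P ≠ P₁ →
      A.valuation ((x : E) : Qb) = 1 ∧ ∃ y ∈ localField E A, y ^ 2 = ((x : E) : Qb)) :
    ∑ᶠ P, ord P x • a P = 1 := by
  classical
  obtain ⟨r, hr0, -, hr2, hrfix, hrneg⟩ := exists_sqrt_char φ hlev
  have hμ := containsMuP_two E
  let α : Eˣ := Units.mk0 ⟨r ^ 2, hr2⟩ fun h => pow_ne_zero 2 hr0 (congrArg Subtype.val h)
  have hρ : Duality.Local.rootP 2 ((α : E) : Qb) = r ∨ Duality.Local.rootP 2 ((α : E) : Qb) = -r :=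
    sq_eq_sq_iff_eq_or_eq_neg.1 (Duality.Local.rootP_pow _)
  have hchi : ∀ g : E.fixingSubgroup, (chi hμ α).1 g = 0 ↔ φ g = 1 := fun g => by
    have hmem : (g : GQ) (Duality.Local.rootP 2 ((α : E) : Qb)) =
        Duality.Local.rootP 2 ((α : E) : Qb) ↔ (g : GQ) r = r := by
      rcases hρ with e | e <;> rw [e]
      rw [map_neg, neg_inj]
    have h1 : (chi hμ α).1 g = 0 ↔ (g : GQ) r = r := by
      rw [← hmem]
      constructor
      · intro h
        exact ((mem_fix_kummerExt hμ α).2 ⟨g.2, h⟩) ⟨_, rootP_mem α⟩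
      · intro h
        refine Duality.Local.kapFun_eq_of (muGlobal hμ) (toFix α) (Duality.Local.rootP_pow _) _ _ ?_
        rw [Duality.Local.zpw_zero, one_mul]
        exact h
    rw [h1]
    refine ⟨fun h => ?_, hrfix g⟩
    by_contra hne
    rw [hrneg g hne, neg_eq_iff_add_eq_zero, ← two_mul] at h
    exact hr0 ((mul_eq_zero.1 h).resolve_left two_ne_zero)
  choose pl₀ hpl₀ using exists_place (K := E)
  let pl : HeightOneSpectrum (𝓞 E) → ValuationSubring Qb := fun P => if P = P₁ then A₁ else pl₀ P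
  have hpl : ∀ P, Over E (pl P) P := fun P => by
    by_cases h : P = P₁
    · simp only [pl, h]; exact hP₁
    · simp only [pl, if_neg h]; exact hpl₀ P
  obtain ⟨T, hFT, hbig, hpT⟩ := exists_isBig (p := 2)
    (((finite_setOf_ord_ne_zero x).toFinset ∪ (finite_setOf_ord_ne_zero α).toFinset ∪
      (FermatAgent.CFT.finite_primes_containing (K := E) (x := ((3 : ℕ) : 𝓞 E))
        (Nat.cast_ne_zero.2 (by norm_num))).toFinset) ∪ {P₁})
  have hP₁T : P₁ ∈ T := hFT (by simp)
  have hout : ∀ P, P ∉ T → ord P x = 0 ∧ ord P α = 0 := fun P hP => by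
    constructor <;> by_contra h <;> refine hP (hFT ?_) <;> simp [h]
  obtain ⟨c, hc0, hvan, -⟩ := exists_invariant hμ pl hpl (Or.inr hE) hpT hbig
  have hc1 : ∀ P ∈ T, c P = 1 := fun P hP => by
    have h := hc0 P hP
    revert h
    generalize c P = i
    revert i
    decide
  have hsum := hvan (gsym hμ x α) fun P hP => by
    obtain ⟨l, hl, hlA, hl2⟩ := exists_residueChar pl hpl hpT hP
    rw [locF2_gsym]
    exact sym_units_eq_zero hμ (hpl P) hl hlA hl2 (by rw [(hout P hP).1]; exact dvd_zero _)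
      (by rw [(hout P hP).2]; exact dvd_zero _)
  rw [Finset.sum_congr rfl fun P hP => by rw [hc1 P hP, one_mul, locF2_gsym]] at hsum
  -- the local terms
  have hone : ∀ z : ZMod 2, z ≠ 0 → z = 1 := by decide
  have hloc : ∀ P ∈ T, P ≠ P₁ → h2Map hμ (pl P) (sym hμ (pl P) x α) = ord P x • a P := by
    intro P hP hne
    obtain ⟨l, hl, hlA⟩ := (hpl P).1
    by_cases h23 : l = 2 ∨ l = 3
    · obtain ⟨hv, y, hy, hy2⟩ := hxbad P (pl P) (hpl P)
        (h23.elim (fun h => Or.inl (h ▸ hlA)) fun h => Or.inr (h ▸ hlA)) hne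
      have hy0 : y ≠ 0 := fun h => x.ne_zero (Subtype.ext (by rw [← hy2, h]; simp))
      have h0 : locF1 (pl P) (kappa hμ x) = 0 := by
        rw [locF1_kappa, Duality.Local.kapHom_eq_zero_iff]
        exact ⟨⟨Units.mk0 y hy0, Duality.Local.mem_localField_iff.1 hy⟩,
          Subtype.ext (Units.ext hy2)⟩
      rw [sym, h0, map_zero, LinearMap.zero_apply, map_zero,
        ((hpl P).val_eq_one_iff x).1 hv, zero_smul]
    push Not at h23
    have h3 : (3 : 𝓞 E) ∉ P.asIdeal := fun h => h23.2 (by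
      have h' : (pl P).valuation ((3 : ℕ) : Qb) < 1 := by
        have h1 := ((hpl P).mem_iff ((3 : ℕ) : 𝓞 E)).1 (by rwa [Nat.cast_ofNat])
        rwa [show (((((3 : ℕ) : 𝓞 E) : E)) : Qb) = ((3 : ℕ) : Qb) from
          map_natCast ((algebraMap E Qb).comp (algebraMap (𝓞 E) E)) 3] at h1
      by_contra hne3
      have h1 := FermatAgent.Local.val_intCast_eq_one hl hlA (m := ((3 : ℕ) : ℤ)) fun hd => hne3
        ((Nat.prime_dvd_prime_iff_eq hl (by norm_num)).1 (Int.natCast_dvd_natCast.1 hd))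
      rw [Int.cast_natCast] at h1
      exact absurd h1 h'.ne)
    obtain ⟨g, hg, hgd, -, hgF⟩ := exists_frobenius_over E (hpl P)
    have hag := ha P (pl P) ⟨g, hg⟩ h3 (hpl P) hgF
    have hαu : locF1 (pl P) (kappa hμ α) ∈ unramifiedH1 2 E (pl P) := by
      rw [← cl1_chi, unramifiedH1, LinearMap.mem_ker]
      refine (cl1_eq_zero_iff _ _ _).2 ⟨0, ?_⟩
      rw [map_zero]
      funext σ
      exact ((hchi ⟨((σ.1 : localGroup E (pl P)) : GQ), σ.1.2.1⟩).2
        (hun l hl h23.2 (pl P) hlA _ σ.2)).symm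
    by_cases hφ : φ ⟨g, hg⟩ = 1
    · have h0 : locF1 (pl P) (kappa hμ α) = 0 := by
        rw [← cl1_chi]
        refine Duality.Local.cl1_triv_eq_zero_iff.mpr (Subtype.ext (funext fun d => (hchi _).2 ?_))
        obtain ⟨j, hj⟩ := exists_pow_eq φ hlev (hun l hl h23.2 (pl P) hlA) (hpl P) (g := ⟨g, hg⟩)
          hgF (d := ⟨(d : GQ), d.2.1⟩) d.2.2
        rw [hφ, one_pow] at hj
        exact hj
      rw [sym, h0, map_zero, map_zero, hag, hφ, toAdd_one, smul_zero]
    · have ha1 : a P = 1 := hone _ fun h => hφ (toAdd_eq_zero.1 (hag.symm.trans h))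
      have hα0 : locF1 (pl P) (kappa hμ α) ≠ 0 := fun h => hφ ((hchi ⟨g, hg⟩).1 (by
        rw [← cl1_chi] at h
        exact congrFun (congrArg Subtype.val (Duality.Local.cl1_triv_eq_zero_iff.mp h))
          ⟨g, hg, hgd⟩))
      by_cases hev : (2 : ℤ) ∣ ord P x
      · rw [sym, (localDualityAt 2 hl E hμ hlA).cup_unramified h23.1 _
          (unramified_of_two_dvd hμ (hpl P) hl hlA h23.1 hev) _ hαu, map_zero, zsmul_eq_mul,
          (ZMod.intCast_zmod_eq_zero_iff_dvd _ 2).2 hev, zero_mul]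
      · have hxr : locF1 (pl P) (kappa hμ x) ∉ unramifiedH1 2 E (pl P) := fun h =>
          hev (dvd_ord_of_unramified hμ (hpl P) hl hlA h23.1 h)
        have hne0 := cup_ne_zero_of_unr_ramified hl hlA h23.1 hμ hαu hα0 hxr
        have hne0' : sym hμ (pl P) x α ≠ 0 := fun h => hne0 (by
          have h' := sym_comm hμ (pl P) x α
          rw [h, neg_zero] at h'
          exact h')
        rw [hone _ (mt (h2Map_eq_zero_iff hμ (hpl P).1).1 hne0'), ha1, zsmul_eq_mul, mul_one]
        exact (hone _ fun h => hev ((ZMod.intCast_zmod_eq_zero_iff_dvd _ 2).1 h)).symm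
  -- the term at the ramified prime
  have hloc₁ : h2Map hμ (pl P₁) (sym hμ (pl P₁) x α) = 1 := by
    rw [show pl P₁ = A₁ from if_pos rfl]
    refine hone _ (mt (h2Map_eq_zero_iff hμ hP₁.1).1 ?_)
    have h3 : (3 : ℕ).Prime := by norm_num
    refine cup_ne_zero_of_unr_ramified h3 hA₁ (by norm_num) hμ
      (locF1_kappa_unit_mem_unramified hμ hP₁ h3 hA₁ (by norm_num) ((hP₁.val_eq_one_iff x).1 hx1))
      (fun h => hxns ?_) ?_
    · rw [locF1_kappa, Duality.Local.kapHom_eq_zero_iff] at h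
      obtain ⟨b, hb⟩ := h
      exact ⟨((b : Qbˣ) : Qb), Duality.Local.mem_localField_iff.2 b.2,
        congrArg (fun u : Duality.Local.fixedUnits (localGroup E A₁) => ((u : Qbˣ) : Qb)) hb⟩
    · intro h
      obtain ⟨i, hi, hφi⟩ := hram
      rw [← cl1_chi, unramifiedH1, LinearMap.mem_ker] at h
      obtain ⟨m, hm⟩ := (cl1_eq_zero_iff _ _ _).1 h
      have := congrFun hm ⟨⟨(i : GQ), i.2, FermatAgent.Local.mem_decomposition_of_inertia hi⟩, hi⟩
      simp at this
      exact hφi ((hchi i).1 this.symm)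
  rw [← Finset.add_sum_erase _ _ hP₁T, hloc₁,
    Finset.sum_congr rfl fun P hP => hloc P (Finset.mem_of_mem_erase hP) (Finset.ne_of_mem_erase hP)]
    at hsum
  rw [finsum_eq_sum_of_support_subset _ (s := T) (fun P hP => by
    by_contra h
    exact hP (show ord P x • a P = 0 by rw [(hout P (by simpa using h)).1, zero_smul])),
    ← Finset.add_sum_erase _ _ hP₁T, (hP₁.val_eq_one_iff x).1 hx1, zero_smul, zero_add]
  revert hsum
  generalize ∑ P ∈ T.erase P₁, ord P x • a P = S
  revert S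
  decide

end FermatAgent.LT.ClassField
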