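import Fermat.Agent.LT.ClassField.TwoAdic

/-!
# Reciprocity for numbers congruent to `1` modulo the primes over `3`

Uniformisers remove the primes over `2`, powers fix the residues there, norms from the quartic
extension improve the congruence at `2` quadratically and cubes improve it at `3`.
-/

set_option autoImplicit false

noncomputable section

open NumberField IsDedekindDomain Finset
open scoped Pointwise

namespace FermatAgent.LT.ClassField

open FermatAgent.Duality.Global (Over IsPlace exists_over exists_place ord finite_setOf_ord_ne_zero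
  exists_smul_eq_of_over)
open FermatAgent.RT (centre mem_centre_iff mem_of_isIntegral_int)

local notation "Qb" => AlgebraicClosure ℚ
local notation "GQ" => AlgebraicClosure ℚ ≃ₐ[ℚ] AlgebraicClosure ℚ
local notation "ZB" => integralClosure ℤ (AlgebraicClosure ℚ)

attribute [local instance] FermatAgent.RT.isGalois_algClosureRat
  FermatAgent.Duality.Global.numberField_of_finite

section Near

variable {M : IntermediateField ℚ Qb}

/-- The units congruent to `1` at all places over `l`. -/
def near (M : IntermediateField ℚ Qb) (l : ℕ) : Subgroup Mˣ where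
  carrier := {x | ∀ A : ValuationSubring Qb, A.LiesOverPrime l →
    A.valuation (((x : M) : Qb) - 1) < 1}
  one_mem' A _ := by simp
  mul_mem' {x y} hx hy A hA := by
    have hv := Duality.Local.val_eq_one_of_sub_lt (hx A hA)
    rw [Units.val_mul, MulMemClass.coe_mul, show ((x : M) : Qb) * ((y : M) : Qb) - 1 =
      ((x : M) : Qb) * (((y : M) : Qb) - 1) + (((x : M) : Qb) - 1) by ring]
    exact A.valuation.map_add_lt (by rw [map_mul, hv, one_mul]; exact hy A hA) (hx A hA)
  inv_mem' {x} hx A hA := by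
    have hv := Duality.Local.val_eq_one_of_sub_lt (hx A hA)
    have hx0 : ((x : M) : Qb) ≠ 0 := by simp
    rw [Units.val_inv_eq_inv_val, IntermediateField.coe_inv,
      show ((x : M) : Qb)⁻¹ - 1 = -(((x : M) : Qb) - 1) / ((x : M) : Qb) by field_simp; ring,
      map_div₀, Valuation.map_neg, hv, div_one]
    exact hx A hA

/-- A high power of `l` is smaller than a given number at the places over `l`. -/
theorem val_pow_le_natCast {A : ValuationSubring Qb} {l : ℕ} (hl : l.Prime)
    (hA : A.LiesOverPrime l) {K a : ℕ} (hK : K ≠ 0) (ha : K ≤ a) :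
    A.valuation ((l : Qb) ^ a) ≤ A.valuation (K : Qb) := by
  obtain ⟨c, K', hK', rfl⟩ := Nat.exists_eq_pow_mul_and_not_dvd hK l hl.ne_one
  have h1 := FermatAgent.Local.val_intCast_eq_one hl hA (m := (K' : ℤ))
    fun h => hK' (Int.natCast_dvd_natCast.1 h)
  rw [Int.cast_natCast] at h1
  rw [Nat.cast_mul, map_mul, Nat.cast_pow, h1, mul_one, map_pow, map_pow]
  refine pow_le_pow_right_of_le_one' (A.mem_nonunits_iff.1 hA).le (le_trans ?_ ha)
  refine le_trans (Nat.lt_pow_self hl.one_lt).le (Nat.le_mul_of_pos_right _ ?_)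
  exact Nat.pos_of_ne_zero fun h => hK' (h ▸ dvd_zero l)

/-- In a number field a value less than `1` has a power below that of the prime. -/
theorem exists_pow_le [NumberField M] {l : ℕ} (hl : l.Prime) :
    ∃ n : ℕ, 0 < n ∧ ∀ A : ValuationSubring Qb, A.LiesOverPrime l → ∀ e : M,
      A.valuation (e : Qb) < 1 → A.valuation (e : Qb) ^ n ≤ A.valuation (l : Qb) := by
  classical
  set T := (CFT.finite_primes_containing (K := M) (x := (l : 𝓞 M))
    (Nat.cast_ne_zero.2 hl.ne_zero)).toFinset
  let lu : Mˣ := Units.mk0 (l : M) (Nat.cast_ne_zero.2 hl.ne_zero)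
  have hlu : ((lu : M) : Qb) = (l : Qb) := map_natCast (algebraMap M Qb) l
  refine ⟨1 + ∑ P ∈ T, (ord P lu).natAbs, by omega, fun A hA e he => ?_⟩
  by_cases he0 : e = 0
  · simp [he0]
  obtain ⟨P, hP⟩ := exists_over (K := M) ⟨l, hl, hA⟩
  have hPT : P ∈ T := (Set.Finite.mem_toFinset _).2 (hP.natCast_mem hA)
  let eu : Mˣ := Units.mk0 e he0
  have h1 : 0 < ord P eu := by
    by_contra hneg
    have := (hP.val_le_iff 1 eu).2 (by rw [Duality.Global.ord_one]; omega)
    simp only [Units.val_one, OneMemClass.coe_one, map_one] at this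
    exact absurd this (not_le.2 he)
  set n := 1 + ∑ P ∈ T, (ord P lu).natAbs with hn
  have h2 : ord P lu ≤ ord P (eu ^ n) := by
    rw [Duality.Global.ord_pow]
    have h3 : (ord P lu).natAbs ≤ ∑ Q ∈ T, (ord Q lu).natAbs :=
      single_le_sum (f := fun Q => (ord Q lu).natAbs) (fun _ _ => Nat.zero_le _) hPT
    have h4 : (n : ℤ) ≤ (n : ℤ) * ord P eu := le_mul_of_one_le_right (by positivity) h1
    omega
  have h5 := (hP.val_le_iff (eu ^ n) lu).2 h2
  rw [hlu, Units.val_pow_eq_pow_val, SubmonoidClass.coe_pow, map_pow] at h5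
  exact h5

end Near

namespace QuarticChar

variable (C : QuarticChar)

theorem artin_zpow (x : C.Mˣ) (n : ℤ) : C.artin (x ^ n) = n • C.artin x := by
  have hinv : C.artin x⁻¹ = -C.artin x := eq_neg_of_add_eq_zero_left (by
    rw [← artin_mul, inv_mul_cancel, artin_one])
  rcases Int.eq_nat_or_neg n with ⟨m, rfl | rfl⟩
  · rw [zpow_natCast, artin_pow, natCast_zsmul]
  · rw [zpow_neg, zpow_natCast, ← inv_pow, artin_pow, hinv, smul_neg, neg_zsmul, natCast_zsmul]

theorem artin_prod {ι : Type*} (s : Finset ι) (u : ι → C.Mˣ) :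
    C.artin (∏ i ∈ s, u i) = ∑ i ∈ s, C.artin (u i) := by
  classical
  induction s using Finset.induction with
  | empty => simp [artin_one]
  | insert j s hj ih => rw [prod_insert hj, sum_insert hj, artin_mul, ih]

/-- A norm congruent to `1` at the places over `3` has vanishing Frobenius sum. -/
theorem artin_norm_eq_zero {z : Qb} (hz0 : z ≠ 0)
    (hz : ∀ k : C.M.fixingSubgroup, C.χ k = 1 → (k : GQ) z = z) {y : C.Mˣ}
    (hy : ((y : C.M) : Qb) = normOf C.χ z) (h3 : y ∈ near C.M 3) : C.artin y = 0 := by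
  refine finsum_eq_zero_of_forall_eq_zero fun P => ?_
  obtain ⟨A, hA⟩ := exists_place P
  obtain ⟨l, hl, hlA⟩ := hA.1
  by_cases hl3 : l = 3
  · subst hl3
    rw [(hA.val_eq_one_iff y).1 (Duality.Local.val_eq_one_of_sub_lt (h3 A hlA)), zero_smul]
  obtain ⟨g, hg, -, -, hgF⟩ := exists_frobenius_over C.M hA
  have hP3 : (3 : 𝓞 C.M) ∉ P.asIdeal := fun h => hl3 (liesOver_unique hl (by norm_num) hlA
    (A.mem_nonunits_iff.2 ((natCast_mem_iff hA 3).1 (by rwa [Nat.cast_ofNat]))))
  have h := frob_zpow_ord_norm hz C.level hA (C.unramified l hl hl3 A hlA) (g := ⟨g, hg⟩) hgF hz0 hy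
  rw [C.frobVal_eq hP3 ⟨hg, A, fun x => (hA.mem_iff x).trans A.mem_nonunits_iff.symm, hgF⟩]
  have h' := congrArg Multiplicative.toAdd h
  rwa [toAdd_zpow, toAdd_one] at h'

/-- The traces of integral elements of the quartic extension are not all small at a place over
`2`. -/
theorem exists_trace_unit_at {A : ValuationSubring Qb} (hA : A.LiesOverPrime 2) :
    ∃ θ : Qb, IsIntegral ℤ θ ∧ (∀ k : C.M.fixingSubgroup, C.χ k = 1 → (k : GQ) θ = θ) ∧
      A.valuation (trOf C.χ θ) = 1 := by
  classical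
  let _ : Fintype C.χ.range := Fintype.ofFinite _
  have := finiteDimensional_kerField C.χ C.level
  set Ω := kerField C.χ
  let O : Submonoid ZB :=
    { carrier := {b | (b : Qb) ∈ Ω}
      one_mem' := one_mem Ω
      mul_mem' := fun {a b} ha hb => (mul_mem ha hb : ((a : ZB) : Qb) * ((b : ZB) : Qb) ∈ Ω) }
  have hintA : ∀ (g : GQ) (b : ZB), g (b : Qb) ∈ A := fun g b =>
    mem_of_isIntegral_int A (g • b).2
  let ψ : C.χ.range → (O →* IsLocalRing.ResidueField A) := fun q =>
    ((IsLocalRing.residue A).toMonoidHom).comp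
      { toFun := fun b => ⟨(lift C.χ q : GQ) ((b : ZB) : Qb), hintA _ _⟩
        map_one' := Subtype.ext (map_one _)
        map_mul' := fun a b => Subtype.ext (map_mul _ _ _) }
  have hψ : Function.Injective ψ := by
    intro a b hab
    set ga := (lift C.χ a : GQ)
    set τ := (lift C.χ a)⁻¹ * lift C.χ b with hτ
    set A' := ga⁻¹ • A
    have hA' : A'.LiesOverPrime 2 := TW.smul_liesOverPrime hA _
    have hres : ∀ x : ZB, (x : Qb) ∈ Ω → ((τ : GQ) • x - x) ∈ centre A' := by
      intro x hx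
      rw [mem_centre_iff, A'.mem_nonunits_iff]
      have h1 : ψ b ⟨x, hx⟩ = ψ a ⟨x, hx⟩ := by rw [hab]
      have h2 : A.valuation ((lift C.χ b : GQ) (x : Qb) - ga (x : Qb)) < 1 :=
        (Duality.Local.residue_eq_residue_iff).1 h1
      show A'.valuation ((τ : GQ) (x : Qb) - (x : Qb)) < 1
      by_contra hge
      rw [not_lt] at hge
      set t := (τ : GQ) (x : Qb) - (x : Qb)
      have ht0 : t ≠ 0 := fun h0 => by simp [h0] at hge
      have hinv : t⁻¹ ∈ A' := by
        rw [← A'.valuation_le_one_iff, map_inv₀]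
        exact inv_le_one_of_one_le₀ hge
      rw [ValuationSubring.mem_pointwise_smul_iff_inv_smul_mem, inv_inv, AlgEquiv.smul_def,
        ← A.valuation_le_one_iff, map_inv₀ ga, map_inv₀] at hinv
      have hgt : ga t = (lift C.χ b : GQ) (x : Qb) - ga (x : Qb) := by
        simp only [t, map_sub, hτ, Subgroup.coe_mul, Subgroup.coe_inv, AlgEquiv.mul_apply]
        exact congrArg (· - ga (x : Qb)) (ga.apply_symm_apply _)
      rw [hgt] at hinv
      exact absurd hinv (not_le.2 ((one_lt_inv₀ (zero_lt_iff.2 ((map_ne_zero _).2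
        (hgt ▸ (map_ne_zero ga).2 ht0)))).2 h2))
    obtain ⟨Q, hQ⟩ := exists_over (K := Ω) (A := A') ⟨2, Nat.prime_two, hA'⟩
    have hA'' : ((τ : GQ)⁻¹ • A').LiesOverPrime 2 := TW.smul_liesOverPrime hA' _
    have hQ' : Over Ω ((τ : GQ)⁻¹ • A') Q := by
      refine ⟨⟨2, Nat.prime_two, hA''⟩, Ideal.ext fun y => ?_⟩
      rw [← hQ.2, Ideal.mem_comap, Ideal.mem_comap, Duality.Global.centre_smul,
        Ideal.mem_pointwise_smul_iff_inv_smul_mem, inv_inv]
      have h := hres (Duality.Global.toZB Ω y) (y : Ω).2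
      exact ⟨fun h1 => by simpa using sub_mem h1 h, fun h1 => by simpa using add_mem h h1⟩
    obtain ⟨h, hh, hhA⟩ := exists_smul_eq_of_over hQ hQ'
    obtain ⟨hhM, hh1⟩ := (mem_fix_kerField C.χ C.level).1 hh
    have hd : (τ : GQ) * h ∈ A'.decompositionSubgroup ℚ := by
      show ((τ : GQ) * h) • A' = A'
      rw [mul_smul, ← hhA, smul_inv_smul]
    obtain ⟨i, hi, k, hk, e⟩ := exists_inertia_mul_fix Nat.prime_two hA' Ω hd fun x hx => by
      rw [mul_smul, show h • x = x from Subtype.ext (hh ⟨_, hx⟩)]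
      exact hres x hx
    obtain ⟨hkM, hk1⟩ := (mem_fix_kerField C.χ C.level).1 hk
    have hiM : i ∈ C.M.fixingSubgroup := by
      rw [show i = (τ : GQ) * h * k⁻¹ by rw [e, mul_inv_cancel_right]]
      exact mul_mem (mul_mem τ.2 hhM) (inv_mem hkM)
    have e' : τ * ⟨h, hhM⟩ = ⟨i, hiM⟩ * ⟨k, hkM⟩ := Subtype.ext e
    have h3 := congrArg C.χ e'
    simp only [map_mul, map_inv, hτ, hh1, hk1,
      C.unramified 2 Nat.prime_two (by norm_num) A' hA' ⟨i, hiM⟩ hi, mul_one] at h3
    rw [inv_mul_eq_one, apply_lift, apply_lift] at h3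
    exact Subtype.ext h3
  obtain ⟨b, hb⟩ : ∃ b : O, ∑ q, ψ q b ≠ 0 := by
    by_contra! hall
    have hli := (linearIndependent_monoidHom O (IsLocalRing.ResidueField A)).comp ψ hψ
    rw [Fintype.linearIndependent_iff] at hli
    exact one_ne_zero (hli (fun _ => 1) (funext fun b => by
      rw [Finset.sum_apply, Pi.zero_apply, ← hall b]
      exact sum_congr rfl fun q _ => one_mul _) 1)
  refine ⟨((b : ZB) : Qb), (b : ZB).2, fun k hk =>
    ((mem_fix_kerField C.χ C.level).2 ⟨k.2, hk⟩) ⟨_, b.2⟩, ?_⟩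
  have e : trOf C.χ ((b : ZB) : Qb) =
      ((∑ q, ⟨(lift C.χ q : GQ) ((b : ZB) : Qb), hintA _ _⟩ : A) : Qb) := by
    rw [AddSubmonoidClass.coe_finsetSum]
    exact sum_congr (by ext; simp) fun q _ => rfl
  rw [e]
  refine (A.valuation_eq_one_iff _).1 ?_
  rw [← IsLocalRing.residue_ne_zero_iff_isUnit, map_sum]
  exact hb

theorem trOf_add_smul {θ : Qb} {c : Qb} (hc : c ∈ C.M) :
    trOf C.χ (c * θ) = c * trOf C.χ θ := by
  rw [trOf, trOf, mul_sum]
  exact sum_congr rfl fun q _ => by
    rw [map_mul, show (lift C.χ q : GQ) c = c from (lift C.χ q).2 ⟨c, hc⟩]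

/-- **An integral element whose trace is a unit over `2`.** -/
theorem exists_trace_unit : ∃ θ : Qb, IsIntegral ℤ θ ∧
    (∀ k : C.M.fixingSubgroup, C.χ k = 1 → (k : GQ) θ = θ) ∧
    ∀ A : ValuationSubring Qb, A.LiesOverPrime 2 → A.valuation (trOf C.χ θ) = 1 := by
  classical
  let _ : Fintype C.χ.range := Fintype.ofFinite _
  set T := (CFT.finite_primes_containing (K := C.M) (x := ((2 : ℕ) : 𝓞 C.M))
    (Nat.cast_ne_zero.2 two_ne_zero)).toFinset
  choose pl hpl using exists_place (K := C.M)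
  have hpl2 : ∀ P ∈ T, (pl P).LiesOverPrime 2 := fun P hP =>
    (pl P).mem_nonunits_iff.2 ((natCast_mem_iff (hpl P) 2).1 (by simpa [T] using hP))
  choose! θ hθi hθf hθv using fun (P : HeightOneSpectrum (𝓞 C.M)) (hP : P ∈ T) =>
    C.exists_trace_unit_at (hpl2 P hP)
  have hc : ∀ P₀, ∃ c : 𝓞 C.M, ∀ P ∈ T, ∀ A, Over C.M A P →
      A.valuation (((c : C.M) : Qb) - if P = P₀ then 1 else 0) < A.valuation ((2 : ℕ) : Qb) := by
    intro P₀
    obtain ⟨c, hc⟩ := exists_approx T (fun P => if P = P₀ then 1 else 0) two_ne_zero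
    refine ⟨c, fun P hP A hA => ?_⟩
    have := hc P hP A hA
    split_ifs at this ⊢ <;> simpa using this
  choose c hc using hc
  refine ⟨∑ P ∈ T, ((c P : C.M) : Qb) * θ P, IsIntegral.sum _ fun P hP =>
    ((NumberField.RingOfIntegers.isIntegral_coe (c P)).map (C.M.val.restrictScalars ℤ)).mul
      (hθi P hP), fun k hk => ?_, fun A hA => ?_⟩
  · rw [map_sum]
    exact sum_congr rfl fun P hP => by rw [map_mul, hθf P hP k hk, show (k : GQ) ((c P : C.M) : Qb) = ((c P : C.M) : Qb) from k.2 ⟨_, (c P : C.M).2⟩]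
  obtain ⟨P₀, hP₀⟩ := exists_over (K := C.M) (A := A) ⟨2, Nat.prime_two, hA⟩
  have hP₀T : P₀ ∈ T := (Set.Finite.mem_toFinset _).2 (hP₀.natCast_mem hA)
  have htr : trOf C.χ (∑ P ∈ T, ((c P : C.M) : Qb) * θ P) =
      ∑ P ∈ T, ((c P : C.M) : Qb) * trOf C.χ (θ P) := by
    simp only [← C.trOf_add_smul (c _ : C.M).2]
    simp only [trOf, map_sum]
    exact sum_comm
  have htint : ∀ P ∈ T, A.valuation (trOf C.χ (θ P)) ≤ 1 := fun P hP => by
    refine A.valuation.map_sum_le fun q _ => (A.valuation_le_one_iff _).2 ?_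
    exact mem_of_isIntegral_int A ((hθi P hP).map ((lift C.χ q : GQ).toAlgHom.restrictScalars ℤ))
  obtain ⟨g, hg, hgA⟩ := exists_smul_eq_of_over (hpl P₀) hP₀
  have h0 : A.valuation (trOf C.χ (θ P₀)) = 1 := by
    have h1 := hθv P₀ hP₀T
    have hgT : g (trOf C.χ (θ P₀)) = trOf C.χ (θ P₀) :=
      hg ⟨_, trOf_mem fun k hk => hθf P₀ hP₀T k hk⟩
    have hle : ∀ t : Qb, g t = t → ((pl P₀).valuation t ≤ 1 ↔ A.valuation t ≤ 1) := fun t ht => by
      rw [hgA, ValuationSubring.valuation_le_one_iff, ValuationSubring.valuation_le_one_iff,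
        ValuationSubring.mem_pointwise_smul_iff_inv_smul_mem, AlgEquiv.smul_def]
      conv_rhs => rw [← ht]
      rw [← AlgEquiv.mul_apply, inv_mul_cancel, AlgEquiv.one_apply]
    refine le_antisymm ((hle _ hgT).1 h1.le) ?_
    have h2 := (hle (trOf C.χ (θ P₀))⁻¹ (by rw [map_inv₀, hgT])).1
      (by rw [map_inv₀, h1, inv_one])
    rw [map_inv₀] at h2
    have hpos : 0 < A.valuation (trOf C.χ (θ P₀)) := zero_lt_iff.2 ((map_ne_zero _).2 fun h => by
      rw [h, map_zero] at h1
      exact zero_ne_one h1)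
    exact (inv_le_one₀ hpos).1 h2
  rw [htr, ← add_sum_erase _ _ hP₀T]
  have hv2 : A.valuation ((2 : ℕ) : Qb) < 1 := A.mem_nonunits_iff.1 hA
  have h1 : A.valuation (((c P₀ : C.M) : Qb) * trOf C.χ (θ P₀)) = 1 := by
    have h := hc P₀ P₀ hP₀T A hP₀
    rw [if_pos rfl] at h
    rw [map_mul, h0, mul_one, Duality.Local.val_eq_one_of_sub_lt (h.trans hv2)]
  refine (A.valuation.map_add_eq_of_lt_left (h1.symm ▸ A.valuation.map_sum_lt one_ne_zero fun P hP => ?_)).trans h1
  have h := hc P P₀ hP₀T A hP₀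
  rw [if_neg (ne_of_mem_erase hP).symm, sub_zero] at h
  rw [map_mul]
  exact lt_of_le_of_lt (mul_le_of_le_one_right' (htint P (mem_of_mem_erase hP))) (h.trans hv2)

/-- **Reciprocity** for numbers congruent to `1` modulo the primes over `3`. -/
theorem artin_eq_zero_of_near {x : C.Mˣ} (hx : x ∈ near C.M 3) : C.artin x = 0 := by
  classical
  let _ : Fintype C.χ.range := Fintype.ofFinite _
  set T := (CFT.finite_primes_containing (K := C.M) (x := ((2 : ℕ) : 𝓞 C.M))
    (Nat.cast_ne_zero.2 two_ne_zero)).toFinset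
  have hT : ∀ P, P ∈ T → (2 : 𝓞 C.M) ∈ P.asIdeal := fun P hP => by
    simpa using (Set.Finite.mem_toFinset _).1 hP
  choose! e he₀ he₁ he₂ he₃ using fun (P : HeightOneSpectrum (𝓞 C.M))
    (hP : (2 : 𝓞 C.M) ∈ P.asIdeal) => C.exists_unif_two P hP
  -- units at `2`
  set x₀ := x / ∏ P ∈ T, e P ^ ord P x with hx₀
  have hart₀ : C.artin x = C.artin x₀ := by
    have h := C.artin_mul x₀ (∏ P ∈ T, e P ^ ord P x)
    rw [div_mul_cancel, artin_prod] at h
    rw [h, sum_eq_zero fun P hP => by rw [artin_zpow, he₀ P (hT P hP), smul_zero], add_zero]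
  have hx₀3 : x₀ ∈ near C.M 3 := div_mem hx
    (Subgroup.prod_mem _ fun P hP => Subgroup.zpow_mem (near C.M 3) (he₃ P (hT P hP)) _)
  have hord0 : ∀ P ∈ T, ord P x₀ = 0 := fun P hP => by
    have hsum : ∀ s : Finset (HeightOneSpectrum (𝓞 C.M)),
        ord P (∏ P' ∈ s, e P' ^ ord P' x) = ∑ P' ∈ s, ord P' x * ord P (e P') := fun s => by
      induction s using Finset.induction with
      | empty => simp
      | insert j s hj ih =>
        rw [prod_insert hj, sum_insert hj, Duality.Global.ord_mul, Duality.Global.ord_zpow, ih]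
    rw [hx₀, Duality.Global.ord_div, hsum, sum_eq_single_of_mem P hP fun P' hP' hne => by
      rw [he₂ P' (hT P' hP') P (hT P hP) hne.symm, mul_zero], he₁ P (hT P hP), mul_one, sub_self]
  -- residues at `2`
  set E := ∏ P ∈ T, (Ideal.absNorm P.asIdeal - 1)
  have hEodd : Odd E := by
    refine prod_induction _ Odd (fun a b => Odd.mul) odd_one fun P hP => ?_
    obtain ⟨A, hA⟩ := exists_place P
    have h2 := CFT.two_le_absNorm P
    have hdvd := Ideal.absNorm_dvd_absNorm_of_le
      ((Ideal.span_singleton_le_iff_mem _).mpr (hT P hP))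
    rw [show (2 : 𝓞 C.M) = ((2 : ℕ) : 𝓞 C.M) by norm_num, Ideal.absNorm_span_natCast] at hdvd
    obtain ⟨k, -, hk⟩ := (Nat.dvd_prime_pow Nat.prime_two).1 hdvd
    rw [hk] at h2 ⊢
    have : k ≠ 0 := fun h => by simp [h] at h2
    exact Nat.Even.sub_odd (Nat.one_le_two_pow) ((Nat.even_pow' this).2 even_two) odd_one
  set x₁ := x₀ ^ (E * E) with hx₁
  have hart₁ : C.artin x₁ = C.artin x₀ := by
    have h1 : ((E * E : ℕ) : ZMod 4) = 1 := by
      obtain ⟨m, hm⟩ := hEodd
      rw [hm]
      push_cast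
      have : ∀ a : ZMod 4, (2 * a + 1) * (2 * a + 1) = 1 := by decide
      exact this _
    rw [hx₁, artin_pow, nsmul_eq_mul, h1, one_mul]
  have hx₁3 : x₁ ∈ near C.M 3 := pow_mem hx₀3 _
  have hx₁2 : x₁ ∈ near C.M 2 := by
    intro A hA
    obtain ⟨P, hP⟩ := exists_over (K := C.M) (A := A) ⟨2, Nat.prime_two, hA⟩
    have hPT : P ∈ T := (Set.Finite.mem_toFinset _).2 (hP.natCast_mem hA)
    have hv : A.valuation ((x₀ : C.M) : Qb) = 1 := (hP.val_eq_one_iff x₀).2 (hord0 P hPT)
    obtain ⟨n, d, hnd⟩ := P.exists_primeCompl_mul_eq_of_integer (x₀ : C.M)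
      ((hP.val_le_one_iff _).1 hv.le)
    set q := Ideal.absNorm P.asIdeal - 1
    have hq : q + 1 = Ideal.absNorm P.asIdeal := by have := CFT.two_le_absNorm P; omega
    have hone : ∀ a : 𝓞 C.M, a ∉ P.asIdeal → A.valuation (((a : C.M) : Qb) ^ q - 1) < 1 :=
      fun a ha => by
        have h1 := CFT.pow_absNorm_sub_self_mem P a
        rw [← hq, pow_succ, show a ^ q * a - a = (a ^ q - 1) * a by ring] at h1
        have h2 := (hP.mem_iff _).1 ((P.isPrime.mem_or_mem h1).resolve_right ha)
        simpa using h2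
    have hnd' : ((x₀ : C.M) : Qb) * ((algebraMap (𝓞 C.M) C.M d : C.M) : Qb) = ((n : C.M) : Qb) := by
      have := congrArg (fun y : C.M => (y : Qb)) hnd
      simpa using this
    have hd : A.valuation (((algebraMap (𝓞 C.M) C.M d : C.M)) : Qb) = 1 :=
      hP.val_eq_one_of_not_mem d.2
    have hn : n ∉ P.asIdeal := fun h => by
      have := (hP.mem_iff n).1 h
      rw [← hnd', map_mul, hv, hd, one_mul] at this
      exact lt_irrefl _ this
    have hlt : A.valuation (((x₀ : C.M) : Qb) ^ q - 1) < 1 := by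
      have h1 := hone n hn
      rw [← hnd', mul_pow] at h1
      have h2 := hone d d.2
      have h3 : A.valuation ((((x₀ : C.M) : Qb) ^ q - 1) *
          ((algebraMap (𝓞 C.M) C.M d : C.M) : Qb) ^ q) < 1 := by
        rw [show ∀ a b : Qb, (a - 1) * b = (a * b - 1) - (b - 1) by intros; ring]
        exact A.valuation.map_sub_lt h1 h2
      rwa [map_mul, map_pow, hd, one_pow, mul_one] at h3
    obtain ⟨m, hm⟩ : q ∣ E * E := dvd_mul_of_dvd_left (dvd_prod_of_mem _ hPT) E
    rw [hx₁, hm, Units.val_pow_eq_pow_val, SubmonoidClass.coe_pow, pow_mul]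
    exact lt_of_le_of_lt (by
      rw [← prod_const_one (s := range m), ← mul_one (((x₀ : C.M) : Qb) ^ q)] ; simp only [mul_one]
      rw [prod_const_one, ← card_range m, ← prod_const]
      exact val_prod_sub_one_le _ _ hlt.le (fun _ _ => le_rfl)) hlt
  -- the target
  obtain ⟨K, ⟨-, hK0⟩, hK⟩ := C.exists_artin_eq_zero
  obtain ⟨θ, hθi, hθf, hθ2⟩ := C.exists_trace_unit
  set T₀ := trOf C.χ θ
  have hT₀M : T₀ ∈ C.M := trOf_mem hθf
  obtain ⟨A₂, hA₂⟩ := FermatAgent.RT.exists_liesOverPrime Nat.prime_two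
  have hT₀0 : T₀ ≠ 0 := fun h => by
    have := hθ2 A₂ hA₂
    rw [h, map_zero] at this
    exact zero_ne_one this
  have hT₀i : IsIntegral ℤ T₀ := IsIntegral.sum _ fun q _ =>
    hθi.map ((lift C.χ q : GQ).toAlgHom.restrictScalars ℤ)
  obtain ⟨NT, hNT0, hNT⟩ := exists_nat_val_le hT₀i hT₀0
  -- improving at `2`
  obtain ⟨n, hn0, hn⟩ := exists_pow_le (M := C.M) Nat.prime_two
  have hstep : ∀ i, 1 ≤ i → i ≤ n * K + 1 → ∃ w : C.Mˣ, C.artin w = C.artin x₁ ∧ w ∈ near C.M 3 ∧
      ∀ A : ValuationSubring Qb, A.LiesOverPrime 2 →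
        A.valuation (((w : C.M) : Qb) - 1) ^ n ≤ A.valuation ((2 : ℕ) : Qb) ^ i := by
    intro i hi hiK
    induction i, hi using Nat.le_induction with
    | base => exact ⟨x₁, rfl, hx₁3, fun A hA => by
        simpa using hn A hA ((x₁ : C.M) - 1) (by simpa using hx₁2 A hA)⟩
    | succ i hi ih =>
      obtain ⟨w, hwa, hw3, hw2⟩ := ih (by omega)
      set L := n * K + 2
      set ε : ℕ := 3 ^ ((2 ^ L).totient * (NT + 1)) with hε
      have hεL : 2 ^ L ∣ ε - 1 := by
        refine (Nat.modEq_iff_dvd' (Nat.one_le_pow _ _ (by norm_num))).1 ?_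
        have h := (Nat.ModEq.pow_totient (x := 3) (n := 2 ^ L)
          ((Nat.coprime_pow_right_iff (by omega) 3 2).2 (by norm_num))).pow (NT + 1)
        rw [one_pow, ← pow_mul] at h
        exact h.symm
      set et := ((w : C.M) : Qb) - 1
      set t := (ε : Qb) * et * θ / T₀ with ht
      have htfix : ∀ k : C.M.fixingSubgroup, C.χ k = 1 → (k : GQ) t = t := fun k hk => by
        rw [ht, map_div₀, map_mul, map_mul, map_natCast, hθf k hk,
          show (k : GQ) T₀ = T₀ from k.2 ⟨T₀, hT₀M⟩,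
          show (k : GQ) et = et from k.2 ⟨et, sub_mem (w : C.M).2 (one_mem _)⟩]
      have hlift : ∀ q, (lift C.χ q : GQ) t =
          (ε : Qb) * et / T₀ * (lift C.χ q : GQ) θ := fun q => by
        rw [ht, map_div₀, map_mul, map_mul, map_natCast,
          show (lift C.χ q : GQ) T₀ = T₀ from (lift C.χ q).2 ⟨T₀, hT₀M⟩,
          show (lift C.χ q : GQ) et = et from
            (lift C.χ q).2 ⟨et, sub_mem (w : C.M).2 (one_mem _)⟩]
        ring
      have hθA : ∀ (A : ValuationSubring Qb) q, A.valuation ((lift C.χ q : GQ) θ) ≤ 1 := fun A q =>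
        (A.valuation_le_one_iff _).2
          (mem_of_isIntegral_int A (hθi.map ((lift C.χ q : GQ).toAlgHom.restrictScalars ℤ)))
      have hεle : ∀ A : ValuationSubring Qb, A.valuation (ε : Qb) ≤ 1 := fun A =>
        (A.valuation_le_one_iff _).2 (natCast_mem A ε)
      have ht3 : ∀ A : ValuationSubring Qb, A.LiesOverPrime 3 → ∀ q,
          A.valuation ((lift C.χ q : GQ) t) < 1 := fun A hA q => by
        have he : A.valuation et < 1 := hw3 A hA
        have hT : A.valuation (ε : Qb) ≤ A.valuation T₀ := by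
          refine le_trans ?_ (hNT A)
          rw [hε, Nat.cast_pow]
          refine val_pow_le_natCast (by norm_num) hA hNT0 ?_
          have := Nat.totient_pos.2 (Nat.two_pow_pos L)
          nlinarith
        rw [hlift, mul_div_right_comm, map_mul, map_mul, map_div₀]
        exact lt_of_le_of_lt (mul_le_of_le_one_right' (hθA A q)) (lt_of_le_of_lt
          (mul_le_of_le_one_left' ((div_le_one₀ (zero_lt_iff.2 ((map_ne_zero _).2 hT₀0))).2 hT)) he)
      set y := normOf C.χ (1 + t)
      have hy : y = ∏ q, (1 + (lift C.χ q : GQ) t) := prod_congr rfl fun q _ => by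
        rw [map_add, map_one]
      have hy3 : ∀ A : ValuationSubring Qb, A.LiesOverPrime 3 → A.valuation (y - 1) < 1 :=
        fun A hA => by
          obtain ⟨q₀, -, hmax⟩ := exists_max_image (univ : Finset C.χ.range)
            (fun q => A.valuation ((lift C.χ q : GQ) t)) univ_nonempty
          refine lt_of_le_of_lt ?_ (ht3 A hA q₀)
          rw [hy]
          exact val_prod_sub_one_le _ _ (ht3 A hA q₀).le fun q hq => by
            rw [add_sub_cancel_left]; exact hmax q hq
      obtain ⟨A₃, hA₃⟩ := FermatAgent.RT.exists_liesOverPrime (show (3 : ℕ).Prime by norm_num)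
      have hy0 : y ≠ 0 := fun h => by
        have := Duality.Local.val_eq_one_of_sub_lt (hy3 A₃ hA₃)
        rw [h, map_zero] at this
        exact zero_ne_one this
      have h1t : 1 + t ≠ 0 := fun h => hy0 (by
        refine prod_eq_zero (mem_univ 1) ?_
        rw [h, map_zero])
      have hfix1 : ∀ k : C.M.fixingSubgroup, C.χ k = 1 → (k : GQ) (1 + t) = 1 + t := fun k hk => by
        rw [map_add, map_one, htfix k hk]
      let yu : C.Mˣ := Units.mk0 ⟨y, normOf_mem hfix1⟩ fun h => hy0 (congrArg Subtype.val h)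
      refine ⟨w / yu, ?_, div_mem hw3 hy3, fun A hA => ?_⟩
      · have h := C.artin_mul (w / yu) yu
        rw [div_mul_cancel, C.artin_norm_eq_zero h1t hfix1 (y := yu) rfl hy3, add_zero] at h
        rw [← h, hwa]
      have he2 := hw2 A hA
      have hv2 : A.valuation ((2 : ℕ) : Qb) < 1 := A.mem_nonunits_iff.1 hA
      have he1 : A.valuation et < 1 := by
        by_contra hge
        exact absurd (le_trans (one_le_pow_of_one_le' (not_lt.1 hge) n) he2)
          (not_le.2 (pow_lt_one₀ zero_le hv2 (by omega)))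
      have hTv : A.valuation T₀ = 1 := hθ2 A hA
      have hq : ∀ q, A.valuation ((lift C.χ q : GQ) t) ≤ A.valuation et := fun q => by
        rw [hlift, map_mul, map_div₀, map_mul, hTv, div_one]
        exact (mul_le_of_le_one_right' (hθA A q)).trans (mul_le_of_le_one_left' (hεle A))
      have hR := val_prod_one_add_le univ (fun q => (lift C.χ q : GQ) t) he1.le fun q _ => hq q
      rw [← hy] at hR
      have hsum : ∑ q, (lift C.χ q : GQ) t = (ε : Qb) * et := by
        simp only [hlift, ← mul_sum]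
        exact div_mul_cancel₀ _ hT₀0
      rw [hsum] at hR
      have hyv : A.valuation y = 1 := Duality.Local.val_eq_one_of_sub_lt (lt_of_le_of_lt (by
        rw [show y - 1 = (y - 1 - (ε : Qb) * et) + (ε : Qb) * et by ring]
        exact A.valuation.map_add_le (hR.trans (pow_le_of_le_one zero_le he1.le two_ne_zero))
          (by rw [map_mul]; exact mul_le_of_le_one_left' (hεle A))) he1)
      have hbound : A.valuation (((w : C.M) : Qb) / y - 1) ≤
          max (A.valuation et ^ 2) (A.valuation ((2 : ℕ) : Qb) ^ L) := by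
        rw [div_sub_one hy0, map_div₀, hyv, div_one,
          show ((w : C.M) : Qb) - y = (1 - (ε : Qb)) * et - (y - 1 - (ε : Qb) * et) by
            simp only [et]; ring]
        refine (A.valuation.map_sub _ _).trans (max_le ?_ (hR.trans (le_max_left _ _)))
        refine le_trans ?_ (le_max_right _ _)
        rw [map_mul]
        refine (mul_le_of_le_one_right' he1.le).trans ?_
        obtain ⟨c, hc⟩ := hεL
        have h1ε : 1 ≤ ε := Nat.one_le_pow _ _ (by norm_num)
        rw [show (1 : Qb) - (ε : Qb) = -((ε - 1 : ℕ) : Qb) by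
            rw [Nat.cast_sub h1ε, Nat.cast_one]; ring, Valuation.map_neg, hc, Nat.cast_mul,
          map_mul, Nat.cast_pow, map_pow]
        exact mul_le_of_le_one_right' ((A.valuation_le_one_iff _).2 (natCast_mem A c))
      calc A.valuation ((((w / yu : C.Mˣ) : C.M) : Qb) - 1) ^ n
          = A.valuation (((w : C.M) : Qb) / y - 1) ^ n := by simp [yu]
        _ ≤ max (A.valuation et ^ 2) (A.valuation ((2 : ℕ) : Qb) ^ L) ^ n :=
            pow_le_pow_left₀ zero_le hbound n
        _ ≤ _ := by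
          rcases max_choice (A.valuation et ^ 2) (A.valuation ((2 : ℕ) : Qb) ^ L) with h | h <;>
            rw [h, ← pow_mul]
          · rw [mul_comm, pow_mul]
            refine (pow_le_pow_left₀ zero_le he2 2).trans ?_
            rw [← pow_mul]
            exact pow_le_pow_right_of_le_one' hv2.le (by omega)
          · exact pow_le_pow_right_of_le_one' hv2.le
              ((show i + 1 ≤ L by omega).trans (Nat.le_mul_of_pos_right L hn0))
  obtain ⟨x₂, hx₂a, hx₂3, hx₂2⟩ := hstep (n * K + 1) (by omega) le_rfl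
  have hx₂K : ∀ A : ValuationSubring Qb, A.LiesOverPrime 2 →
      A.valuation (((x₂ : C.M) : Qb) - 1) ≤ A.valuation (K : Qb) := fun A hA => by
    refine le_trans ?_ (val_pow_le_natCast Nat.prime_two hA hK0 le_rfl)
    rw [map_pow, ← pow_le_pow_iff_left₀ zero_le zero_le hn0.ne', ← pow_mul]
    exact (hx₂2 A hA).trans
      (pow_le_pow_right_of_le_one' (A.mem_nonunits_iff.1 hA).le (by nlinarith))
  -- improving at `3`
  obtain ⟨m, hm0, hm⟩ := exists_pow_le (M := C.M) (show (3 : ℕ).Prime by norm_num)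
  have hcube : ∀ i, ∀ A : ValuationSubring Qb, A.LiesOverPrime 3 →
      A.valuation (((x₂ : C.M) : Qb) ^ 3 ^ i - 1) ^ m ≤ A.valuation ((3 : ℕ) : Qb) ^ (i + 1) := by
    intro i A hA
    induction i with
    | zero => simpa using hm A hA ((x₂ : C.M) - 1) (by simpa using hx₂3 A hA)
    | succ i ih =>
      set e' := ((x₂ : C.M) : Qb) ^ 3 ^ i - 1 with he'
      have hv3 : A.valuation ((3 : ℕ) : Qb) < 1 := A.mem_nonunits_iff.1 hA
      have he1 : A.valuation e' ≤ 1 := by
        by_contra hgt
        exact absurd ((one_le_pow_of_one_le' (not_le.1 hgt).le m).trans ih)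
          (not_le.2 (pow_lt_one₀ zero_le hv3 (by omega)))
      have hb : A.valuation (3 + 3 * e' + e' * e') ≤
          max (A.valuation ((3 : ℕ) : Qb)) (A.valuation e' ^ 2) := by
        refine (A.valuation.map_add _ _).trans (max_le_max ?_ (by rw [sq, map_mul]))
        refine A.valuation.map_add_le (by simp) ?_
        rw [map_mul, Nat.cast_ofNat]
        exact mul_le_of_le_one_right' he1
      calc A.valuation (((x₂ : C.M) : Qb) ^ 3 ^ (i + 1) - 1) ^ m
          = A.valuation (e' * (3 + 3 * e' + e' * e')) ^ m := by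
            congr 2
            rw [he', pow_succ 3 i, pow_mul]
            ring
        _ ≤ A.valuation ((3 : ℕ) : Qb) ^ (i + 1) * A.valuation ((3 : ℕ) : Qb) := by
            rw [map_mul, mul_pow]
            refine mul_le_mul' ih ((pow_le_pow_left₀ zero_le hb m).trans ?_)
            rcases max_choice (A.valuation ((3 : ℕ) : Qb)) (A.valuation e' ^ 2) with h | h <;>
              rw [h]
            · exact pow_le_of_le_one zero_le hv3.le hm0.ne'
            · rw [← pow_mul, mul_comm, pow_mul]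
              refine (pow_le_pow_left₀ zero_le ih 2).trans ?_
              rw [← pow_mul]
              exact pow_le_of_le_one zero_le hv3.le (by omega)
        _ = _ := (pow_succ _ _).symm
  set x₃ := x₂ ^ 3 ^ (m * K)
  have hx₃ : Close K ((x₃ : C.M) : Qb) := by
    rintro A (hA | hA)
    · rw [Units.val_pow_eq_pow_val, SubmonoidClass.coe_pow, ← card_range (3 ^ (m * K)),
        ← prod_const]
      exact val_prod_sub_one_le _ _ ((A.valuation_le_one_iff _).2 (natCast_mem A K))
        fun _ _ => hx₂K A hA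
    · rw [Units.val_pow_eq_pow_val, SubmonoidClass.coe_pow]
      refine le_trans ?_ (val_pow_le_natCast (by norm_num) hA hK0 le_rfl)
      rw [map_pow, ← pow_le_pow_iff_left₀ zero_le zero_le hm0.ne', ← pow_mul]
      exact (hcube _ A hA).trans
        (pow_le_pow_right_of_le_one' (A.mem_nonunits_iff.1 hA).le (by nlinarith))
  have h := hK x₃ hx₃
  rw [artin_pow, hx₂a, hart₁, ← hart₀, nsmul_eq_mul, Nat.cast_pow] at h
  have hu : IsUnit ((((3 : ℕ) : ZMod 4)) ^ (m * K)) :=
    ((ZMod.isUnit_iff_coprime 3 4).2 (by norm_num)).pow _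
  exact hu.mul_right_eq_zero.1 h

end QuarticChar

end FermatAgent.LT.ClassField
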