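import Fermat.Agent.LT.ClassField.Frob
import Fermat.Agent.LT.ClassField.IdealChar
import Fermat.Agent.LT.ClassField.Quadratic

/-!
# The residual characters at the places over `3`
-/

set_option autoImplicit false

noncomputable section

open NumberField IsDedekindDomain

namespace FermatAgent.LT.Setup

open FermatAgent.Duality.Global (Over IsPlace exists_over exists_place ord)
open FermatAgent.LT.ClassField
open FermatAgent.Duality (localField)
open scoped Pointwise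

local notation "Qb" => AlgebraicClosure ℚ
local notation "GQ" => AlgebraicClosure ℚ ≃ₐ[ℚ] AlgebraicClosure ℚ

attribute [local instance] FermatAgent.RT.isGalois_algClosureRat

variable (S : Setup)

/-- The character on the ideals of `M`. -/
def xiM : Ideal (𝓞 S.M) →*₀ ℂ := S.quartic.xi

theorem xiM_eq_zero (I : Ideal (𝓞 S.M)) :
    S.xiM I = 0 ↔ I ⊔ Ideal.span {(3 : 𝓞 S.M)} ≠ ⊤ := S.quartic.xi_eq_zero I

theorem xiM_prime {P : HeightOneSpectrum (𝓞 S.M)} (h3 : (3 : 𝓞 S.M) ∉ P.asIdeal) :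
    S.xiM P.asIdeal = unitPow (Multiplicative.ofAdd (S.quartic.frobVal P)) :=
  S.quartic.xi_prime h3

/-- The places over `3`, as in `exists_places_three`. -/
structure Places where
  /-- places of `F` -/
  w : Fin 3 → HeightOneSpectrum (𝓞 S.F)
  /-- places of `M` -/
  P : Fin 3 → HeightOneSpectrum (𝓞 S.M)
  w_injective : Function.Injective w
  over_w : Over S.F S.A₀ (w 0)
  three_eq : Ideal.span {(3 : 𝓞 S.F)} = ∏ i, (w i).asIdeal ^ 2
  absNorm_w : ∀ i, Ideal.absNorm (w i).asIdeal = 3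
  cover : ∀ v : HeightOneSpectrum (𝓞 S.F), (3 : 𝓞 S.F) ∈ v.asIdeal → ∃ i, v = w i
  inert : (w 0).asIdeal.map (algebraMap (𝓞 S.F) (𝓞 S.M)) = (P 0).asIdeal
  ramified : ∀ i, i ≠ 0 →
    (w i).asIdeal.map (algebraMap (𝓞 S.F) (𝓞 S.M)) = (P i).asIdeal ^ 2
  inertia : ∀ i, i ≠ 0 → ∃ A : ValuationSubring Qb, Over S.F A (w i) ∧ A.LiesOverPrime 3 ∧
    ∃ g ∈ A.inertiaSubgroupIn ℚ, g ∈ S.F.fixingSubgroup ∧ g ∉ S.M.fixingSubgroup

theorem exists_places : Nonempty S.Places := by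
  obtain ⟨w, P, h1, h2, h3, h4, h5, h6, h7, h8⟩ := S.exists_places_three
  exact ⟨⟨w, P, h1, h2, h3, h4, h5, h6, h7, h8⟩⟩

/-- A number congruent to `1` modulo `24` at a place over `2` or `3` is a local square. -/
theorem exists_sq_of_lt {E : IntermediateField ℚ Qb} {x : Qb} (hxE : x ∈ E)
    {A : ValuationSubring Qb} (h : A.valuation (x - 1) < A.valuation ((24 : ℕ) : Qb)) :
    ∃ y ∈ localField E A, y ^ 2 = x := by
  obtain ⟨y, hy, hy2, -⟩ := Duality.Local.exists_pow_eq_of_close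
    (IsPrimitiveRoot.neg_one 0 (by norm_num) : IsPrimitiveRoot (-1 : Qb) 2) (K := E) (A := A)
    (Duality.Local.le_localField hxE) (lt_of_lt_of_le h (by
      rw [show ((24 : ℕ) : Qb) = ((6 : ℕ) : Qb) * 4 by norm_num, map_mul, ← map_pow,
        show ((-1 : Qb) - 1) ^ 2 = 4 by norm_num]
      exact mul_le_of_le_one_left' ((A.valuation_le_one_iff _).2 (natCast_mem A 6))))
  exact ⟨y, hy, hy2⟩

/-- An integral element with prescribed residue at one prime and `1` modulo `24` at the other places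
over `2` and `3`. -/
theorem exists_test {L : IntermediateField ℚ Qb} [NumberField L] (Q : HeightOneSpectrum (𝓞 L))
    (h3 : (3 : 𝓞 L) ∈ Q.asIdeal) (u : 𝓞 L) :
    ∃ y : 𝓞 L, (∀ A, Over L A Q → A.valuation (((y : L) : Qb) - ((u : L) : Qb)) < 1) ∧
      ∀ (P : HeightOneSpectrum (𝓞 L)) (A : ValuationSubring Qb), Over L A P →
        A.LiesOverPrime 2 ∨ A.LiesOverPrime 3 → P ≠ Q →
        A.valuation (((y : L) : Qb) - 1) < A.valuation ((24 : ℕ) : Qb) := by
  classical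
  set T := (CFT.finite_primes_containing (K := L) (x := ((24 : ℕ) : 𝓞 L))
    (Nat.cast_ne_zero.2 (by norm_num))).toFinset
  have hT : ∀ P : HeightOneSpectrum (𝓞 L), ((2 : ℕ) : 𝓞 L) ∈ P.asIdeal ∨
      ((3 : ℕ) : 𝓞 L) ∈ P.asIdeal → P ∈ T := fun P h => by
    refine (Set.Finite.mem_toFinset _).2 ?_
    show ((24 : ℕ) : 𝓞 L) ∈ P.asIdeal
    rcases h with h | h
    · rw [show (24 : ℕ) = 2 * 12 from rfl, Nat.cast_mul]; exact P.asIdeal.mul_mem_right _ h
    · rw [show (24 : ℕ) = 3 * 8 from rfl, Nat.cast_mul]; exact P.asIdeal.mul_mem_right _ h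
  obtain ⟨y, hy⟩ := exists_approx T (fun P => if P = Q then u else 1) (N := 24) (by norm_num)
  refine ⟨y, fun A hA => ?_, fun P A hA hbad hne => ?_⟩
  · have h := hy Q (hT Q (Or.inr (by rwa [Nat.cast_ofNat]))) A hA
    rw [if_pos rfl] at h
    exact lt_of_lt_of_le h ((A.valuation_le_one_iff _).2 (natCast_mem A _))
  · have h := hy P (hT P (hbad.imp (fun h => hA.natCast_mem h) (fun h => hA.natCast_mem h))) A hA
    rw [if_neg hne] at h
    simpa using h

theorem liesOver_three {L : IntermediateField ℚ Qb} [NumberField L] {A : ValuationSubring Qb}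
    {Q : HeightOneSpectrum (𝓞 L)} (hA : Over L A Q) (h3 : (3 : 𝓞 L) ∈ Q.asIdeal) :
    A.LiesOverPrime 3 :=
  A.mem_nonunits_iff.2 ((natCast_mem_iff hA 3).1 (by rwa [Nat.cast_ofNat]))

theorem mem_sub_iff {L : IntermediateField ℚ Qb} [NumberField L] {A : ValuationSubring Qb}
    {Q : HeightOneSpectrum (𝓞 L)} (hA : Over L A Q) (a b : 𝓞 L) :
    a - b ∈ Q.asIdeal ↔ A.valuation (((a : L) : Qb) - ((b : L) : Qb)) < 1 := by
  rw [hA.mem_iff]
  simp

variable {S}

namespace Places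

variable (Pl : S.Places)

theorem three_mem_w (i : Fin 3) : (3 : 𝓞 S.F) ∈ (Pl.w i).asIdeal := by
  have h : ((∏ j, (Pl.w j).asIdeal ^ 2 : Ideal (𝓞 S.F))) ≤ (Pl.w i).asIdeal :=
    Ideal.prod_le_inf.trans ((Finset.inf_le (Finset.mem_univ i)).trans (Ideal.pow_le_self two_ne_zero))
  exact h (Pl.three_eq ▸ Ideal.mem_span_singleton_self _)

theorem map_w_le (i : Fin 3) :
    (Pl.w i).asIdeal.map (algebraMap (𝓞 S.F) (𝓞 S.M)) ≤ (Pl.P i).asIdeal := by
  by_cases hi : i = 0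
  · subst hi; exact Pl.inert.le
  · rw [Pl.ramified i hi]; exact Ideal.pow_le_self two_ne_zero

theorem three_mem_P (i : Fin 3) : (3 : 𝓞 S.M) ∈ (Pl.P i).asIdeal := by
  have := Pl.map_w_le i (Ideal.mem_map_of_mem _ (Pl.three_mem_w i))
  rwa [map_ofNat] at this

theorem under_P (i : Fin 3) : CFT.underPrime S.F S.M (Pl.P i) = Pl.w i :=
  HeightOneSpectrum.ext ((Pl.w i).isMaximal.eq_of_le (CFT.underPrime S.F S.M _).isPrime.ne_top
    (Ideal.map_le_iff_le_comap.1 (Pl.map_w_le i))).symm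

theorem P_injective : Function.Injective Pl.P := fun i j h => Pl.w_injective (by
  rw [← Pl.under_P i, ← Pl.under_P j, h])

theorem eq_P_of_under {Q : HeightOneSpectrum (𝓞 S.M)} {i : Fin 3}
    (h : CFT.underPrime S.F S.M Q = Pl.w i) : Q = Pl.P i := by
  have hle : (Pl.w i).asIdeal.map (algebraMap (𝓞 S.F) (𝓞 S.M)) ≤ Q.asIdeal :=
    Ideal.map_le_iff_le_comap.2 (le_of_eq (by rw [← h, CFT.underPrime_asIdeal, Ideal.under]))
  refine HeightOneSpectrum.ext ((Pl.P i).isMaximal.eq_of_le Q.isPrime.ne_top ?_).symm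
  by_cases hi : i = 0
  · subst hi; rwa [← Pl.inert]
  · rw [Pl.ramified i hi] at hle
    exact Q.isPrime.le_of_pow_le hle

theorem cover_P {Q : HeightOneSpectrum (𝓞 S.M)} (h : (3 : 𝓞 S.M) ∈ Q.asIdeal) :
    ∃ i, Q = Pl.P i := by
  obtain ⟨i, hi⟩ := Pl.cover (CFT.underPrime S.F S.M Q) (by
    rw [CFT.underPrime_asIdeal, Ideal.under, Ideal.mem_comap, map_ofNat]; exact h)
  exact ⟨i, Pl.eq_P_of_under hi⟩

theorem over_P_zero : Over S.M S.A₀ (Pl.P 0) := by
  obtain ⟨Q, hQ⟩ := exists_over (K := S.M) (A := S.A₀) ⟨3, by norm_num, S.A₀_liesOver⟩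
  rwa [← Pl.eq_P_of_under ((S.over_under hQ).eq Pl.over_w)]

theorem sup_three_of_notMem {a : 𝓞 S.M} (h : ∀ i, a ∉ (Pl.P i).asIdeal) :
    ∀ Q : HeightOneSpectrum (𝓞 S.M), (3 : 𝓞 S.M) ∈ Q.asIdeal → a ∉ Q.asIdeal := fun Q hQ => by
  obtain ⟨i, rfl⟩ := Pl.cover_P hQ
  exact h i

/-- A number prime to `3` as a unit of the field. -/
def unit {a : 𝓞 S.M} (h : ∀ i, a ∉ (Pl.P i).asIdeal) : S.quartic.Mˣ :=
  Units.mk0 (algebraMap (𝓞 S.M) S.M a) fun h0 => h 0 (by
    rw [(FaithfulSMul.algebraMap_eq_zero_iff (𝓞 S.M) S.M).1 h0]; exact zero_mem _)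

theorem xi_span {a : 𝓞 S.M} (h : ∀ i, a ∉ (Pl.P i).asIdeal) :
    S.xiM (Ideal.span {a}) =
      unitPow (Multiplicative.ofAdd (S.quartic.artin (Pl.unit h))) :=
  S.quartic.xi_span (fun h0 => h 0 (by rw [show a = 0 from h0]; exact zero_mem _)) (Pl.sup_three_of_notMem h) _ rfl

theorem val_eq_one {a : 𝓞 S.M} (h : ∀ i, a ∉ (Pl.P i).asIdeal) {A : ValuationSubring Qb}
    (hA : A.LiesOverPrime 3) : A.valuation ((a : S.M) : Qb) = 1 := by
  obtain ⟨Q, hQ⟩ := exists_over (K := S.M) (A := A) ⟨3, by norm_num, hA⟩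
  exact hQ.val_eq_one_of_not_mem
    (Pl.sup_three_of_notMem h Q (by simpa using hQ.natCast_mem hA))

/-- **The Frobenius sum only depends on the residues over `3`.** -/
theorem artin_congr {a b : 𝓞 S.M} (ha : ∀ i, a ∉ (Pl.P i).asIdeal)
    (hb : ∀ i, b ∉ (Pl.P i).asIdeal) (h : ∀ i, a - b ∈ (Pl.P i).asIdeal) :
    S.quartic.artin (Pl.unit ha) = S.quartic.artin (Pl.unit hb) := by
  have hnear : Pl.unit ha / Pl.unit hb ∈ near S.quartic.M 3 := by
    intro A hA
    obtain ⟨Q, hQ⟩ := exists_over (K := S.M) (A := A) ⟨3, by norm_num, hA⟩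
    obtain ⟨i, rfl⟩ := Pl.cover_P (by simpa using hQ.natCast_mem hA)
    rw [Units.val_div_eq_div_val, IntermediateField.coe_div]
    show A.valuation (((a : S.M) : Qb) / ((b : S.M) : Qb) - 1) < 1
    have hb1 := Pl.val_eq_one hb hA
    rw [div_sub_one (fun h0 => by simp [h0] at hb1), map_div₀, hb1, div_one]
    exact (mem_sub_iff hQ a b).1 (h i)
  have h1 := S.quartic.artin_mul (Pl.unit ha / Pl.unit hb) (Pl.unit hb)
  rwa [div_mul_cancel, S.quartic.artin_eq_zero_of_near hnear, zero_add] at h1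

open scoped Classical in
/-- The residual lift: a given class at `P i` and `1` at the others. -/
theorem exists_lift (i : Fin 3) (r : 𝓞 S.M ⧸ (Pl.P i).asIdeal) :
    ∃ a : 𝓞 S.M, Ideal.Quotient.mk _ a = r ∧ ∀ j, j ≠ i → a - 1 ∈ (Pl.P j).asIdeal := by
  obtain ⟨c, rfl⟩ := Ideal.Quotient.mk_surjective r
  obtain ⟨a, ha⟩ := IsDedekindDomain.exists_forall_sub_mem_ideal (s := Finset.univ)
    (fun j => (Pl.P j).asIdeal) (fun _ => 1) (fun j _ => (Pl.P j).prime)
    (fun j _ k _ h hjk => h (Pl.P_injective (HeightOneSpectrum.ext hjk)))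
    (fun j => if j.1 = i then c else 1)
  refine ⟨a, ?_, fun j hj => ?_⟩
  · have := ha i (Finset.mem_univ _)
    rw [pow_one, if_pos rfl] at this
    exact Ideal.Quotient.eq.2 this
  · have := ha j (Finset.mem_univ _)
    rwa [pow_one, if_neg hj] at this

/-- The lift. -/
def liftAt (i : Fin 3) (r : 𝓞 S.M ⧸ (Pl.P i).asIdeal) : 𝓞 S.M := (Pl.exists_lift i r).choose

theorem mk_liftAt (i : Fin 3) (r : 𝓞 S.M ⧸ (Pl.P i).asIdeal) :
    Ideal.Quotient.mk _ (Pl.liftAt i r) = r := (Pl.exists_lift i r).choose_spec.1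

theorem liftAt_sub_one (i : Fin 3) (r : 𝓞 S.M ⧸ (Pl.P i).asIdeal) {j : Fin 3} (hj : j ≠ i) :
    Pl.liftAt i r - 1 ∈ (Pl.P j).asIdeal := (Pl.exists_lift i r).choose_spec.2 j hj

theorem notMem_of_sub_one {a : 𝓞 S.M} {j : Fin 3} (h : a - 1 ∈ (Pl.P j).asIdeal) :
    a ∉ (Pl.P j).asIdeal := fun ha =>
  (Pl.P j).isPrime.ne_top ((Ideal.eq_top_iff_one _).2 (by simpa using sub_mem ha h))

theorem liftAt_notMem (i : Fin 3) {r : 𝓞 S.M ⧸ (Pl.P i).asIdeal} (hr : r ≠ 0) (j : Fin 3) :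
    Pl.liftAt i r ∉ (Pl.P j).asIdeal := by
  by_cases hj : j = i
  · subst hj
    rwa [← Ideal.Quotient.eq_zero_iff_mem, Pl.mk_liftAt]
  · exact Pl.notMem_of_sub_one (Pl.liftAt_sub_one i r hj)

theorem one_notMem (j : Fin 3) : (1 : 𝓞 S.M) ∉ (Pl.P j).asIdeal :=
  fun h => (Pl.P j).isPrime.ne_top ((Ideal.eq_top_iff_one _).2 h)

theorem mul_notMem {a b : 𝓞 S.M} (ha : ∀ i, a ∉ (Pl.P i).asIdeal) (hb : ∀ i, b ∉ (Pl.P i).asIdeal)
    (i : Fin 3) : a * b ∉ (Pl.P i).asIdeal := (Pl.P i).isPrime.mul_notMem (ha i) (hb i)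

open scoped Classical in
/-- The residual character at `P i`. -/
def chi (i : Fin 3) : MulChar (𝓞 S.M ⧸ (Pl.P i).asIdeal) ℂ where
  toFun r := if h : r = 0 then 0 else
    unitPow (Multiplicative.ofAdd (S.quartic.artin (Pl.unit (Pl.liftAt_notMem i h))))
  map_one' := by
    have : (1 : 𝓞 S.M ⧸ (Pl.P i).asIdeal) ≠ 0 := fun h => Pl.one_notMem i
      (Ideal.Quotient.eq_zero_iff_mem.1 (by rw [map_one]; exact h))
    rw [dif_neg this, Pl.artin_congr (Pl.liftAt_notMem i this) Pl.one_notMem fun j => ?_]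
    · rw [show Pl.unit Pl.one_notMem = 1 from Units.ext (map_one _), S.quartic.artin_one,
        ofAdd_zero, map_one]
    · by_cases hj : j = i
      · subst hj
        rw [← Ideal.Quotient.eq, Pl.mk_liftAt, map_one]
      · exact Pl.liftAt_sub_one i _ hj
  map_mul' r s := by
    have := (Pl.P i).isPrime
    by_cases hr : r = 0
    · rw [dif_pos hr, zero_mul, dif_pos (by rw [hr, zero_mul])]
    by_cases hs : s = 0
    · rw [dif_pos hs, mul_zero, dif_pos (by rw [hs, mul_zero])]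
    rw [dif_neg hr, dif_neg hs, dif_neg (mul_ne_zero hr hs), ← map_mul, ← ofAdd_add,
      ← S.quartic.artin_mul, Pl.artin_congr (Pl.liftAt_notMem i (mul_ne_zero hr hs))
        (Pl.mul_notMem (Pl.liftAt_notMem i hr) (Pl.liftAt_notMem i hs)) fun j => ?_]
    · rw [show Pl.unit (Pl.mul_notMem (Pl.liftAt_notMem i hr) (Pl.liftAt_notMem i hs)) =
        Pl.unit (Pl.liftAt_notMem i hr) * Pl.unit (Pl.liftAt_notMem i hs) from
          Units.ext (map_mul _ _ _)]
    · by_cases hj : j = i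
      · subst hj
        rw [← Ideal.Quotient.eq, map_mul, Pl.mk_liftAt, Pl.mk_liftAt, Pl.mk_liftAt]
      · rw [show Pl.liftAt i (r * s) - Pl.liftAt i r * Pl.liftAt i s = (Pl.liftAt i (r * s) - 1) -
          (Pl.liftAt i r - 1) * Pl.liftAt i s - (Pl.liftAt i s - 1) by ring]
        exact sub_mem (sub_mem (Pl.liftAt_sub_one i _ hj)
          ((Pl.P j).asIdeal.mul_mem_right _ (Pl.liftAt_sub_one i _ hj))) (Pl.liftAt_sub_one i _ hj)
  map_nonunit' r hr := by
    have := (Pl.P i).isMaximal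
    rw [dif_pos]
    by_contra h
    obtain ⟨b, hb⟩ := Ideal.Quotient.exists_inv h
    exact hr (IsUnit.of_mul_eq_one _ hb)

theorem chi_mk {i : Fin 3} {a : 𝓞 S.M} (ha : ∀ j, a ∉ (Pl.P j).asIdeal)
    (h : ∀ j, j ≠ i → a - 1 ∈ (Pl.P j).asIdeal) :
    Pl.chi i (Ideal.Quotient.mk _ a) = unitPow (Multiplicative.ofAdd (S.quartic.artin (Pl.unit ha))) := by
  classical
  have hne : Ideal.Quotient.mk (Pl.P i).asIdeal a ≠ 0 := fun e => ha i (Ideal.Quotient.eq_zero_iff_mem.1 e)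
  show (if h : _ = 0 then (0 : ℂ) else _) = _
  rw [dif_neg hne, Pl.artin_congr (Pl.liftAt_notMem i hne) ha fun j => ?_]
  by_cases hj : j = i
  · subst hj
    rw [← Ideal.Quotient.eq, Pl.mk_liftAt]
  · rw [show Pl.liftAt i (Ideal.Quotient.mk _ a) - a = (Pl.liftAt i (Ideal.Quotient.mk _ a) - 1) - (a - 1)
      by ring]
    exact sub_mem (Pl.liftAt_sub_one i _ hj) (h j hj)

/-- **The character on principal ideals.** -/
theorem xi_principal {x : 𝓞 S.M} (hx : ∀ i, x ∉ (Pl.P i).asIdeal) :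
    S.xiM (Ideal.span {x}) = ∏ i, Pl.chi i (Ideal.Quotient.mk _ x) := by
  classical
  have hne : ∀ i, Ideal.Quotient.mk (Pl.P i).asIdeal x ≠ 0 := fun i e =>
    hx i (Ideal.Quotient.eq_zero_iff_mem.1 e)
  set l : Fin 3 → 𝓞 S.M := fun i => Pl.liftAt i (Ideal.Quotient.mk _ x)
  have hl : ∀ i j, l i ∉ (Pl.P j).asIdeal := fun i j => Pl.liftAt_notMem i (hne i) j
  have hcong : ∀ i, x - l 0 * (l 1 * l 2) ∈ (Pl.P i).asIdeal := by
    intro i
    rw [← Ideal.Quotient.eq, map_mul, map_mul]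
    have h1 : ∀ j, j ≠ i → Ideal.Quotient.mk (Pl.P i).asIdeal (l j) = 1 := fun j hj => by
      rw [← map_one (Ideal.Quotient.mk (Pl.P i).asIdeal), Ideal.Quotient.eq]
      exact Pl.liftAt_sub_one j _ hj.symm
    have h2 : Ideal.Quotient.mk (Pl.P i).asIdeal (l i) = Ideal.Quotient.mk _ x := Pl.mk_liftAt i _
    fin_cases i
    · rw [h1 1 (by decide), h1 2 (by decide), mul_one, mul_one]; exact h2.symm
    · rw [h1 0 (by decide), h1 2 (by decide), one_mul, mul_one]; exact h2.symm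
    · rw [h1 0 (by decide), h1 1 (by decide), one_mul, one_mul]; exact h2.symm
  rw [Pl.xi_span hx, Pl.artin_congr hx (Pl.mul_notMem (hl 0) (Pl.mul_notMem (hl 1) (hl 2))) hcong,
    show Pl.unit (Pl.mul_notMem (hl 0) (Pl.mul_notMem (hl 1) (hl 2))) =
      Pl.unit (hl 0) * (Pl.unit (hl 1) * Pl.unit (hl 2)) from Units.ext (by
        show algebraMap (𝓞 S.M) S.M _ = algebraMap (𝓞 S.M) S.M _ * (algebraMap (𝓞 S.M) S.M _ * algebraMap (𝓞 S.M) S.M _)
        rw [map_mul, map_mul]),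
    S.quartic.artin_mul, S.quartic.artin_mul, ofAdd_add, ofAdd_add, map_mul, map_mul,
    Fin.prod_univ_three, mul_assoc]
  have hd : ∀ i, Pl.chi i (Ideal.Quotient.mk _ x) =
      unitPow (Multiplicative.ofAdd (S.quartic.artin (Pl.unit (hl i)))) := fun i => dif_neg (hne i)
  rw [hd 0, hd 1, hd 2]

/-! ### Nontriviality -/

theorem chi_zero_sq : Pl.chi 0 ^ 2 ≠ 1 := by
  classical
  let φ := S.quartic.parity
  have hA := Pl.over_P_zero
  have hN : Ideal.absNorm (Pl.P 0).asIdeal = 9 := by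
    rw [← Pl.inert, S.absNorm_map, Pl.absNorm_w]
    norm_num
  obtain ⟨u, hu, hu4⟩ : ∃ u : 𝓞 S.M, u ∉ (Pl.P 0).asIdeal ∧ u ^ 4 - 1 ∉ (Pl.P 0).asIdeal := by
    by_contra! hall
    have := CFT.absNorm_le_of_forall_pow_sub_mem (Pl.P 0) (by norm_num : 1 < 5) fun x => by
      by_cases hx : x ∈ (Pl.P 0).asIdeal
      · exact sub_mem (Ideal.pow_mem_of_mem _ hx 5 (by norm_num)) hx
      · rw [show x ^ 5 - x = (x ^ 4 - 1) * x by ring]
        exact (Pl.P 0).asIdeal.mul_mem_right _ (hall x hx)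
    omega
  obtain ⟨y, hy₁, hy₂⟩ := exists_test (Pl.P 0) (Pl.three_mem_P 0) u
  have hyu := (mem_sub_iff hA y u).2 (hy₁ _ hA)
  have hy0 : y ∉ (Pl.P 0).asIdeal := fun h => hu (by simpa using sub_mem h hyu)
  have hy1 : ∀ j, j ≠ 0 → y - 1 ∈ (Pl.P j).asIdeal := fun j hj => by
    obtain ⟨A, hA'⟩ := exists_place (Pl.P j)
    have h3 := liesOver_three hA' (Pl.three_mem_P j)
    have h := (hy₂ _ A hA' (Or.inr h3) (fun e => hj (Pl.P_injective e))).trans_le
      ((A.valuation_le_one_iff _).2 (natCast_mem A _))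
    exact (mem_sub_iff hA' y 1).2 (by simpa using h)
  have hy : ∀ j, y ∉ (Pl.P j).asIdeal := fun j => by
    by_cases hj : j = 0
    · exact hj ▸ hy0
    · exact Pl.notMem_of_sub_one (hy1 j hj)
  have hyv : S.A₀.valuation ((y : S.M) : Qb) = 1 := hA.val_eq_one_of_not_mem hy0
  have hodd := exists_odd_sum φ S.quartic.exists_level_parity
    (fun l hl hl3 A hlA i hi => S.quartic.parity_of_chi_eq_one (S.quartic.unramified l hl hl3 A hlA i hi))
    S.quartic.totallyComplex S.A₀_liesOver hA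
    ⟨⟨S.tameGen ^ 2, S.mem_fix_M.2 (by rw [map_pow]; exact Subgroup.mem_zpowers _)⟩,
      pow_mem S.tameGen_mem 2, by
        intro h
        have h1 : S.quartic.χ ⟨S.tameGen ^ 2, S.mem_fix_M.2 (by
            rw [map_pow]; exact Subgroup.mem_zpowers _)⟩ = Multiplicative.ofAdd ((1 : ℤ) : ZMod 4) :=
          S.quartChi_spec (g := ⟨S.tameGen ^ 2, _⟩) (k := 1)
            (by rw [zpow_one]; exact map_pow _ _ _)
        rw [QuarticChar.parity_eq_one_iff, h1] at h
        revert h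
        simp
        decide⟩
    (fun Q => ZMod.castHom (show 2 ∣ 4 by norm_num) (ZMod 2) (S.quartic.frobVal Q))
    (fun Q A g h3 hQ hg => by
      rw [S.quartic.frobVal_eq h3 ⟨g.2, A, fun x => (hQ.mem_iff x).trans A.mem_nonunits_iff.symm, hg⟩]
      rfl)
    (x := Pl.unit hy) hyv
    (not_localSquare hA hyv (n := 4) (by omega) fun h => hu4 (by
      have h1 : y ^ 4 - 1 ∈ (Pl.P 0).asIdeal := (hA.mem_iff _).2 (by
        have h' : S.A₀.valuation (((y : S.M) : Qb) ^ 4 - 1) < 1 := h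
        simpa using h')
      have h2 : y ^ 4 - u ^ 4 ∈ (Pl.P 0).asIdeal :=
        Ideal.mem_of_dvd _ (sub_dvd_pow_sub_pow y u 4) hyu
      simpa using sub_mem h1 h2))
    (fun Q A hQ hbad hne => by
      have h := hy₂ Q A hQ hbad hne
      exact ⟨Duality.Local.val_eq_one_of_sub_lt (h.trans_le
        ((A.valuation_le_one_iff _).2 (natCast_mem A _))),
        exists_sq_of_lt (y : S.M).2 h⟩)
  have hcast : ZMod.castHom (show 2 ∣ 4 by norm_num) (ZMod 2) (S.quartic.artin (Pl.unit hy)) = 1 := by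
    rw [← hodd, QuarticChar.artin]
    refine ((ZMod.castHom (show 2 ∣ 4 by norm_num) (ZMod 2)).toAddMonoidHom.map_finsum
      (S.quartic.artin_finite _)).trans (finsum_congr fun Q => ?_)
    exact map_zsmul (ZMod.castHom (show 2 ∣ 4 by norm_num) (ZMod 2)).toAddMonoidHom _ _
  intro h
  have h1 := DFunLike.congr_fun h (Ideal.Quotient.mk _ y)
  rw [MulChar.pow_apply' _ two_ne_zero, Pl.chi_mk hy hy1,
    MulChar.one_apply (by
      have := (Pl.P 0).isMaximal
      obtain ⟨b, hb⟩ := Ideal.Quotient.exists_inv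
        (show Ideal.Quotient.mk (Pl.P 0).asIdeal y ≠ 0 from
          fun e => hy0 (Ideal.Quotient.eq_zero_iff_mem.1 e))
      exact IsUnit.of_mul_eq_one _ hb), ← map_pow, ← ofAdd_nsmul] at h1
  have key : ∀ a : ZMod 4, ZMod.castHom (show 2 ∣ 4 by norm_num) (ZMod 2) a = 1 → 2 • a = 2 := by
    decide
  rw [key _ hcast, unitPow_two] at h1
  norm_num at h1

theorem chi_neg_one {i : Fin 3} (hi : i ≠ 0) :
    Pl.chi i (Ideal.Quotient.mk _ (-1)) = -1 := by
  classical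
  obtain ⟨A₁, hA₁, h3A, g, hgI, hgF, hgM⟩ := Pl.inertia i hi
  obtain ⟨y, hy₁, hy₂⟩ := exists_test (Pl.w i) (Pl.three_mem_w i) (-1)
  have hyv : A₁.valuation ((y : S.F) : Qb) = 1 := by
    have h := hy₁ _ hA₁
    simp only [map_neg, map_one, IntermediateField.coe_neg, IntermediateField.coe_one,
      sub_neg_eq_add] at h
    rw [show ((y : S.F) : Qb) = -1 + (((y : S.F) : Qb) + 1) by ring,
      A₁.valuation.map_add_eq_of_lt_left (by rwa [Valuation.map_neg, map_one]), Valuation.map_neg,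
      map_one]
  have hy0 : y ≠ 0 := fun h => by simp [h] at hyv
  let x : S.Fˣ := Units.mk0 (algebraMap (𝓞 S.F) S.F y) (by simpa using hy0)
  let a : HeightOneSpectrum (𝓞 S.F) → ZMod 2 := fun q =>
    (S.eps ⟨(exists_isFrobOver S.F q).choose, (exists_isFrobOver S.F q).choose_spec.1⟩).toAdd
  have ha : ∀ (q : HeightOneSpectrum (𝓞 S.F)) (A : ValuationSubring Qb) (g : S.F.fixingSubgroup),
      (3 : 𝓞 S.F) ∉ q.asIdeal → Over S.F A q →
        A.IsFrobeniusAt (g : GQ) (Ideal.absNorm q.asIdeal) → a q = (S.eps g).toAdd := by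
    intro q A g h3 hA hgA
    suffices key : ∀ (τ : GQ) (hτ' : IsFrobOver q τ), (S.eps ⟨τ, hτ'.1⟩).toAdd = (S.eps g).toAdd from
      key _ (exists_isFrobOver S.F q).choose_spec
    rintro τ ⟨hτ, B, hB, hτB⟩
    obtain ⟨h, hh, rfl⟩ := Duality.Global.exists_smul_eq_of_over hA (over_of_nonunits hB)
    obtain ⟨l, hl, hlA⟩ := hA.1
    have hl3 : l ≠ 3 := fun e => h3 (by simpa [e] using hA.natCast_mem hlA)
    have h1 := TW.conj_isFrobeniusAt (g := h) hgA
    have h2 := TW.inv_mul_mem_inertia h1 hτB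
    have hmem : h * (g : GQ) * h⁻¹ ∈ S.F.fixingSubgroup := mul_mem (mul_mem hh g.2) (inv_mem hh)
    have h3' := S.eps_inertia l hl hl3 (h • A) (TW.smul_liesOverPrime hlA h)
      ((⟨h * (g : GQ) * h⁻¹, hmem⟩ : S.F.fixingSubgroup)⁻¹ * ⟨τ, hτ⟩)
      (by rw [Subgroup.coe_mul, Subgroup.coe_inv]; exact h2)
    rw [map_mul, map_inv, inv_mul_eq_one] at h3'
    refine congrArg Multiplicative.toAdd ?_
    rw [← h3', show (⟨h * (g : GQ) * h⁻¹, hmem⟩ : S.F.fixingSubgroup) = ⟨h, hh⟩ * g * ⟨h, hh⟩⁻¹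
      from rfl, map_mul, map_mul, map_inv, mul_inv_cancel_comm]
  have hodd := exists_odd_sum S.eps S.exists_level_eps S.eps_inertia S.instIsTotallyComplexF h3A hA₁
    ⟨⟨g, hgF⟩, hgI, fun h => hgM ((S.eps_eq_one_iff _).1 h)⟩ a ha (x := x) hyv
    (not_localSquare hA₁ hyv (n := 1) (by rw [Pl.absNorm_w]) fun h => by
      rw [pow_one] at h
      have h1 := hy₁ _ hA₁
      simp only [map_neg, map_one, IntermediateField.coe_neg, IntermediateField.coe_one,
        sub_neg_eq_add] at h1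
      have h' : A₁.valuation (((y : S.F) : Qb) - 1) < 1 := h
      have h2 := A₁.valuation.map_sub_lt h1 h'
      rw [show ((y : S.F) : Qb) + 1 - (((y : S.F) : Qb) - 1) = ((2 : ℤ) : Qb) by push_cast; ring,
        FermatAgent.Local.val_intCast_eq_one (by norm_num) h3A (by norm_num)] at h2
      exact lt_irrefl _ h2)
    (fun Q A hQ hbad hne => by
      have h := hy₂ Q A hQ hbad hne
      exact ⟨Duality.Local.val_eq_one_of_sub_lt (h.trans_le
        ((A.valuation_le_one_iff _).2 (natCast_mem A _))),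
        exists_sq_of_lt (y : S.F).2 h⟩)
  -- the element in `M`
  set ι := algebraMap (𝓞 S.F) (𝓞 S.M)
  have hιw : ∀ (j : Fin 3) (b : 𝓞 S.F), b ∈ (Pl.w j).asIdeal → ι b ∈ (Pl.P j).asIdeal :=
    fun j b hb => Pl.map_w_le j (Ideal.mem_map_of_mem _ hb)
  have hyi : y + 1 ∈ (Pl.w i).asIdeal := by
    have := (mem_sub_iff hA₁ y (-1)).2 (hy₁ _ hA₁)
    rwa [sub_neg_eq_add] at this
  have hyj : ∀ j, j ≠ i → y - 1 ∈ (Pl.w j).asIdeal := fun j hj => by
    obtain ⟨A, hA'⟩ := exists_place (Pl.w j)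
    have h3 := liesOver_three hA' (Pl.three_mem_w j)
    have h := (hy₂ _ A hA' (Or.inr h3) (fun e => hj (Pl.w_injective e))).trans_le
      ((A.valuation_le_one_iff _).2 (natCast_mem A _))
    exact (mem_sub_iff hA' y 1).2 (by simpa using h)
  have hMi : ι y - -1 ∈ (Pl.P i).asIdeal := by
    have := hιw i _ hyi
    rwa [map_add, map_one, ← sub_neg_eq_add] at this
  have hMj : ∀ j, j ≠ i → ι y - 1 ∈ (Pl.P j).asIdeal := fun j hj => by
    have := hιw j _ (hyj j hj)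
    rwa [map_sub, map_one] at this
  have hyM : ∀ j, ι y ∉ (Pl.P j).asIdeal := fun j => by
    by_cases hj : j = i
    · subst hj
      exact fun h => Pl.one_notMem _ (by simpa using sub_mem hMi h)
    · exact Pl.notMem_of_sub_one (hMj j hj)
  rw [← show Ideal.Quotient.mk (Pl.P i).asIdeal (ι y) = Ideal.Quotient.mk _ (-1) from
    Ideal.Quotient.eq.2 hMi, Pl.chi_mk hyM hMj, ← Pl.xi_span hyM]
  have e : Ideal.span {ι y} = (Ideal.span {y}).map ι := by rw [Ideal.map_span, Set.image_singleton]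
  refine (congrArg S.xiM e).trans ?_
  let φ : Ideal (𝓞 S.F) →* ℂ :=
    { toFun := fun I => S.xiM (I.map ι)
      map_one' := by rw [Ideal.one_eq_top, Ideal.map_top, ← Ideal.one_eq_top, map_one]
      map_mul' := fun I J => by rw [Ideal.map_mul, map_mul] }
  obtain ⟨g', hg'F, hg'M⟩ := S.exists_gal
  have h := eval_span (φ := φ) (ψ := signPow) (b := a) hy0 x rfl fun q hq => by
    have h3 : (3 : 𝓞 S.F) ∉ q.asIdeal := fun h => by
      obtain ⟨j, rfl⟩ := Pl.cover q h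
      exact hyM j (hιw j _ hq)
    obtain ⟨A, hA⟩ := exists_place q
    obtain ⟨τ, hτ, -, -, hτA⟩ := exists_frobenius_over S.F hA
    rw [ha q A ⟨τ, hτ⟩ h3 hA hτA]
    obtain ⟨Q, hQ3, hcase⟩ := S.splitting hg'F hg'M h3 hA hτ hτA
    show S.xiM (q.asIdeal.map ι) = _
    rcases hcase with ⟨hmap, hτM, hval⟩ | ⟨-, hmap, hτM, -⟩
    · rw [show q.asIdeal.map ι = Q.asIdeal from hmap, S.xiM_prime hQ3, hval, unitPow_two]
      have hne : S.eps ⟨τ, hτ⟩ ≠ 1 := fun e => hτM ((S.eps_eq_one_iff _).1 e)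
      have he : S.eps ⟨τ, hτ⟩ = Multiplicative.ofAdd 1 := by
        revert hne
        generalize S.eps ⟨τ, hτ⟩ = e
        revert e
        decide
      rw [he]
      show (-1 : ℂ) = (-1) ^ (1 : ZMod 2).val
      exact (pow_one _).symm
    · obtain ⟨h3', -, hneg⟩ := S.conjPrime_frobVal hg'F hg'M hQ3
      rw [show q.asIdeal.map ι = Q.asIdeal * (S.conjPrime hg'F hg'M Q).asIdeal from hmap, map_mul,
        S.xiM_prime hQ3, S.xiM_prime h3', hneg, unitPow_neg_mul,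
        (S.eps_eq_one_iff ⟨τ, hτ⟩).2 hτM, toAdd_one, ofAdd_zero, map_one]
  rw [hodd] at h
  exact h.trans (show (-1 : ℂ) ^ (1 : ZMod 2).val = -1 from pow_one _)

end Places

end FermatAgent.LT.Setup
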