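import Fermat.Agent.LT.ClassField.Adjust
import Fermat.Agent.LT.ClassField.QuadNorm
import Fermat.Agent.LT.ClassField.Cyclo
import Fermat.Agent.LT.ClassField.Potential

/-!
# Tools for crossing with the `2`-tower

Fields cut out by kernels, square roots attached to parity characters, closeness to `1` at the
places over `2` and `3`.
-/

set_option autoImplicit false

noncomputable section

open NumberField IsDedekindDomain
open scoped Pointwise

namespace FermatAgent.LT.ClassField

open FermatAgent.Duality (localGroup localField)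
open FermatAgent.Duality.Global (Over IsPlace exists_over exists_place ord)
open FermatAgent.Duality.Local (rootP rootP_pow)

local notation "Qb" => AlgebraicClosure ℚ
local notation "GQ" => AlgebraicClosure ℚ ≃ₐ[ℚ] AlgebraicClosure ℚ

attribute [local instance] FermatAgent.RT.isGalois_algClosureRat
  FermatAgent.Duality.Global.numberField_of_finite

section KerField

variable {M : IntermediateField ℚ Qb} {Q : Type} [Group Q] (f : M.fixingSubgroup →* Q)

/-- The field cut out by the kernel. -/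
def kerField : IntermediateField ℚ Qb :=
  IntermediateField.fixedField (f.ker.map M.fixingSubgroup.subtype)

theorem le_kerField : M ≤ kerField f := by
  rintro x hx ⟨g, hg⟩
  obtain ⟨g', -, rfl⟩ := hg
  exact g'.2 ⟨x, hx⟩

variable [FiniteDimensional ℚ M]
  (hlev : ∃ L : IntermediateField ℚ Qb, FiniteDimensional ℚ L ∧
    ∀ h : M.fixingSubgroup, (h : GQ) ∈ L.fixingSubgroup → f h = 1)

include hlev in
theorem kerField_le_level : ∃ L : IntermediateField ℚ Qb, FiniteDimensional ℚ L ∧
    kerField f ≤ L := by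
  obtain ⟨L, hL, hLf⟩ := hlev
  refine ⟨L ⊔ M, IntermediateField.finiteDimensional_sup L M, ?_⟩
  rw [← InfiniteGalois.fixedField_fixingSubgroup (L ⊔ M)]
  refine IntermediateField.fixedField_antitone fun g hg => ?_
  rw [IntermediateField.fixingSubgroup_sup] at hg
  exact ⟨⟨g, hg.2⟩, hLf ⟨g, hg.2⟩ hg.1, rfl⟩

include hlev in
theorem finiteDimensional_kerField : FiniteDimensional ℚ (kerField f) := by
  obtain ⟨L, hL, hle⟩ := kerField_le_level f hlev
  exact FiniteDimensional.of_injective (IntermediateField.inclusion hle).toLinearMap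
    (IntermediateField.inclusion hle).injective

include hlev in
theorem mem_fix_kerField {g : GQ} :
    g ∈ (kerField f).fixingSubgroup ↔ ∃ h : g ∈ M.fixingSubgroup, f ⟨g, h⟩ = 1 := by
  obtain ⟨L, hL, hLf⟩ := hlev
  have hopen : IsOpen ((f.ker.map M.fixingSubgroup.subtype : Subgroup GQ) : Set GQ) := by
    refine Subgroup.isOpen_mono (fun g hg => ?_)
      (IntermediateField.fixingSubgroup_isOpen (L ⊔ M : IntermediateField ℚ Qb))
    · rw [IntermediateField.fixingSubgroup_sup] at hg
      exact ⟨⟨g, hg.2⟩, hLf ⟨g, hg.2⟩ hg.1, rfl⟩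
  have hfix : (kerField f).fixingSubgroup = f.ker.map M.fixingSubgroup.subtype :=
    InfiniteGalois.fixingSubgroup_fixedField ⟨_, Subgroup.isClosed_of_isOpen _ hopen⟩
  rw [hfix]
  exact ⟨fun ⟨g', h1, h2⟩ => by subst h2; exact ⟨g'.2, h1⟩, fun ⟨h, h1⟩ => ⟨⟨g, h⟩, h1, rfl⟩⟩

end KerField

theorem isTotallyComplex_of_le {M E : IntermediateField ℚ Qb} (hM : IsTotallyComplex M)
    (h : M ≤ E) : IsTotallyComplex E :=
  ⟨fun _ => InfinitePlace.not_isReal_iff_isComplex.mp fun hw =>
    InfinitePlace.not_isReal_iff_isComplex.mpr (hM.isComplex _)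
      (hw.comap (IntermediateField.inclusion h).toRingHom)⟩

/-- A parity character is the sign of an integral square root. -/
theorem exists_sqrt_char {E : IntermediateField ℚ Qb} [FiniteDimensional ℚ E]
    (φ : E.fixingSubgroup →* Multiplicative (ZMod 2))
    (hlev : ∃ L : IntermediateField ℚ Qb, FiniteDimensional ℚ L ∧
      ∀ h : E.fixingSubgroup, (h : GQ) ∈ L.fixingSubgroup → φ h = 1) :
    ∃ r : Qb, r ≠ 0 ∧ IsIntegral ℤ r ∧ r ^ 2 ∈ E ∧
      (∀ g : E.fixingSubgroup, φ g = 1 → (g : GQ) r = r) ∧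
      ∀ g : E.fixingSubgroup, φ g ≠ 1 → (g : GQ) r = -r := by
  have hμ := containsMuP_two E
  obtain ⟨L, hL, hLf⟩ := hlev
  let f : Duality.Z1 (Duality.subLevels E.fixingSubgroup)
      (Duality.triv (ZMod 2) E.fixingSubgroup) :=
    ⟨fun g => (φ g).toAdd, Duality.Local.isLev₁_iff_exists_field.2 ⟨L, hL, fun g u hu => by
        show (φ (g * u)).toAdd = (φ g).toAdd
        rw [map_mul, hLf u hu, mul_one]⟩,
      fun g h => by
        show (φ (g * h)).toAdd = (φ h).toAdd + (φ g).toAdd
        rw [map_mul, toAdd_mul, add_comm]⟩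
  obtain ⟨c, hc⟩ := Duality.Local.kap_surjective (Duality.Global.muGlobal hμ) f
  obtain ⟨a, rfl⟩ := Duality.Global.toFix_surjective (K := E) c
  set ρ := rootP 2 ((a : E) : Qb)
  have hρ0 : ρ ≠ 0 := Duality.Global.rootP_ne_zero a
  obtain ⟨d, hd0, hint⟩ := ((IsFractionRing.isAlgebraic_iff ℤ ℚ Qb).2
    ((AlgebraicClosure.isAlgebraic ℚ).isAlgebraic ρ)).exists_integral_multiple
  rw [zsmul_eq_mul] at hint
  have hspec : ∀ g : E.fixingSubgroup,
      (g : GQ) ρ = (Duality.Global.muGlobal hμ).ζ ^ ((φ g).toAdd).val * ρ := fun g => by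
    have h := Duality.Global.chi_root hμ a g
    rwa [show (Duality.Global.chi hμ a).1 g = (φ g).toAdd from
      congrFun (congrArg Subtype.val hc) g] at h
  have hζ : (Duality.Global.muGlobal hμ).ζ = -1 :=
    (Duality.Global.muGlobal hμ).isPrimitiveRoot.eq_neg_one_of_two_right
  refine ⟨(d : Qb) * ρ, mul_ne_zero (Int.cast_ne_zero.2 hd0) hρ0, hint, ?_, fun g hg => ?_,
    fun g hg => ?_⟩
  · rw [mul_pow, show ρ ^ 2 = ((a : E) : Qb) from rootP_pow _]
    exact mul_mem (pow_mem (intCast_mem E d) 2) (a : E).2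
  · rw [map_mul, map_intCast, hspec, hg, toAdd_one, ZMod.val_zero, pow_zero, one_mul]
  · have h1 : ((φ g).toAdd).val = 1 := by
      have : (φ g).toAdd ≠ 0 := fun h => hg (toAdd_eq_zero.1 h)
      revert this
      generalize (φ g).toAdd = i
      revert i
      decide
    rw [map_mul, map_intCast, hspec, h1, pow_one, hζ]
    ring

theorem cycTwo_eq_one_of_le {m n : ℕ} (h : m ≤ n) {σ : GQ} (hσ : cycTwo n σ = 1) :
    cycTwo m σ = 1 := by
  obtain ⟨j, hj⟩ := Subgroup.mem_zpowers_iff.1 ((QuotientGroup.eq_one_iff _).1 hσ)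
  refine (QuotientGroup.eq_one_iff _).2 (Subgroup.mem_zpowers_iff.2 ⟨j, ?_⟩)
  have hd : 2 ^ m ∣ 2 ^ n := pow_dvd_pow 2 h
  have key : Units.map (ZMod.castHom hd (ZMod (2 ^ m))).toMonoidHom (cycUnit n σ) =
      cycUnit m σ := by
    refine Units.ext ?_
    rw [cycUnit_eq (a := (cycUnit n σ : ZMod (2 ^ n)).val) fun ζ hζ => cycUnit_spec σ (by
      obtain ⟨k, hk⟩ := hd
      rw [hk, pow_mul, hζ, one_pow])]
    show ZMod.castHom hd (ZMod (2 ^ m)) (cycUnit n σ : ZMod (2 ^ n)) = _
    rw [ZMod.castHom_apply, ZMod.natCast_val]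
  rw [← key, ← hj, map_zpow]
  congr 1
  exact Units.ext (by simp)

/-! ### Closeness to `1` -/

/-- `w` is `1` modulo `N` at the places over `2` and `3`. -/
def Close (N : ℕ) (w : Qb) : Prop :=
  ∀ A, IsBadPlace A → A.valuation (w - 1) ≤ A.valuation (N : Qb)

theorem IsBadPlace.smul {A : ValuationSubring Qb} (h : IsBadPlace A) (g : GQ) :
    IsBadPlace (g • A) :=
  h.imp (TW.smul_liesOverPrime · g) (TW.smul_liesOverPrime · g)

theorem IsBadPlace.val_six_lt {A : ValuationSubring Qb} (h : IsBadPlace A) :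
    A.valuation ((6 : ℕ) : Qb) < 1 := by
  rw [show ((6 : ℕ) : Qb) = ((2 : ℕ) : Qb) * ((3 : ℕ) : Qb) by norm_num, map_mul]
  have hle : ∀ n : ℕ, A.valuation (n : Qb) ≤ 1 := fun n =>
    (A.valuation_le_one_iff _).2 (natCast_mem A n)
  rcases h with h | h
  · exact lt_of_le_of_lt (mul_le_of_le_one_right' (hle 3)) h
  · exact lt_of_le_of_lt (mul_le_of_le_one_left' (hle 2)) h

theorem IsBadPlace.val_lt_one {A : ValuationSubring Qb} (h : IsBadPlace A) {N : ℕ} (hN : 6 ∣ N) :
    A.valuation (N : Qb) < 1 := by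
  obtain ⟨k, rfl⟩ := hN
  rw [Nat.cast_mul, map_mul]
  exact lt_of_le_of_lt (mul_le_of_le_one_right' ((A.valuation_le_one_iff _).2 (natCast_mem A k)))
    h.val_six_lt

namespace Close

variable {N : ℕ} {v w : Qb}

theorem one (N : ℕ) : Close N 1 := fun A _ => by simp

theorem of_dvd (h : Close N w) {K : ℕ} (hd : K ∣ N) : Close K w := fun A hA => by
  obtain ⟨k, rfl⟩ := hd
  refine (h A hA).trans ?_
  rw [Nat.cast_mul, map_mul]
  exact mul_le_of_le_one_right' ((A.valuation_le_one_iff _).2 (natCast_mem A k))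

theorem apply (h : Close N w) (g : GQ) : Close N (g w) := fun A hA => by
  rcases eq_or_ne (N : Qb) 0 with hN | hN
  · have h1 := h (g⁻¹ • A) (hA.smul _)
    rw [hN, map_zero, le_zero_iff, map_eq_zero, sub_eq_zero] at h1
    simp [h1]
  have key : ∀ (B : ValuationSubring Qb) (t : Qb), B.valuation t ≤ B.valuation (N : Qb) ↔
      t / N ∈ B := fun B t => by
    rw [← B.valuation_le_one_iff, map_div₀, div_le_one₀ (zero_lt_iff.2 ((map_ne_zero _).2 hN))]
  have h1 := (key _ _).1 (h (g⁻¹ • A) (hA.smul _))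
  rw [ValuationSubring.mem_pointwise_smul_iff_inv_smul_mem, inv_inv, AlgEquiv.smul_def, map_div₀,
    map_natCast, map_sub, map_one] at h1
  exact (key _ _).2 h1

theorem val_eq_one (h : Close N w) (hN : 6 ∣ N) {A : ValuationSubring Qb} (hA : IsBadPlace A) :
    A.valuation w = 1 :=
  Duality.Local.val_eq_one_of_sub_lt ((h A hA).trans_lt (hA.val_lt_one hN))

theorem mul (h : Close N v) (h' : Close N w) : Close N (v * w) := fun A hA => by
  have hv : A.valuation v ≤ 1 := by
    rw [show v = (v - 1) + 1 by ring]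
    exact (A.valuation.map_add _ _).trans (max_le ((h A hA).trans
      ((A.valuation_le_one_iff _).2 (natCast_mem A N))) (map_one _).le)
  rw [show v * w - 1 = v * (w - 1) + (v - 1) by ring]
  exact (A.valuation.map_add _ _).trans (max_le (by
    rw [map_mul]; exact (mul_le_of_le_one_left' hv).trans (h' A hA)) (h A hA))

theorem prod {ι : Type*} (s : Finset ι) (u : ι → Qb) (h : ∀ i ∈ s, Close N (u i)) :
    Close N (∏ i ∈ s, u i) :=
  Finset.prod_induction _ _ (fun _ _ => Close.mul) (Close.one N) h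

theorem inv (h : Close N w) (hN : 6 ∣ N) : Close N w⁻¹ := fun A hA => by
  have hw := h.val_eq_one hN hA
  have hw0 : w ≠ 0 := fun h0 => by simp [h0] at hw
  rw [show w⁻¹ - 1 = -(w - 1) / w by field_simp; ring, map_div₀, Valuation.map_neg, hw, div_one]
  exact h A hA

theorem div (h : Close N v) (h' : Close N w) (hN : 6 ∣ N) : Close N (v / w) := by
  rw [div_eq_mul_inv]
  exact h.mul (h'.inv hN)

end Close

/-- An element close to `1` is a local square. -/
theorem exists_sq_of_close {E : IntermediateField ℚ Qb} {x : Qb} (hxE : x ∈ E) {N : ℕ}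
    (hN : 24 ∣ N) (hx : Close N x) {A : ValuationSubring Qb} (hA : IsBadPlace A) :
    ∃ y ∈ localField E A, y ^ 2 = x := by
  have hζ : IsPrimitiveRoot (-1 : Qb) 2 := IsPrimitiveRoot.neg_one 0 (by norm_num)
  obtain ⟨y, hy, hy2, -⟩ := Duality.Local.exists_pow_eq_of_close hζ (K := E) (A := A)
    (Duality.Local.le_localField hxE) (by
      refine lt_of_le_of_lt (hx A hA) ?_
      obtain ⟨k, rfl⟩ := hN
      rw [← map_pow, show ((-1 : Qb) - 1) ^ 2 = 4 by norm_num,
        show ((24 * k : ℕ) : Qb) = 4 * ((6 * k : ℕ) : Qb) by push_cast; ring, map_mul]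
      exact mul_lt_of_lt_one_right (zero_lt_iff.2 ((map_ne_zero _).2 (by norm_num)))
        (hA.val_lt_one (dvd_mul_right 6 k)))
  exact ⟨y, hy, hy2⟩

end FermatAgent.LT.ClassField
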